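import Fermat.Agent.S34.T.Defs
import Fermat.Agent.S18.Z.Main

/-!
# S34 / TOR, abstract part : a torsion line bundle which is trivial on the special fibre is trivial   (helper22)

Keys: `S34/T-UNIT` (`ONB.inv_mem_VV`), `S34/T-FGK` (`fgBar_kummer`), `S34/T-CECH-p` (`cech_prime`), `S34/T-CECH-n` (`cech`).
No `TwoComp` here: only `ONB`, `FgBar` (chart `τ` only), `Arch`, `conn`.

## T-UNIT
`x ≡ 1 mod 𝔪 VV ⟹ x⁻¹ ∈ VV`.  `M i j = β.repr (x * β j) i ∈ OG` (`repr_mem`), `M - 1` has entries in `𝔪 OG` (`ONB.repr_SmG`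
applied to `(x - 1) β j`), so `det M - 1 ∈ 𝔪 OG`, `(det M)⁻¹ ∈ OG` (`inv_mem_OG_of_not_SmG`, `not_SmG_one`);
`β.repr x⁻¹ = M⁻¹ (β.repr 1)`, `M⁻¹ = (det M)⁻¹ adjugate M` (`KL.det_mem_subring`, `KL.adjugate_mem_subring`);
`ONB.mem_VV_of_repr`.  [Or: `𝔪 VV` lies in every maximal ideal of `VV` because `VV` is integral over the local ring `OG`.]
`x⁻¹ - 1 = - x⁻¹ (x - 1)`.

## T-FGK
`x ∈ C0(E)`, `x = ∑ x_l y^l` (`x_l ∈ F`).  `Tr_{E/F} (x y^(p-l)) = p c0 x_l` (`KL.trace_mul_pow_zero/pos`, `y^p = c0`), and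
`Tr_{E/F}` maps `C0(E)` into `C0(F)` (integral elements; `Algebra.isIntegral_trace`, as in `goodRed_kummer`).  `p⁻¹ ∈ A`.  So
`c0 x = ∑ (c0 x_l) y^l` with `c0 x_l ∈ C0(F)`, and `x - c0 x = - (c0 - 1) x ∈ 𝔪 C0(E)`.  Generators of `C0(E)` mod `𝔪`:
`g y^l`, `g ∈ G_F`, `l < p`.

## T-CECH-p
Put `c0 = f₀^p v ∈ C0(τ)`; `c0 ≡ 1`, so `Sm0 (c0 - 1)` (`Sm0_of_SmV`), `c0⁻¹ ∈ VV` (T-UNIT).  If `c0` is not a `p`-th power,
`E = F[X]/(X^p - c0)` is a field (`X_pow_sub_C_irreducible_of_prime`, exactly as in `KL.theoremZ`), `y` = the root, basis `y^a`.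
`ONB.kummer` gives an `ONB` of `E`, `fgBar_kummer` gives `FgBar A τ E`, `exists_wbasis` + `WBasis.fgC0` give `FgC0 A τ E`.
`y ∈ C0(τ; E)`, `y₁ = (f₁ / f₀) y ∈ C0(τ⁻¹; E)` because `y₁^p = f₁^p v`.
`e0 = p⁻¹ ∑_{a<p} y^a`, `e1 = p⁻¹ ∑ y₁^a` are idempotent mod `𝔪` (computation `hid` in `KL.core`), `e0 - e1 ∈ 𝔪 VV`.
`KL.conn` ⟹ `Sm0 e0` or `Sm0 (e0 - 1)`: impossible, the coordinates of `e0` in the basis `y^a` are all `p⁻¹`
(`hcontra` in `KL.core`, with `ONB.repr_SmG`, `ONB.SmV_of_repr`, `not_SmV_one`).  So `c0 = g^p`, `v = (g / f₀)^p`.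

## T-CECH-n
Strong induction on `n`.  `n = 1` trivial.  `n = p m`: `cech_prime` with `fᵢ^m` gives `v = g^p`.  `xᵢ = fᵢ^m g ∈ C0(θᵢ)`
(`xᵢ^p = fᵢ^n v`).  CLAIM: `g ≡ ζ mod 𝔪 VV` for some `ζ ∈ K`, `ζ^p = 1`.  Then `g' = g / ζ ≡ 1`, `fᵢ^m g' ∈ C0(θᵢ)`, `m⁻¹ = p n⁻¹ ∈ A`,
induction: `g' = h^m`, `v = g^p = g'^p = h^n`.
Proof of the claim: `ω` a primitive `p`-th root of `1` in `K` (it lies in `A`).  For `ζ = ω^j` put
`e0 = p⁻¹ ∑_{a<p} (ζ⁻¹ x₀)^a ∈ C0(τ)`, `e1 = p⁻¹ ∑ (ζ⁻¹ x₁)^a ∈ C0(τ⁻¹)`: idempotents mod `𝔪` since `(ζ⁻¹ xᵢ)^p = fᵢ^n v ≡ 1`;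
`conn` for `F` (`FgC0 A τ F` from `exists_wbasis`, `WBasis.fgC0`).  `∑_j e0(ω^j) = 1`, so not all of them are `Sm0`; for the good `ζ`:
`x₀ - ζ = (x₀ - ζ) e0 - (x₀ - ζ)(e0 - 1)` and `(x₀ - ζ) e0 = ζ p⁻¹ (x₀^p - 1) ∈ 𝔪 C0`.
-/

set_option autoImplicit false
set_option linter.style.haveILetI false
set_option linter.unusedVariables false

noncomputable section

namespace Fermat.Agent.S34.T

open Polynomial Fermat.Agent.S18.KL

variable {K : Type*} [Field K] {A : ValuationSubring K}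
variable {L : Type*} [Field L] [Algebra K L] {τ : L}

/-! ### auxiliary lemmas -/

theorem det_sub_one_mem_aux {R : Type*} [CommRing R] {ι : Type*} [Fintype ι] [DecidableEq ι]
    (I : Ideal R) (M : Matrix ι ι R) (h : ∀ i j, M i j - (1 : Matrix ι ι R) i j ∈ I) :
    M.det - 1 ∈ I := by
  rw [← Ideal.Quotient.eq_zero_iff_mem, map_sub, map_one, sub_eq_zero, RingHom.map_det]
  have : (Ideal.Quotient.mk I).mapMatrix M = 1 := by
    ext i j
    rw [RingHom.mapMatrix_apply, Matrix.map_apply]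
    have h1 := (Ideal.Quotient.eq_zero_iff_mem).mpr (h i j)
    rw [map_sub, sub_eq_zero] at h1
    rw [h1]
    by_cases hij : i = j <;> simp [Matrix.one_apply, hij]
  rw [this, Matrix.det_one]

variable (A τ) in
/-- the ideal `𝔪 OG` -/
def mOG : Ideal (OG A τ) where
  carrier := {x | SmG A τ (x : L)}
  add_mem' := fun ha hb => SmG.add A ha hb
  zero_mem' := ⟨0, zero_mem _, 0, zero_mem _, by simp⟩
  smul_mem' := fun c _ hx => SmG.mul_left A hx c.2

section Cong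

variable {E : Type*} [Field E] [Algebra L E]

theorem mem_VV_of_SmV_sub_one {x : E} (hx : SmV A τ E (x - 1)) : x ∈ VV A τ E := by
  have := (VV A τ E).add_mem hx.mem_VV (VV A τ E).one_mem
  rwa [sub_add_cancel] at this

theorem SmV_mul_sub_one {x y : E} (hx : SmV A τ E (x - 1)) (hy : SmV A τ E (y - 1)) :
    SmV A τ E (x * y - 1) := by
  have := SmV.add A (SmV.mul_left A hy (mem_VV_of_SmV_sub_one hx)) hx
  convert this using 1
  ring

theorem SmV_pow_sub_one {x : E} (hx : SmV A τ E (x - 1)) (n : ℕ) : SmV A τ E (x ^ n - 1) := by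
  induction n with
  | zero => rw [pow_zero, sub_self]; exact SmV_zero_aux
  | succ n ih => rw [pow_succ]; exact SmV_mul_sub_one ih hx

theorem SmV_pow_sub_pow {x y : E} (hx : x ∈ VV A τ E) (hy : y ∈ VV A τ E)
    (h : SmV A τ E (x - y)) (n : ℕ) : SmV A τ E (x ^ n - y ^ n) := by
  induction n with
  | zero => rw [pow_zero, pow_zero, sub_self]; exact SmV_zero_aux
  | succ n ih =>
    have := SmV.add A (SmV.mul_left A ih hx) (SmV.mul_left A h ((VV A τ E).pow_mem hy n))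
    convert this using 1
    ring

theorem ne_zero_of_SmV_sub_one (hτ : Transcendental K τ) (hgen : IsGen K τ) {x : E}
    (hx : SmV A τ E (x - 1)) : x ≠ 0 := by
  rintro rfl
  apply SatB.not_SmV_one (E := E) A hτ hgen
  have := SmV.neg A hx
  simpa using this

end Cong

/-- [S34/T-UNIT] -/
theorem ONB.inv_mem_VV {E : Type*} [Field E] [Algebra L E] [FiniteDimensional L E]
    (hτ : Transcendental K τ) (hgen : IsGen K τ) {ι : Type*} [Fintype ι] (o : ONB A τ E ι)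
    {x : E} (hx : SmV A τ E (x - 1)) : x⁻¹ ∈ VV A τ E ∧ SmV A τ E (x⁻¹ - 1) := by
  classical
  have hxV : x ∈ VV A τ E := mem_VV_of_SmV_sub_one hx
  have hx0 : x ≠ 0 := ne_zero_of_SmV_sub_one hτ hgen hx
  suffices hinv : x⁻¹ ∈ VV A τ E by
    refine ⟨hinv, ?_⟩
    have := SmV.mul_left A hx ((VV A τ E).neg_mem hinv)
    convert this using 1
    field_simp
    ring
  -- the matrix of multiplication by `x`
  let M' : Matrix ι ι (OG A τ) := fun i j =>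
    ⟨o.β.repr (x * o.β j) i, o.repr_mem _ ((VV A τ E).mul_mem hxV (o.mem j)) i⟩
  have hM' : (OG A τ).subtype.mapMatrix M' = Algebra.leftMulMatrix o.β x := by
    ext i j
    rw [Algebra.leftMulMatrix_eq_repr_mul]
    rfl
  have h1 : M'.det - 1 ∈ mOG A τ := by
    refine det_sub_one_mem_aux _ _ fun i j => ?_
    show SmG A τ (((M' i j - (1 : Matrix ι ι (OG A τ)) i j : OG A τ)) : L)
    have e : (((M' i j - (1 : Matrix ι ι (OG A τ)) i j : OG A τ)) : L) =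
        o.β.repr ((x - 1) * o.β j) i := by
      rw [sub_mul, one_mul, map_sub, Finsupp.sub_apply, o.β.repr_self, Finsupp.single_apply,
        AddSubgroupClass.coe_sub, Matrix.one_apply]
      by_cases hij : i = j
      · rw [if_pos hij, if_pos hij.symm]; rfl
      · rw [if_neg hij, if_neg (Ne.symm hij)]; rfl
    rw [e]
    refine o.repr_SmG hτ ?_ i
    rw [mul_comm]
    exact SmV.mul_left A hx (o.mem j)
  have h2 : ¬ SmG A τ ((M'.det : OG A τ) : L) := by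
    intro h
    apply not_SmG_one A hτ
    have h3 : M'.det - (M'.det - 1) ∈ mOG A τ := (mOG A τ).sub_mem h h1
    rw [sub_sub_cancel] at h3
    exact h3
  have h3 : ((M'.det : OG A τ) : L)⁻¹ ∈ OG A τ := inv_mem_OG_of_not_SmG A hτ hgen M'.det.2 h2
  have hdet : (Algebra.leftMulMatrix o.β x).det = ((M'.det : OG A τ) : L) := by
    rw [← hM', ← RingHom.map_det]
    rfl
  have hinvM : Algebra.leftMulMatrix o.β x⁻¹ = (Algebra.leftMulMatrix o.β x)⁻¹ := by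
    symm
    apply Matrix.inv_eq_right_inv
    rw [← map_mul, mul_inv_cancel₀ hx0, map_one]
  have hentry : ∀ i j, Algebra.leftMulMatrix o.β x⁻¹ i j ∈ OG A τ := by
    intro i j
    rw [hinvM, Matrix.inv_def, Ring.inverse_eq_inv', Matrix.smul_apply, smul_eq_mul, hdet]
    refine (OG A τ).mul_mem h3 (adjugate_mem_subring (OG A τ) _ (fun i j => ?_) i j)
    rw [← hM']
    exact (M' i j).2
  refine o.mem_VV_of_repr hτ fun i => ?_
  have h4 := congrFun (Algebra.leftMulMatrix_mulVec_repr o.β x⁻¹ 1) i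
  rw [mul_one] at h4
  rw [← h4, Matrix.mulVec, dotProduct]
  exact (OG A τ).sum_mem fun j _ =>
    (OG A τ).mul_mem (hentry i j) (o.repr_mem 1 (VV A τ E).one_mem j)

section Fgk

theorem Sm0_zero_aux {E : Type*} [Field E] [Algebra L E] : Sm0 A τ E (0 : E) :=
  ⟨0, zero_mem _, 0, zero_mem _, by simp⟩

theorem Sm0_sum_aux {E : Type*} [Field E] [Algebra L E] {κ : Type*} (s : Finset κ) (f : κ → E)
    (h : ∀ i ∈ s, Sm0 A τ E (f i)) : Sm0 A τ E (∑ i ∈ s, f i) :=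
  Finset.sum_induction _ (Sm0 A τ E) (fun _ _ ha hb => Sm0.add A ha hb) Sm0_zero_aux h

/-- `FgBar` from an indexed family -/
theorem fgBar_of_family {E : Type*} [Field E] [Algebra L E] {κ : Type*} [Fintype κ] (e : κ → E)
    (he : ∀ i, e i ∈ C0 A τ E)
    (h : ∀ x ∈ C0 A τ E, ∃ c : κ → (↥A)[X], Sm0 A τ E (x - ∑ i, evE A τ E (c i) * e i)) :
    FgBar A τ E := by
  classical
  refine ⟨Finset.univ.image e, ?_, ?_⟩
  · intro g hg
    obtain ⟨i, -, rfl⟩ := Finset.mem_image.mp hg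
    exact he i
  · intro x hx
    obtain ⟨c, hc⟩ := h x hx
    refine ⟨fun g => ∑ i ∈ Finset.univ.filter (fun i => e i = g), c i, ?_⟩
    convert hc using 2
    rw [← Finset.sum_fiberwise_of_maps_to (s := Finset.univ) (t := Finset.univ.image e) (g := e)
      (fun i _ => Finset.mem_image_of_mem e (Finset.mem_univ i))]
    refine Finset.sum_congr rfl fun g _ => ?_
    rw [map_sum, Finset.sum_mul]
    refine Finset.sum_congr rfl fun i hi => ?_
    rw [(Finset.mem_filter.mp hi).2]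

variable {F : Type*} [Field F] [Algebra L F]
variable {E : Type*} [Field E] [Algebra L E] [Algebra F E] [IsScalarTower L F E]

/-- the relative trace maps `C0(E)` into `C0(F)` -/
theorem trace_mem_C0_aux [FiniteDimensional F E] {x : E} (hx : x ∈ C0 A τ E) :
    Algebra.trace F E x ∈ C0 A τ F := by
  letI : Algebra (↥A)[X] F := (evE A τ F).toAlgebra
  letI : Algebra (↥A)[X] E := (evE A τ E).toAlgebra
  haveI : IsScalarTower (↥A)[X] F E := .of_algebraMap_eq fun P => evE_eq_algebraMap_evE P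
  have h1 : IsIntegral (↥A)[X] x := hx
  exact Algebra.isIntegral_trace h1

theorem Sm0_algebraMap_of_Sm0 {x : F} (hx : Sm0 A τ F x) : Sm0 A τ E (algebraMap F E x) := by
  obtain ⟨a, ha, y, hy, rfl⟩ := hx
  exact ⟨a, ha, algebraMap F E y, algebraMap_mem_C0_of_mem hy,
    by rw [map_mul, ← evE_eq_algebraMap_evE]⟩

end Fgk

/-- [S34/T-FGK] -/
theorem fgBar_kummer [CharZero K] {F : Type*} [Field F] [Algebra L F] [FiniteDimensional L F]
    {E : Type*} [Field E] [Algebra L E] [Algebra F E] [IsScalarTower L F E]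
    (hτ : Transcendental K τ) (hgen : IsGen K τ) (hfg : FgBar A τ F)
    (p : ℕ) (hp : 0 < p) (hpA : ((p : K))⁻¹ ∈ A)
    (c0 : F) (hc0 : c0 ∈ C0 A τ F) (hc1 : Sm0 A τ F (c0 - 1)) (y : E) (hy : y ^ p = algebraMap F E c0)
    (b : Module.Basis (Fin p) F E) (hb : ∀ a, b a = y ^ (a : ℕ)) : FgBar A τ E := by
  classical
  have hFE : FiniteDimensional F E := Module.Finite.of_basis b
  obtain ⟨G, hG, hspan⟩ := hfg
  have hyC : y ∈ C0 A τ E :=
    mem_C0_of_pow_mem hp (by rw [hy]; exact algebraMap_mem_C0_of_mem hc0)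
  have hp0 : (p : F) ≠ 0 := by
    have : (p : F) = algebraMap L F (algebraMap K L (p : K)) := by simp
    rw [this]
    simp only [ne_eq, map_eq_zero]
    exact_mod_cast hp.ne'
  have hpF : ((p : F))⁻¹ ∈ C0 A τ F := by
    have e : ((p : F))⁻¹ = evE A τ F (C ⟨(p : K)⁻¹, hpA⟩) := by
      rw [evE_apply, evL]
      simp
    rw [e]
    exact evE_mem_C0 A τ F _
  have key : ∀ x ∈ C0 A τ E, ∀ l : Fin p, c0 * b.repr x l ∈ C0 A τ F := by
    intro x hx l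
    by_cases hl : (l : ℕ) = 0
    · have h1 := trace_mul_pow_zero hp hy b hb x
      have hl' : l = ⟨0, hp⟩ := Fin.ext hl
      have h2 : b.repr x l = (p : F)⁻¹ * Algebra.trace F E x := by
        rw [h1, hl', ← mul_assoc, inv_mul_cancel₀ hp0, one_mul]
      rw [h2]
      exact (C0 A τ F).mul_mem hc0 ((C0 A τ F).mul_mem hpF (trace_mem_C0_aux hx))
    · have h1 := trace_mul_pow_pos hy b hb x l (Nat.pos_of_ne_zero hl)
      have h2 : c0 * b.repr x l = (p : F)⁻¹ * Algebra.trace F E (x * y ^ (p - (l : ℕ))) := by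
        rw [h1, mul_assoc, ← mul_assoc, inv_mul_cancel₀ hp0, one_mul]
      rw [h2]
      exact (C0 A τ F).mul_mem hpF
        (trace_mem_C0_aux ((C0 A τ E).mul_mem hx ((C0 A τ E).pow_mem hyC _)))
  refine fgBar_of_family (κ := ↥G × Fin p)
    (fun gl => algebraMap F E (gl.1 : F) * y ^ (gl.2 : ℕ)) ?_ ?_
  · rintro ⟨g, l⟩
    exact (C0 A τ E).mul_mem (algebraMap_mem_C0_of_mem (hG g g.2)) ((C0 A τ E).pow_mem hyC _)
  · intro x hx
    choose c hc using fun l => hspan _ (key x hx l)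
    refine ⟨fun gl => c gl.2 gl.1, ?_⟩
    have h1 : Sm0 A τ E (x - algebraMap F E c0 * x) := by
      have := Sm0.neg A (Sm0.mul_left A (Sm0_algebraMap_of_Sm0 (E := E) hc1) hx)
      convert this using 1
      rw [map_sub, map_one]
      ring
    have h3 : Sm0 A τ E (∑ l : Fin p, algebraMap F E
        (c0 * b.repr x l - ∑ g ∈ G, evE A τ F (c l g) * g) * y ^ (l : ℕ)) := by
      refine Sm0_sum_aux _ _ fun l _ => ?_
      rw [mul_comm]
      exact Sm0.mul_left A (Sm0_algebraMap_of_Sm0 (hc l)) ((C0 A τ E).pow_mem hyC _)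
    convert Sm0.add A h1 h3 using 1
    have h4 : algebraMap F E c0 * x = ∑ l : Fin p, algebraMap F E (c0 * b.repr x l) * y ^ (l : ℕ) := by
      conv_lhs => rw [← b.sum_repr x, Finset.mul_sum]
      refine Finset.sum_congr rfl fun l _ => ?_
      rw [hb, Algebra.smul_def, map_mul, mul_assoc]
    have h5 : ∑ gl : ↥G × Fin p, evE A τ E (c gl.2 gl.1) * (algebraMap F E (gl.1 : F) * y ^ (gl.2 : ℕ)) =
        ∑ l : Fin p, algebraMap F E (∑ g ∈ G, evE A τ F (c l g) * g) * y ^ (l : ℕ) := by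
      rw [Fintype.sum_prod_type_right]
      refine Finset.sum_congr rfl fun l _ => ?_
      rw [map_sum, Finset.sum_mul, ← Finset.sum_coe_sort G]
      refine Finset.sum_congr rfl fun g _ => ?_
      rw [map_mul, ← evE_eq_algebraMap_evE, mul_assoc]
    have h6 : ∑ l : Fin p, algebraMap F E
        (c0 * b.repr x l - ∑ g ∈ G, evE A τ F (c l g) * g) * y ^ (l : ℕ) =
        ∑ l : Fin p, algebraMap F E (c0 * b.repr x l) * y ^ (l : ℕ) -
          ∑ l : Fin p, algebraMap F E (∑ g ∈ G, evE A τ F (c l g) * g) * y ^ (l : ℕ) := by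
      rw [← Finset.sum_sub_distrib]
      refine Finset.sum_congr rfl fun l _ => ?_
      rw [map_sub, sub_mul]
    rw [h5, h6, ← h4]
    ring

section Pair

variable {E : Type*} [Field E] [Algebra L E]

theorem SmV_sum_aux {κ : Type*} (s : Finset κ) (f : κ → E)
    (h : ∀ i ∈ s, SmV A τ E (f i)) : SmV A τ E (∑ i ∈ s, f i) :=
  Finset.sum_induction _ (SmV A τ E) (fun _ _ ha hb => SmV.add A ha hb) SmV_zero_aux h

theorem inv_natCast_eq_evE (p : ℕ) (hpA : ((p : K))⁻¹ ∈ A) :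
    ((p : E))⁻¹ = evE A τ E (C ⟨(p : K)⁻¹, hpA⟩) := by
  rw [evE_apply, evL]
  simp

theorem inv_natCast_mem_C0 (p : ℕ) (hpA : ((p : K))⁻¹ ∈ A) : ((p : E))⁻¹ ∈ C0 A τ E := by
  rw [inv_natCast_eq_evE (A := A) (τ := τ) p hpA]
  exact evE_mem_C0 A τ E _

omit [Algebra L E] in
theorem natCast_ne_zero_aux (L : Type*) [Field L] [Algebra K L] [Algebra L E] [CharZero K] {p : ℕ}
    (hp : 0 < p) : (p : E) ≠ 0 := by
  have : (p : E) = algebraMap L E (algebraMap K L (p : K)) := by simp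
  rw [this]
  simp only [ne_eq, map_eq_zero]
  exact_mod_cast hp.ne'

/-- `e = p⁻¹ ∑ u ^ a` is idempotent modulo `𝔪` if `u ^ p ≡ 1` -/
theorem idem_aux [CharZero K] (p : ℕ) (hp : 0 < p) (hpA : ((p : K))⁻¹ ∈ A) {u : E}
    (hu : u ∈ C0 A τ E) (hup : Sm0 A τ E (u ^ p - 1)) :
    ((p : E))⁻¹ * ∑ a ∈ Finset.range p, u ^ a ∈ C0 A τ E ∧
      Sm0 A τ E ((((p : E))⁻¹ * ∑ a ∈ Finset.range p, u ^ a) *
        (((p : E))⁻¹ * ∑ a ∈ Finset.range p, u ^ a) - ((p : E))⁻¹ * ∑ a ∈ Finset.range p, u ^ a) := by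
  have hp0 : (p : E) ≠ 0 := natCast_ne_zero_aux (K := K) L hp
  have hpC : ((p : E))⁻¹ ∈ C0 A τ E := inv_natCast_mem_C0 p hpA
  set s : E := ∑ a ∈ Finset.range p, u ^ a with hs
  have hsC : s ∈ C0 A τ E := (C0 A τ E).sum_mem fun a _ => (C0 A τ E).pow_mem hu a
  set T : E := ∑ a ∈ Finset.range p, ∑ c ∈ Finset.range a, u ^ c with hT
  have hTC : T ∈ C0 A τ E := (C0 A τ E).sum_mem fun a _ =>
    (C0 A τ E).sum_mem fun c _ => (C0 A τ E).pow_mem hu c
  have hsT : s - p = T * (u - 1) := by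
    rw [hT, Finset.sum_mul, hs]
    have : (p : E) = ∑ a ∈ Finset.range p, (1 : E) := by simp
    rw [this, ← Finset.sum_sub_distrib]
    exact Finset.sum_congr rfl fun a _ => (geom_sum_mul u a).symm
  have hsu : s * (u - 1) = u ^ p - 1 := by rw [hs, geom_sum_mul]
  refine ⟨(C0 A τ E).mul_mem hpC hsC, ?_⟩
  have := Sm0.mul_left A hup ((C0 A τ E).mul_mem ((C0 A τ E).mul_mem hpC hpC) hTC)
  convert this using 1
  rw [← hsu]
  have h1 : ((p : E))⁻¹ * s * (((p : E))⁻¹ * s) - ((p : E))⁻¹ * s =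
      ((p : E))⁻¹ * ((p : E))⁻¹ * s * (s - p) + (((p : E))⁻¹ * (p : E) - 1) * (((p : E))⁻¹ * s) := by
    ring
  rw [h1, inv_mul_cancel₀ hp0, hsT]
  ring

/-- the connectedness argument for a pair of `p`-th roots of `1` modulo `𝔪` on the two charts -/
theorem pair_aux [IsAlgClosed K] [CharZero K] [FiniteDimensional L E] (hA : Arch A)
    (hτ : Transcendental K τ) (hgen : IsGen K τ) (hfg : FgC0 A τ E)
    (p : ℕ) (hp : 0 < p) (hpA : ((p : K))⁻¹ ∈ A) {u₀ u₁ : E}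
    (h₀ : u₀ ∈ C0 A τ E) (h₁ : u₁ ∈ C0 A τ⁻¹ E) (hp₀ : Sm0 A τ E (u₀ ^ p - 1))
    (hp₁ : Sm0 A τ⁻¹ E (u₁ ^ p - 1)) (h01 : SmV A τ E (u₀ - u₁)) :
    Sm0 A τ E (((p : E))⁻¹ * ∑ a ∈ Finset.range p, u₀ ^ a) ∨
      Sm0 A τ E (((p : E))⁻¹ * ∑ a ∈ Finset.range p, u₀ ^ a - 1) := by
  obtain ⟨a0, a1⟩ := idem_aux p hp hpA h₀ hp₀
  obtain ⟨b0, b1⟩ := idem_aux p hp hpA h₁ hp₁
  refine conn hτ hgen hA hfg a0 b0 a1 b1 ?_
  have hV0 : u₀ ∈ VV A τ E := C0_le_VV A τ E h₀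
  have hV1 : u₁ ∈ VV A τ E := by
    rw [← VV_inv A hτ]; exact C0_le_VV A τ⁻¹ E h₁
  rw [← mul_sub, ← Finset.sum_sub_distrib]
  exact SmV.mul_left A (SmV_sum_aux _ _ fun a _ => SmV_pow_sub_pow hV0 hV1 h01 a)
    (C0_le_VV A τ E (inv_natCast_mem_C0 p hpA))

end Pair

section Core

variable {F : Type*} [Field F] [Algebra L F] [FiniteDimensional L F]
variable {E : Type*} [Field E] [Algebra L E] [Algebra F E] [IsScalarTower L F E]

theorem cech_core [IsAlgClosed K] [CharZero K] (hA : Arch A) (hτ : Transcendental K τ)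
    (hgen : IsGen K τ) {ι : Type*} [Fintype ι] (o : ONB A τ F ι) (hfg : FgBar A τ F)
    (p : ℕ) (hp : p.Prime) (hpA : ((p : K))⁻¹ ∈ A) (c₀ c₁ w : F)
    (hc₀ : c₀ ∈ C0 A τ F) (hc₁ : c₁ ∈ C0 A τ⁻¹ F) (h₀ : SmV A τ F (c₀ - 1))
    (h₁ : SmV A τ F (c₁ - 1)) (hw : SmV A τ F (w - 1)) (hwc : w ^ p * c₀ = c₁)
    (y : E) (hy : y ^ p = algebraMap F E c₀)
    (b : Module.Basis (Fin p) F E) (hb : ∀ a, b a = y ^ (a : ℕ)) : False := by
  classical
  have : FiniteDimensional F E := Module.Finite.of_basis b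
  have : FiniteDimensional L E := FiniteDimensional.trans L F E
  have hτ' := transcendental_inv' hτ
  have hgen' := isGen_inv hτ hgen
  have hp0F : (p : F) ≠ 0 := natCast_ne_zero_aux (K := K) L hp.pos
  have hc₀V : c₀ ∈ VV A τ F := C0_le_VV A τ F hc₀
  have hc₀V' : c₀⁻¹ ∈ VV A τ F := (o.inv_mem_VV hτ hgen h₀).1
  obtain ⟨o', ho'⟩ := o.kummer hτ hgen p hp.pos hpA c₀ hc₀V hc₀V' y hy b hb
  have hS0 : Sm0 A τ F (c₀ - 1) :=
    Sm0_of_SmV A hτ hgen ((C0 A τ F).sub_mem hc₀ (C0 A τ F).one_mem) h₀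
  have hS1 : Sm0 A τ⁻¹ F (c₁ - 1) :=
    Sm0_of_SmV A hτ' hgen' ((C0 A τ⁻¹ F).sub_mem hc₁ (C0 A τ⁻¹ F).one_mem)
      ((SmV_inv A hτ _).mpr h₁)
  have hfgE : FgBar A τ E := fgBar_kummer hτ hgen hfg p hp.pos hpA c₀ hc₀ hS0 y hy b hb
  obtain ⟨wb⟩ := exists_wbasis hτ hgen o' hfgE
  have hfgC : FgC0 A τ E := wb.fgC0 hτ hgen hA
  have hyC : y ∈ C0 A τ E :=
    mem_C0_of_pow_mem hp.pos (by rw [hy]; exact algebraMap_mem_C0_of_mem hc₀)
  have hy₁ : (algebraMap F E w * y) ^ p = algebraMap F E c₁ := by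
    rw [mul_pow, hy, ← map_pow, ← map_mul, hwc]
  have hy₁C : algebraMap F E w * y ∈ C0 A τ⁻¹ E :=
    mem_C0_of_pow_mem hp.pos (by rw [hy₁]; exact algebraMap_mem_C0_of_mem hc₁)
  have hp₀ : Sm0 A τ E (y ^ p - 1) := by
    have := Sm0_algebraMap_of_Sm0 (E := E) hS0
    rwa [map_sub, map_one, ← hy] at this
  have hp₁ : Sm0 A τ⁻¹ E ((algebraMap F E w * y) ^ p - 1) := by
    have := Sm0_algebraMap_of_Sm0 (E := E) hS1
    rwa [map_sub, map_one, ← hy₁] at this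
  have h01 : SmV A τ E (y - algebraMap F E w * y) := by
    have := SmV.neg A (SmV.mul_left A (SmV_algebraMap_of_SmV (E := E) hw) (C0_le_VV A τ E hyC))
    convert this using 1
    rw [map_sub, map_one]
    ring
  set ε : E := ((p : E))⁻¹ * ∑ a ∈ Finset.range p, y ^ a with hε
  have hεb : ε = ∑ a : Fin p, ((p : F))⁻¹ • b a := by
    rw [hε, Finset.mul_sum, Finset.sum_range]
    refine Finset.sum_congr rfl fun a _ => ?_
    rw [hb, Algebra.smul_def, map_inv₀, map_natCast]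
  have hrepr : ∀ a : Fin p, b.repr ε a = ((p : F))⁻¹ := by
    intro a
    rw [hεb, b.repr_sum_self]
  have hone : (1 : E) = b ⟨0, hp.pos⟩ := by rw [hb]; simp
  have hcontra : ∀ (x : E) (a : Fin p), SmV A τ E x → b.repr x a = ((p : F))⁻¹ → False := by
    intro x a hx hxa
    apply not_SmV_one (E := F) A hτ hgen
    have h3 : SmV A τ F (((p : F))⁻¹) := o.SmV_of_repr hτ fun i => by
      have h4 := o'.repr_SmG hτ hx (i, a)
      rw [ho', Module.Basis.smulTower_repr, hxa] at h4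
      exact h4
    have := SmV.mul_left A h3 (natCast_mem (VV A τ F) p)
    rwa [mul_inv_cancel₀ hp0F] at this
  rcases pair_aux hA hτ hgen hfgC p hp.pos hpA hyC hy₁C hp₀ hp₁ h01 with h | h
  · exact hcontra ε ⟨0, hp.pos⟩ h.SmV (hrepr _)
  · refine hcontra (ε - 1) ⟨1, hp.one_lt⟩ h.SmV ?_
    rw [map_sub, Finsupp.sub_apply, hrepr, hone, b.repr_self, Finsupp.single_apply, if_neg, sub_zero]
    intro h
    simpa using congrArg Fin.val h

end Core

variable {F : Type*} [Field F] [Algebra L F] [FiniteDimensional L F]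

/-- [S34/T-CECH-p] -/
theorem cech_prime [IsAlgClosed K] [CharZero K] (hA : Arch A) (hτ : Transcendental K τ) (hgen : IsGen K τ)
    {ι : Type*} [Fintype ι] (o : ONB A τ F ι) (hfg : FgBar A τ F)
    (p : ℕ) (hp : p.Prime) (hpA : ((p : K))⁻¹ ∈ A) (v f₀ f₁ : F)
    (hv : SmV A τ F (v - 1)) (h₀ : SmV A τ F (f₀ - 1)) (h₁ : SmV A τ F (f₁ - 1))
    (hc₀ : f₀ ^ p * v ∈ C0 A τ F) (hc₁ : f₁ ^ p * v ∈ C0 A τ⁻¹ F) : ∃ g : F, v = g ^ p := by
  by_contra hcon
  push Not at hcon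
  have hf₀ : f₀ ≠ 0 := ne_zero_of_SmV_sub_one hτ hgen h₀
  set c₀ : F := f₀ ^ p * v with hc₀def
  have hcon' : ∀ g : F, g ^ p ≠ c₀ := by
    intro g hg
    apply hcon (g / f₀)
    rw [div_pow, hg, hc₀def]
    field_simp
  have hirr : Irreducible (X ^ p - C c₀ : F[X]) := X_pow_sub_C_irreducible_of_prime hp hcon'
  haveI : Fact (Irreducible (X ^ p - C c₀ : F[X])) := ⟨hirr⟩
  have hmonic : (X ^ p - C c₀ : F[X]).Monic := monic_X_pow_sub_C c₀ hp.ne_zero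
  have hdeg : (X ^ p - C c₀ : F[X]).natDegree = p := natDegree_X_pow_sub_C
  let pb := AdjoinRoot.powerBasis' hmonic
  have hdim : pb.dim = p := hdeg
  let b : Module.Basis (Fin p) F (AdjoinRoot (X ^ p - C c₀ : F[X])) := pb.basis.reindex (finCongr hdim)
  refine cech_core (E := AdjoinRoot (X ^ p - C c₀ : F[X])) hA hτ hgen o hfg p hp hpA c₀ (f₁ ^ p * v)
    (f₁ * f₀⁻¹) hc₀ hc₁ (SmV_mul_sub_one (SmV_pow_sub_one h₀ p) hv)
    (SmV_mul_sub_one (SmV_pow_sub_one h₁ p) hv)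
    (SmV_mul_sub_one h₁ (o.inv_mem_VV hτ hgen h₀).2) ?_ (AdjoinRoot.root _) ?_ b ?_
  · rw [hc₀def, mul_pow, inv_pow, mul_assoc, ← mul_assoc (f₀ ^ p)⁻¹,
      inv_mul_cancel₀ (pow_ne_zero p hf₀), one_mul]
  · have := AdjoinRoot.eval₂_root (X ^ p - C c₀ : F[X])
    rw [eval₂_sub, eval₂_pow, eval₂_X, eval₂_C, sub_eq_zero] at this
    exact this
  · intro a
    simp [b, pb, PowerBasis.coe_basis]

section Roots

theorem mem_of_pow_eq_one_aux {z : K} {p : ℕ} (hp : 0 < p) (h : z ^ p = 1) : z ∈ A := by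
  rcases A.mem_or_inv_mem z with h' | h'
  · exact h'
  · have : z = z⁻¹ ^ (p - 1) := by
      have hz : z ≠ 0 := by
        rintro rfl
        rw [zero_pow hp.ne'] at h
        exact zero_ne_one h
      have h2 : z ^ (p - 1) * z = 1 := by rw [← pow_succ, Nat.sub_add_cancel hp, h]
      rw [inv_pow]
      exact eq_inv_of_mul_eq_one_right h2
    rw [this]
    exact pow_mem h' _

/-- orthogonality of the characters of `μ_p` -/
theorem sum_inv_pow_aux {ω : K} {p : ℕ} (hω : IsPrimitiveRoot ω p) {a : ℕ} (ha : a < p) :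
    ∑ j ∈ Finset.range p, ((ω ^ j)⁻¹) ^ a = if a = 0 then (p : K) else 0 := by
  by_cases h0 : a = 0
  · subst h0
    simp
  rw [if_neg h0]
  have e : ∀ j, ((ω ^ j)⁻¹) ^ a = ((ω ^ a)⁻¹) ^ j := by
    intro j
    rw [inv_pow, inv_pow, ← pow_mul, ← pow_mul, mul_comm]
  simp only [e]
  have h1 : (ω ^ a)⁻¹ ≠ 1 := by
    intro h
    rw [inv_eq_one] at h
    exact hω.pow_ne_one_of_pos_of_lt h0 ha h
  have h2 : ((ω ^ a)⁻¹) ^ p = 1 := by
    rw [inv_pow, ← pow_mul, mul_comm, pow_mul, hω.pow_eq_one, one_pow, inv_one]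
  have h3 := geom_sum_mul ((ω ^ a)⁻¹) p
  rw [h2, sub_self] at h3
  exact (mul_eq_zero.mp h3).resolve_right (sub_ne_zero.mpr h1)

end Roots

omit [FiniteDimensional L F] in
theorem const_mem_C0_aux {z : K} (hz : z ∈ A) : algebraMap L F (algebraMap K L z) ∈ C0 A τ F := by
  have := evE_mem_C0 A τ F (C ⟨z, hz⟩)
  rwa [SatB.evE_C] at this

/-- a `p`-th root of an element `≡ 1` is congruent to a `p`-th root of unity -/
theorem exists_root_of_unity_aux [IsAlgClosed K] [CharZero K] (hA : Arch A)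
    (hτ : Transcendental K τ) (hgen : IsGen K τ) (hfg : FgC0 A τ F)
    (p : ℕ) (hp : p.Prime) (hpA : ((p : K))⁻¹ ∈ A) {x₀ x₁ : F}
    (h₀ : x₀ ∈ C0 A τ F) (h₁ : x₁ ∈ C0 A τ⁻¹ F) (hp₀ : Sm0 A τ F (x₀ ^ p - 1))
    (hp₁ : Sm0 A τ⁻¹ F (x₁ ^ p - 1)) (h01 : SmV A τ F (x₀ - x₁)) :
    ∃ ζ : K, ζ ^ p = 1 ∧ Sm0 A τ F (x₀ - algebraMap L F (algebraMap K L ζ)) := by
  classical
  haveI : NeZero (p : K) := ⟨by exact_mod_cast hp.ne_zero⟩
  obtain ⟨ω, hω⟩ := HasEnoughRootsOfUnity.exists_primitiveRoot K p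
  let κ : K →+* F := (algebraMap L F).comp (algebraMap K L)
  have hκ : ∀ z, κ z = algebraMap L F (algebraMap K L z) := fun z => rfl
  have hp0 : (p : F) ≠ 0 := natCast_ne_zero_aux (K := K) L hp.pos
  have hpow : ∀ j : ℕ, ((ω ^ j)⁻¹) ^ p = 1 := by
    intro j
    rw [inv_pow, ← pow_mul, mul_comm, pow_mul, hω.pow_eq_one, one_pow, inv_one]
  have hzA : ∀ j : ℕ, (ω ^ j)⁻¹ ∈ A := fun j => mem_of_pow_eq_one_aux hp.pos (hpow j)
  let e : ℕ → F := fun j => ((p : F))⁻¹ * ∑ a ∈ Finset.range p, (κ (ω ^ j)⁻¹ * x₀) ^ a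
  have hdich : ∀ j, Sm0 A τ F (e j) ∨ Sm0 A τ F (e j - 1) := by
    intro j
    have hz0 : κ (ω ^ j)⁻¹ ∈ C0 A τ F := const_mem_C0_aux (hzA j)
    have hz1 : κ (ω ^ j)⁻¹ ∈ C0 A τ⁻¹ F := const_mem_C0_aux (hzA j)
    have hzp : (κ (ω ^ j)⁻¹) ^ p = 1 := by rw [← map_pow, hpow, map_one]
    refine pair_aux hA hτ hgen hfg p hp.pos hpA ((C0 A τ F).mul_mem hz0 h₀)
      ((C0 A τ⁻¹ F).mul_mem hz1 h₁) (by rw [mul_pow, hzp, one_mul]; exact hp₀)
      (by rw [mul_pow, hzp, one_mul]; exact hp₁) ?_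
    rw [← mul_sub]
    exact SmV.mul_left A h01 (C0_le_VV A τ F hz0)
  have hsum : ∑ j ∈ Finset.range p, e j = 1 := by
    simp only [e, mul_pow]
    rw [← Finset.mul_sum, Finset.sum_comm]
    have h1 : ∀ a ∈ Finset.range p, ∑ j ∈ Finset.range p, κ (ω ^ j)⁻¹ ^ a * x₀ ^ a =
        if a = 0 then (p : F) else 0 := by
      intro a ha
      rw [← Finset.sum_mul]
      have h2 : ∑ j ∈ Finset.range p, κ (ω ^ j)⁻¹ ^ a = κ (if a = 0 then (p : K) else 0) := by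
        rw [← sum_inv_pow_aux hω (Finset.mem_range.mp ha), map_sum]
        exact Finset.sum_congr rfl fun j _ => (map_pow κ _ _).symm
      rw [h2]
      by_cases h0 : a = 0
      · subst h0; simp
      · simp [h0]
    rw [Finset.sum_congr rfl h1, Finset.sum_ite_eq' (Finset.range p) 0 (fun _ => (p : F)),
      if_pos (Finset.mem_range.mpr hp.pos), inv_mul_cancel₀ hp0]
  obtain ⟨j, hj⟩ : ∃ j, Sm0 A τ F (e j - 1) := by
    by_contra hcon
    push Not at hcon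
    apply not_SmV_one (E := F) A hτ hgen
    rw [← hsum]
    exact (Sm0_sum_aux _ _ fun j _ => (hdich j).resolve_right (hcon j)).SmV
  have hω0 : ω ^ j ≠ 0 := pow_ne_zero _ (hω.ne_zero hp.ne_zero)
  refine ⟨ω ^ j, by rw [← pow_mul, mul_comm, pow_mul, hω.pow_eq_one, one_pow], ?_⟩
  rw [← hκ]
  have hζA : ω ^ j ∈ A := mem_of_pow_eq_one_aux hp.pos
    (by rw [← pow_mul, mul_comm, pow_mul, hω.pow_eq_one, one_pow])
  have hζC : κ (ω ^ j) ∈ C0 A τ F := const_mem_C0_aux hζA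
  have hζz : κ (ω ^ j) * κ (ω ^ j)⁻¹ = 1 := by rw [← map_mul, mul_inv_cancel₀ hω0, map_one]
  have hzp : (κ (ω ^ j)⁻¹) ^ p = 1 := by rw [← map_pow, hpow, map_one]
  have h1 : (x₀ - κ (ω ^ j)) * e j = κ (ω ^ j) * ((p : F))⁻¹ * (x₀ ^ p - 1) := by
    have h2 := geom_sum_mul (κ (ω ^ j)⁻¹ * x₀) p
    rw [mul_pow, hzp, one_mul] at h2
    rw [← h2]
    simp only [e]
    have h3 : x₀ - κ (ω ^ j) = κ (ω ^ j) * (κ (ω ^ j)⁻¹ * x₀ - 1) := by
      rw [mul_sub, ← mul_assoc, hζz, one_mul, mul_one]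
    rw [h3]
    ring
  have h2 : Sm0 A τ F ((x₀ - κ (ω ^ j)) * e j) := by
    rw [h1]
    exact Sm0.mul_left A hp₀ ((C0 A τ F).mul_mem hζC (inv_natCast_mem_C0 p hpA))
  have h3 := Sm0.sub A h2 (Sm0.mul_left A hj ((C0 A τ F).sub_mem h₀ hζC))
  convert h3 using 1
  ring

/-- [S34/T-CECH-n] -/
theorem cech [IsAlgClosed K] [CharZero K] (hA : Arch A) (hτ : Transcendental K τ) (hgen : IsGen K τ)
    {ι : Type*} [Fintype ι] (o : ONB A τ F ι) (hfg : FgBar A τ F)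
    (n : ℕ) (hn : 0 < n) (hnA : ((n : K))⁻¹ ∈ A) (v f₀ f₁ : F)
    (hv : SmV A τ F (v - 1)) (h₀ : SmV A τ F (f₀ - 1)) (h₁ : SmV A τ F (f₁ - 1))
    (hc₀ : f₀ ^ n * v ∈ C0 A τ F) (hc₁ : f₁ ^ n * v ∈ C0 A τ⁻¹ F) : ∃ g : F, v = g ^ n := by
  induction n using Nat.strong_induction_on generalizing v with
  | _ n ih =>
    rcases Nat.lt_or_ge n 2 with h2 | h2
    · have : n = 1 := by omega
      subst this
      exact ⟨v, (pow_one v).symm⟩
    obtain ⟨p, hp, m, rfl⟩ := Nat.exists_prime_and_dvd (show n ≠ 1 by omega)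
    have hm : 0 < m := Nat.pos_of_mul_pos_left hn |> fun h => by
      rcases Nat.eq_zero_or_pos m with rfl | h0
      · simp at hn
      · exact h0
    have hp0K : (p : K) ≠ 0 := by exact_mod_cast hp.ne_zero
    have hm0K : (m : K) ≠ 0 := by exact_mod_cast hm.ne'
    have hpA : ((p : K))⁻¹ ∈ A := by
      have : ((p : K))⁻¹ = (m : K) * (((p * m : ℕ) : K))⁻¹ := by
        push_cast
        field_simp
      rw [this]
      exact A.mul_mem _ _ (natCast_mem A m) hnA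
    have hmA : ((m : K))⁻¹ ∈ A := by
      have : ((m : K))⁻¹ = (p : K) * (((p * m : ℕ) : K))⁻¹ := by
        push_cast
        field_simp
      rw [this]
      exact A.mul_mem _ _ (natCast_mem A p) hnA
    have hτ' := transcendental_inv' hτ
    have hgen' := isGen_inv hτ hgen
    have epow : ∀ f : F, (f ^ m) ^ p = f ^ (p * m) := fun f => by rw [← pow_mul, mul_comm]
    obtain ⟨g, hg⟩ := cech_prime hA hτ hgen o hfg p hp hpA v (f₀ ^ m) (f₁ ^ m) hv
      (SmV_pow_sub_one h₀ m) (SmV_pow_sub_one h₁ m) (by rw [epow]; exact hc₀)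
      (by rw [epow]; exact hc₁)
    have hvV : v ∈ VV A τ F := mem_VV_of_SmV_sub_one hv
    have hgV : g ∈ VV A τ F := mem_VV_of_pow_mem A hτ hp.pos (by rw [← hg]; exact hvV)
    have hx₀p : (f₀ ^ m * g) ^ p = f₀ ^ (p * m) * v := by rw [mul_pow, epow, ← hg]
    have hx₁p : (f₁ ^ m * g) ^ p = f₁ ^ (p * m) * v := by rw [mul_pow, epow, ← hg]
    have hx₀ : f₀ ^ m * g ∈ C0 A τ F := mem_C0_of_pow_mem hp.pos (by rw [hx₀p]; exact hc₀)
    have hx₁ : f₁ ^ m * g ∈ C0 A τ⁻¹ F := mem_C0_of_pow_mem hp.pos (by rw [hx₁p]; exact hc₁)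
    obtain ⟨wb⟩ := exists_wbasis hτ hgen o hfg
    have hfgC : FgC0 A τ F := wb.fgC0 hτ hgen hA
    have hS₀ : Sm0 A τ F ((f₀ ^ m * g) ^ p - 1) := by
      rw [hx₀p]
      exact Sm0_of_SmV A hτ hgen ((C0 A τ F).sub_mem hc₀ (C0 A τ F).one_mem)
        (SmV_mul_sub_one (SmV_pow_sub_one h₀ _) hv)
    have hS₁ : Sm0 A τ⁻¹ F ((f₁ ^ m * g) ^ p - 1) := by
      rw [hx₁p]
      exact Sm0_of_SmV A hτ' hgen' ((C0 A τ⁻¹ F).sub_mem hc₁ (C0 A τ⁻¹ F).one_mem)
        ((SmV_inv A hτ _).mpr (SmV_mul_sub_one (SmV_pow_sub_one h₁ _) hv))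
    have h01 : SmV A τ F (f₀ ^ m * g - f₁ ^ m * g) := by
      have := SmV.mul_left A (SmV.sub A (SmV_pow_sub_one h₀ m) (SmV_pow_sub_one h₁ m)) hgV
      convert this using 1
      ring
    obtain ⟨ζ, hζp, hζ⟩ := exists_root_of_unity_aux hA hτ hgen hfgC p hp hpA hx₀ hx₁ hS₀ hS₁ h01
    have hζ0 : ζ ≠ 0 := by
      rintro rfl
      rw [zero_pow hp.ne_zero] at hζp
      exact zero_ne_one hζp
    have hζi : ζ⁻¹ ^ p = 1 := by rw [inv_pow, hζp, inv_one]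
    have hζiA : ζ⁻¹ ∈ A := mem_of_pow_eq_one_aux hp.pos hζi
    set z : F := algebraMap L F (algebraMap K L ζ⁻¹) with hz
    set ζF : F := algebraMap L F (algebraMap K L ζ) with hζF
    have hzζ : z * ζF = 1 := by
      rw [hz, hζF, ← map_mul, ← map_mul, inv_mul_cancel₀ hζ0, map_one, map_one]
    have hzp : z ^ p = 1 := by rw [hz, ← map_pow, ← map_pow, hζi, map_one, map_one]
    have hz0 : z ∈ C0 A τ F := const_mem_C0_aux hζiA
    have hz1 : z ∈ C0 A τ⁻¹ F := const_mem_C0_aux hζiA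
    have hgζ : SmV A τ F (g - ζF) := by
      have h3 := SmV.sub A hζ.SmV (SmV.mul_left A (SmV_pow_sub_one h₀ m) hgV)
      convert h3 using 1
      ring
    have hg' : SmV A τ F (z * g - 1) := by
      have := SmV.mul_left A hgζ (C0_le_VV A τ F hz0)
      rwa [mul_sub, hzζ] at this
    obtain ⟨h, hh⟩ := ih m (by nlinarith [hp.two_le]) hm hmA (z * g) hg'
      (by rw [mul_left_comm]; exact (C0 A τ F).mul_mem hz0 hx₀)
      (by rw [mul_left_comm]; exact (C0 A τ⁻¹ F).mul_mem hz1 hx₁)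
    refine ⟨h, ?_⟩
    rw [mul_comm p m, pow_mul, ← hh, mul_pow, hzp, one_mul, hg]

end Fermat.Agent.S34.T
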