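import Fermat.Agent.S34.T.Inv
import Fermat.Agent.S34.T.Cech

/-!
# S34 / TOR, abstract part : the toric theorem   (helper22)

`tor : TorStatement`, from `T1` (structure of `J(w)`), `cech` and `conn`.
-/

set_option autoImplicit false

noncomputable section

namespace Fermat.Agent.S34.T

open Polynomial Fermat.Agent.S18.KL

variable {K : Type} [Field K] {A : ValuationSubring K}
variable {L : Type} [Field L] [Algebra K L] {τ : L}
variable {F : Type} [Field F] [Algebra L F]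
variable {Ω₁ Ω₂ : Type} [Field Ω₁] [Field Ω₂]

/-- constants, as a ring hom -/
def cstHom (A : ValuationSubring K) (τ : L) (F : Type) [Field F] [Algebra L F] : A →+* VV A τ F :=
  ((evE A τ F).comp (C : A →+* (↥A)[X])).codRestrict (VV A τ F)
    (fun a => C0_le_VV A τ F (evE_mem_C0 A τ F (C a)))

theorem cst_eq (a : A) : cst A τ F a = cstHom A τ F a := rfl

theorem coe_cstHom (a : A) : ((cstHom A τ F a : VV A τ F) : F) = evE A τ F (C a) := rfl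

theorem TwoComp.SmV_sub_iff (T : TwoComp A τ F Ω₁ Ω₂) (x y : VV A τ F) :
    SmV A τ F ((x : F) - y) ↔ T.res₁ x = T.res₁ y ∧ T.res₂ x = T.res₂ y := by
  have := T.ker (x - y)
  rw [map_sub, map_sub, sub_eq_zero, sub_eq_zero] at this
  exact this.symm

theorem TwoComp.res₁_cst_of_mem (T : TwoComp A τ F Ω₁ Ω₂) {a : A}
    (ha : a ∈ IsLocalRing.maximalIdeal A) : T.res₁ (cstHom A τ F a) = 0 ∧ T.res₂ (cstHom A τ F a) = 0 := by
  rw [T.ker]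
  exact ⟨a, ha, 1, (VV A τ F).one_mem, by rw [mul_one]; rfl⟩

/-- the ring hom induced by `s` on `VV` -/
def sVV (s : F ≃+* F) (hsV : ∀ x ∈ VV A τ F, s x ∈ VV A τ F) : VV A τ F →+* VV A τ F :=
  ((s : F →+* F).comp (VV A τ F).subtype).codRestrict (VV A τ F) (fun x => hsV x x.2)

theorem coe_sVV (s : F ≃+* F) (hsV : ∀ x ∈ VV A τ F, s x ∈ VV A τ F) (x : VV A τ F) :
    ((sVV s hsV x : VV A τ F) : F) = s x := rfl

section T2

variable [FiniteDimensional L F]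

/-- the data of `TorStatement`, for one chart -/
theorem T2 [IsAlgClosed K] [CharZero K] [Algebra K F] [IsScalarTower K L F]
    (hτ : Transcendental K τ) (hgen : IsGen K τ) {ι : Type} [Fintype ι] (o : ONB A τ F ι)
    (T : TwoComp A τ F Ω₁ Ω₂) (c : NodalChart T τ) (n : ℕ) (hn : 0 < n)
    (u u' : VV A τ F) (huu' : u * u' = 1) (a₁ a₂ : A)
    (h₁ : T.res₁ u = T.res₁ (cst A τ F a₁)) (h₂ : T.res₂ u = T.res₂ (cst A τ F a₂))
    (hdiv : ∀ P : AlgebraicCurve.Place K F, (n : ℤ) ∣ P.ord (u : F))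
    (s : F ≃+* F) (Q : ℕ)
    (hsA : ∀ a : A, ∃ a' : A, s (cst A τ F a : F) = (cst A τ F a' : F))
    (hsV : ∀ x ∈ VV A τ F, s x ∈ VV A τ F)
    (hk₁ : ∀ x : VV A τ F, T.res₁ x = 0 → T.res₁ ⟨s x, hsV x x.2⟩ = 0)
    (hk₂ : ∀ x : VV A τ F, T.res₂ x = 0 → T.res₂ ⟨s x, hsV x x.2⟩ = 0)
    (hdivs : ∀ P : AlgebraicCurve.Place K F, (n : ℤ) ∣ P.ord (s (u : F)))
    (hact : ActsLike c s Q) :
    ∃ f₀ : F, f₀ ^ n * (s (u : F) * (u' : F) ^ Q) ∈ C0 A τ F ∧ SmV A τ F (f₀ - 1) := by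
  classical
  set σ := sVV s hsV with hσ
  have hk₁' : ∀ x y : VV A τ F, T.res₁ x = T.res₁ y → T.res₁ (σ x) = T.res₁ (σ y) := by
    intro x y hxy
    have := hk₁ (x - y) (by rw [map_sub, hxy, sub_self])
    have e : (⟨s ((x - y : VV A τ F) : F), hsV _ (x - y).2⟩ : VV A τ F) = σ x - σ y := by
      rw [← map_sub]; rfl
    rw [e, map_sub, sub_eq_zero] at this
    exact this
  have hk₂' : ∀ x y : VV A τ F, T.res₂ x = T.res₂ y → T.res₂ (σ x) = T.res₂ (σ y) := by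
    intro x y hxy
    have := hk₂ (x - y) (by rw [map_sub, hxy, sub_self])
    have e : (⟨s ((x - y : VV A τ F) : F), hsV _ (x - y).2⟩ : VV A τ F) = σ x - σ y := by
      rw [← map_sub]; rfl
    rw [e, map_sub, sub_eq_zero] at this
    exact this
  -- the constants are units
  have hu1 : T.res₁ u * T.res₁ u' = 1 := by rw [← map_mul, huu', map_one]
  have hu2 : T.res₂ u * T.res₂ u' = 1 := by rw [← map_mul, huu', map_one]
  have ha₁ : IsUnit a₁ := T.isUnit_of_res₁_ne_zero (by rw [← h₁]; exact left_ne_zero_of_mul_eq_one hu1)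
  have ha₂ : IsUnit a₂ := T.isUnit_of_res₂_ne_zero (by rw [← h₂]; exact left_ne_zero_of_mul_eq_one hu2)
  obtain ⟨α₁, rfl⟩ := ha₁
  obtain ⟨α₂, rfl⟩ := ha₂
  rw [cst_eq] at h₁ h₂
  have h₁' : T.res₁ u' = T.res₁ (cst A τ F ((α₁⁻¹ : Aˣ) : A)) := by
    rw [cst_eq]
    have e : T.res₁ (cstHom A τ F (α₁ : A)) * T.res₁ (cstHom A τ F ((α₁⁻¹ : Aˣ) : A)) = 1 := by
      rw [← map_mul, ← map_mul, Units.mul_inv, map_one, map_one]
    rw [h₁] at hu1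
    exact mul_left_cancel₀ (left_ne_zero_of_mul_eq_one hu1) (hu1.trans e.symm)
  have h₂' : T.res₂ u' = T.res₂ (cst A τ F ((α₂⁻¹ : Aˣ) : A)) := by
    rw [cst_eq]
    have e : T.res₂ (cstHom A τ F (α₂ : A)) * T.res₂ (cstHom A τ F ((α₂⁻¹ : Aˣ) : A)) = 1 := by
      rw [← map_mul, ← map_mul, Units.mul_inv, map_one, map_one]
    rw [h₂] at hu2
    exact mul_left_cancel₀ (left_ne_zero_of_mul_eq_one hu2) (hu2.trans e.symm)
  -- `u' = u⁻¹`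
  have huF : (u : F) * (u' : F) = 1 := congrArg Subtype.val huu'
  have hu0 : (u : F) ≠ 0 := left_ne_zero_of_mul_eq_one huF
  have hu'0 : (u' : F) ≠ 0 := right_ne_zero_of_mul_eq_one huF
  have hu'inv : (u' : F) = (u : F)⁻¹ := eq_inv_of_mul_eq_one_right huF
  have hdiv' : ∀ P : AlgebraicCurve.Place K F, (n : ℤ) ∣ P.ord (u' : F) := by
    intro P
    rw [hu'inv, P.ord_inv]
    exact (hdiv P).neg_right
  -- the element `v`
  set v : VV A τ F := σ u * u' ^ Q with hv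
  set v' : VV A τ F := σ u' * u ^ Q with hv'
  have hvv' : v * v' = 1 := by
    have : v * v' = σ (u * u') * (u * u') ^ Q := by rw [hv, hv', map_mul, mul_pow]; ring
    rw [this, huu', map_one, one_pow, one_mul]
  obtain ⟨β₁, hβ₁⟩ := hsA (α₁ : A)
  obtain ⟨β₂, hβ₂⟩ := hsA (α₂ : A)
  have hσ₁ : σ (cstHom A τ F (α₁ : A)) = cstHom A τ F β₁ := Subtype.ext hβ₁
  have hσ₂ : σ (cstHom A τ F (α₂ : A)) = cstHom A τ F β₂ := Subtype.ext hβ₂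
  have hv₁ : T.res₁ v = T.res₁ (cst A τ F (β₁ * ((α₁⁻¹ : Aˣ) : A) ^ Q)) := by
    rw [hv, map_mul, map_pow, hk₁' _ _ h₁, hσ₁, h₁', cst_eq, cst_eq, map_mul (cstHom A τ F), map_pow (cstHom A τ F),
      map_mul, map_pow]
  have hv₂ : T.res₂ v = T.res₂ (cst A τ F (β₂ * ((α₂⁻¹ : Aˣ) : A) ^ Q)) := by
    rw [hv, map_mul, map_pow, hk₂' _ _ h₂, hσ₂, h₂', cst_eq, cst_eq, map_mul (cstHom A τ F), map_pow (cstHom A τ F),
      map_mul, map_pow]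
  have hvF : (v : F) = s (u : F) * (u' : F) ^ Q := rfl
  have hsu0 : s (u : F) ≠ 0 := by simpa using hu0
  have hdivv : ∀ P : AlgebraicCurve.Place K F, (n : ℤ) ∣ P.ord (v : F) := by
    intro P
    rw [hvF, P.ord_mul hsu0 (pow_ne_zero _ hu'0), ← zpow_natCast, P.ord_zpow]
    exact dvd_add (hdivs P) ((hdiv' P).mul_left _)
  -- the three applications of `T1`
  obtain ⟨⟨f, hf, hf₁⟩, -, -⟩ := T1 hτ hgen o T c n hn u u' huu' _ _ h₁ h₂ hdiv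
  obtain ⟨⟨f', hf', hf'₁⟩, -, -⟩ := T1 hτ hgen o T c n hn u' u (by rw [mul_comm]; exact huu') _ _ h₁' h₂' hdiv'
  obtain ⟨-, hT, -⟩ := T1 hτ hgen o T c n hn v v' hvv' _ _ hv₁ hv₂ hdivv
  -- `f f' ∈ C0`
  have hff' : (f : F) * (f' : F) ∈ C0 A τ F := by
    have := II.mul_mem_mul hf hf'
    rw [huF] at this
    exact II.mem_one this
  obtain ⟨c₂, hc₂⟩ := II.exists_res₂ hτ c n hn u _ α₂.isUnit h₂ f hf
  obtain ⟨c₂', hc₂'⟩ := II.exists_res₂ hτ c n hn u' _ (α₂⁻¹).isUnit h₂' f' hf'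
  obtain ⟨d₂, hd₂₁, hd₂₂⟩ := hact.cong₂ c₂ (hact.map_C0 _ c₂.2)
  -- the correction term
  set e : C0 A τ F := ⟨(f : F) * (f' : F), hff'⟩ with he
  have hince : c.inc e = f * f' := rfl
  set d₃ : C0 A τ F := e ^ Q - 1 + d₂ * c₂' ^ Q with hd₃
  have hd₃₁ : T.res₁ (c.inc d₃) = 0 := by
    rw [hd₃, map_add, map_sub, map_pow, map_one, map_mul, hince, map_add, map_sub, map_pow, map_mul, map_one,
      map_mul]
    rw [hf₁, hf'₁]
    have : T.res₁ (c.inc d₂) = 0 := hd₂₁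
    rw [this]; simp
  obtain ⟨f₃, hf₃, hf₃₁, hf₃₂⟩ := hT d₃ hd₃₁
  -- `φ = σ f * f' ^ Q`
  have hσf : s (f : F) ∈ II A τ F n hn (s (u : F)) := by
    rw [mem_II, ← map_pow, ← map_mul]
    exact hact.map_C0 _ hf
  have hφ : s (f : F) * (f' : F) ^ Q ∈ II A τ F n hn (v : F) := II.mul_mem_mul hσf (II.pow_mem_pow hf' Q)
  set φ : VV A τ F := σ f * f' ^ Q with hφdef
  refine ⟨((φ - f₃ : VV A τ F) : F), ?_, ?_⟩
  · have := (II A τ F n hn (v : F)).sub_mem hφ hf₃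
    exact this
  · have h1 : ((φ - f₃ : VV A τ F) : F) - 1 = ((φ - f₃ : VV A τ F) : F) - ((1 : VV A τ F) : F) := rfl
    rw [h1, T.SmV_sub_iff]
    constructor
    · rw [map_sub, hf₃₁, hφdef, map_mul, map_pow, hf'₁, hk₁' f 1 (by rw [hf₁, map_one]), map_one, map_one]
      simp
    · have hσc : σ (c.inc c₂) = c.inc ⟨s (c₂ : F), hact.map_C0 _ c₂.2⟩ := rfl
      have hd₂₂' : T.res₂ (c.inc d₂) = T.res₂ (c.inc ⟨s (c₂ : F), hact.map_C0 _ c₂.2⟩) - T.res₂ (c.inc c₂) ^ Q :=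
        hd₂₂
      rw [map_sub, hf₃₂, hφdef, map_mul, map_pow, hk₂' f (c.inc c₂) hc₂.symm, hσc, hd₃, map_add, map_sub, map_pow,
        map_one, map_mul, hince, map_add, map_sub, map_pow, map_mul, map_one, map_mul, hd₂₂', map_pow, map_pow,
        hc₂, hc₂']
      ring

end T2

section T3

variable [FiniteDimensional L F]

omit [FiniteDimensional L F] in
theorem evE_C_inv (a : A) : evE A τ⁻¹ F (C a) = evE A τ F (C a) := by
  rw [SatB.evE_C, SatB.evE_C]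

theorem T3 [IsAlgClosed K] [CharZero K] (hA : Arch A)
    (hτ : Transcendental K τ) (hgen : IsGen K τ) {ι : Type} [Fintype ι] (o : ONB A τ F ι)
    (T : TwoComp A τ F Ω₁ Ω₂) (hfg : FgBar A τ F) (n : ℕ) (hn : 0 < n) (hnA : ((n : K))⁻¹ ∈ A)
    (v v' : VV A τ F) (hvv' : v * v' = 1) (b₁ b₂ : A)
    (hv₁ : T.res₁ v = T.res₁ (cst A τ F b₁)) (hv₂ : T.res₂ v = T.res₂ (cst A τ F b₂))
    (f₀ f₁ : F) (hc₀ : f₀ ^ n * (v : F) ∈ C0 A τ F) (h₀ : SmV A τ F (f₀ - 1))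
    (hc₁ : f₁ ^ n * (v : F) ∈ C0 A τ⁻¹ F) (h₁ : SmV A τ F (f₁ - 1)) :
    ∃ h : F, (v : F) = h ^ n := by
  classical
  have hτ' := transcendental_inv' hτ
  have hgen' := isGen_inv hτ hgen
  rw [cst_eq] at hv₁ hv₂
  have hb₁ : IsUnit b₁ := T.isUnit_of_res₁_ne_zero (by
    rw [cst_eq, ← hv₁]
    exact left_ne_zero_of_mul_eq_one (b := T.res₁ v') (by rw [← map_mul, hvv', map_one]))
  obtain ⟨β₁, rfl⟩ := hb₁
  -- `f₀, f₁` as elements of `VV`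
  have hf₀V : f₀ ∈ VV A τ F := by
    have := (VV A τ F).add_mem h₀.mem_VV (VV A τ F).one_mem
    rwa [sub_add_cancel] at this
  have hf₁V : f₁ ∈ VV A τ F := by
    have := (VV A τ F).add_mem h₁.mem_VV (VV A τ F).one_mem
    rwa [sub_add_cancel] at this
  set φ₀ : VV A τ F := ⟨f₀, hf₀V⟩ with hφ₀
  set φ₁ : VV A τ F := ⟨f₁, hf₁V⟩ with hφ₁
  obtain ⟨hφ₀₁, hφ₀₂⟩ := (T.SmV_sub_iff φ₀ 1).mp h₀
  obtain ⟨hφ₁₁, hφ₁₂⟩ := (T.SmV_sub_iff φ₁ 1).mp h₁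
  rw [map_one] at hφ₀₁ hφ₀₂ hφ₁₁ hφ₁₂
  -- the two constants agree
  have hconst : T.res₂ (cstHom A τ F b₂) = T.res₂ (cstHom A τ F (β₁ : A)) := by
    by_cases hδ : b₂ - (β₁ : A) ∈ IsLocalRing.maximalIdeal A
    · have := (T.res₁_cst_of_mem hδ).2
      rwa [map_sub, map_sub, sub_eq_zero] at this
    · exfalso
      rw [IsLocalRing.mem_maximalIdeal, mem_nonunits_iff, not_not] at hδ
      obtain ⟨δ, hδ⟩ := hδ
      obtain ⟨gb⟩ := exists_wbasis hτ hgen o hfg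
      have hfgC : FgC0 A τ F := gb.fgC0 hτ hgen hA
      set E₀ : VV A τ F := (φ₀ ^ n * v - cstHom A τ F (β₁ : A)) * cstHom A τ F ((δ⁻¹ : Aˣ) : A) with hE₀
      set E₁ : VV A τ F := (φ₁ ^ n * v - cstHom A τ F (β₁ : A)) * cstHom A τ F ((δ⁻¹ : Aˣ) : A) with hE₁
      have hδ2 : (T.res₂ (cstHom A τ F b₂) - T.res₂ (cstHom A τ F (β₁ : A))) *
          T.res₂ (cstHom A τ F ((δ⁻¹ : Aˣ) : A)) = 1 := by
        rw [← map_sub, ← map_sub, ← hδ, ← map_mul, ← map_mul, Units.mul_inv, map_one, map_one]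
      have hE₀₁ : T.res₁ E₀ = 0 := by
        rw [hE₀, map_mul, map_sub, map_mul, map_pow, hφ₀₁, hv₁]; simp
      have hE₁₁ : T.res₁ E₁ = 0 := by
        rw [hE₁, map_mul, map_sub, map_mul, map_pow, hφ₁₁, hv₁]; simp
      have hE₀₂ : T.res₂ E₀ = 1 := by
        rw [hE₀, map_mul, map_sub, map_mul, map_pow, hφ₀₂, hv₂, one_pow, one_mul, hδ2]
      have hE₁₂ : T.res₂ E₁ = 1 := by
        rw [hE₁, map_mul, map_sub, map_mul, map_pow, hφ₁₂, hv₂, one_pow, one_mul, hδ2]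
      have he0 : (E₀ : F) ∈ C0 A τ F :=
        (C0 A τ F).mul_mem ((C0 A τ F).sub_mem hc₀ (evE_mem_C0 A τ F _)) (evE_mem_C0 A τ F _)
      have he1 : (E₁ : F) ∈ C0 A τ⁻¹ F := by
        have e : (E₁ : F) = (f₁ ^ n * (v : F) - evE A τ⁻¹ F (C (β₁ : A))) * evE A τ⁻¹ F (C ((δ⁻¹ : Aˣ) : A)) := by
          rw [evE_C_inv, evE_C_inv]; rfl
        rw [e]
        exact (C0 A τ⁻¹ F).mul_mem ((C0 A τ⁻¹ F).sub_mem hc₁ (evE_mem_C0 A τ⁻¹ F _)) (evE_mem_C0 A τ⁻¹ F _)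
      have hs0 : SmV A τ F ((E₀ : F) * E₀ - E₀) :=
        (T.SmV_sub_iff (E₀ * E₀) E₀).mpr ⟨by rw [map_mul, hE₀₁, mul_zero], by rw [map_mul, hE₀₂, mul_one]⟩
      have hs1 : SmV A τ F ((E₁ : F) * E₁ - E₁) :=
        (T.SmV_sub_iff (E₁ * E₁) E₁).mpr ⟨by rw [map_mul, hE₁₁, mul_zero], by rw [map_mul, hE₁₂, mul_one]⟩
      have hi0 : Sm0 A τ F ((E₀ : F) * E₀ - E₀) :=
        Sm0_of_SmV A hτ hgen ((C0 A τ F).sub_mem ((C0 A τ F).mul_mem he0 he0) he0) hs0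
      have hi1 : Sm0 A τ⁻¹ F ((E₁ : F) * E₁ - E₁) :=
        Sm0_of_SmV A hτ' hgen' ((C0 A τ⁻¹ F).sub_mem ((C0 A τ⁻¹ F).mul_mem he1 he1) he1)
          ((SmV_inv A hτ _).mpr hs1)
      have h01 : SmV A τ F ((E₀ : F) - E₁) :=
        (T.SmV_sub_iff E₀ E₁).mpr ⟨by rw [hE₀₁, hE₁₁], by rw [hE₀₂, hE₁₂]⟩
      rcases conn hτ hgen hA hfgC he0 he1 hi0 hi1 h01 with h | h
      · have := ((T.ker E₀).mpr h.SmV).2
        rw [hE₀₂] at this
        exact one_ne_zero this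
      · have := ((T.SmV_sub_iff E₀ 1).mp h.SmV).1
        rw [hE₀₁, map_one] at this
        exact zero_ne_one this
  -- normalise the constant
  set v₁ : VV A τ F := v * cstHom A τ F ((β₁⁻¹ : Aˣ) : A) with hv₁def
  have hv₁1 : SmV A τ F ((v₁ : F) - 1) := by
    refine (T.SmV_sub_iff v₁ 1).mpr ⟨?_, ?_⟩
    · rw [hv₁def, map_mul, hv₁, ← map_mul, ← map_mul, Units.mul_inv, map_one]
    · rw [hv₁def, map_mul, hv₂, hconst, ← map_mul, ← map_mul, Units.mul_inv, map_one]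
  have hd₀ : f₀ ^ n * (v₁ : F) ∈ C0 A τ F := by
    have e : f₀ ^ n * (v₁ : F) = f₀ ^ n * (v : F) * evE A τ F (C ((β₁⁻¹ : Aˣ) : A)) := by
      rw [mul_assoc]; rfl
    rw [e]; exact (C0 A τ F).mul_mem hc₀ (evE_mem_C0 A τ F _)
  have hd₁ : f₁ ^ n * (v₁ : F) ∈ C0 A τ⁻¹ F := by
    have e : f₁ ^ n * (v₁ : F) = f₁ ^ n * (v : F) * evE A τ⁻¹ F (C ((β₁⁻¹ : Aˣ) : A)) := by
      rw [mul_assoc, evE_C_inv]; rfl
    rw [e]; exact (C0 A τ⁻¹ F).mul_mem hc₁ (evE_mem_C0 A τ⁻¹ F _)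
  obtain ⟨g, hg⟩ := cech hA hτ hgen o hfg n hn hnA (v₁ : F) f₀ f₁ hv₁1 h₀ h₁ hd₀ hd₁
  obtain ⟨α, hα⟩ := IsAlgClosed.exists_pow_nat_eq ((β₁ : A) : K) hn
  refine ⟨algebraMap L F (algebraMap K L α) * g, ?_⟩
  have e1 : v = v₁ * cstHom A τ F (β₁ : A) := by
    rw [hv₁def, mul_assoc, ← map_mul, Units.inv_mul, map_one, mul_one]
  have e2 : (v : F) = (v₁ : F) * evE A τ F (C (β₁ : A)) := congrArg Subtype.val e1
  rw [e2, hg, SatB.evE_C, ← hα, map_pow, map_pow, mul_pow, mul_comm]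

end T3

section Tor

variable [FiniteDimensional L F]

/-- the constants of `v = s u / u ^ Q` -/
theorem vdata (T : TwoComp A τ F Ω₁ Ω₂) (u u' : VV A τ F) (huu' : u * u' = 1) (a₁ a₂ : A)
    (h₁ : T.res₁ u = T.res₁ (cst A τ F a₁)) (h₂ : T.res₂ u = T.res₂ (cst A τ F a₂))
    (s : F ≃+* F) (Q : ℕ)
    (hsA : ∀ a : A, ∃ a' : A, s (cst A τ F a : F) = (cst A τ F a' : F))
    (hsV : ∀ x ∈ VV A τ F, s x ∈ VV A τ F)
    (hk₁ : ∀ x : VV A τ F, T.res₁ x = 0 → T.res₁ ⟨s x, hsV x x.2⟩ = 0)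
    (hk₂ : ∀ x : VV A τ F, T.res₂ x = 0 → T.res₂ ⟨s x, hsV x x.2⟩ = 0) :
    ∃ b₁ b₂ : A, T.res₁ (sVV s hsV u * u' ^ Q) = T.res₁ (cst A τ F b₁) ∧
      T.res₂ (sVV s hsV u * u' ^ Q) = T.res₂ (cst A τ F b₂) ∧
      (sVV s hsV u * u' ^ Q) * (sVV s hsV u' * u ^ Q) = 1 := by
  set σ := sVV s hsV with hσ
  have hk₁' : ∀ x y : VV A τ F, T.res₁ x = T.res₁ y → T.res₁ (σ x) = T.res₁ (σ y) := by
    intro x y hxy
    have := hk₁ (x - y) (by rw [map_sub, hxy, sub_self])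
    have e : (⟨s ((x - y : VV A τ F) : F), hsV _ (x - y).2⟩ : VV A τ F) = σ x - σ y := by
      rw [← map_sub]; rfl
    rw [e, map_sub, sub_eq_zero] at this
    exact this
  have hk₂' : ∀ x y : VV A τ F, T.res₂ x = T.res₂ y → T.res₂ (σ x) = T.res₂ (σ y) := by
    intro x y hxy
    have := hk₂ (x - y) (by rw [map_sub, hxy, sub_self])
    have e : (⟨s ((x - y : VV A τ F) : F), hsV _ (x - y).2⟩ : VV A τ F) = σ x - σ y := by
      rw [← map_sub]; rfl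
    rw [e, map_sub, sub_eq_zero] at this
    exact this
  have hu1 : T.res₁ u * T.res₁ u' = 1 := by rw [← map_mul, huu', map_one]
  have hu2 : T.res₂ u * T.res₂ u' = 1 := by rw [← map_mul, huu', map_one]
  have ha₁ : IsUnit a₁ := T.isUnit_of_res₁_ne_zero (by rw [← h₁]; exact left_ne_zero_of_mul_eq_one hu1)
  have ha₂ : IsUnit a₂ := T.isUnit_of_res₂_ne_zero (by rw [← h₂]; exact left_ne_zero_of_mul_eq_one hu2)
  obtain ⟨α₁, rfl⟩ := ha₁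
  obtain ⟨α₂, rfl⟩ := ha₂
  rw [cst_eq] at h₁ h₂
  have h₁' : T.res₁ u' = T.res₁ (cst A τ F ((α₁⁻¹ : Aˣ) : A)) := by
    rw [cst_eq]
    have e : T.res₁ (cstHom A τ F (α₁ : A)) * T.res₁ (cstHom A τ F ((α₁⁻¹ : Aˣ) : A)) = 1 := by
      rw [← map_mul, ← map_mul, Units.mul_inv, map_one, map_one]
    rw [h₁] at hu1
    exact mul_left_cancel₀ (left_ne_zero_of_mul_eq_one hu1) (hu1.trans e.symm)
  have h₂' : T.res₂ u' = T.res₂ (cst A τ F ((α₂⁻¹ : Aˣ) : A)) := by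
    rw [cst_eq]
    have e : T.res₂ (cstHom A τ F (α₂ : A)) * T.res₂ (cstHom A τ F ((α₂⁻¹ : Aˣ) : A)) = 1 := by
      rw [← map_mul, ← map_mul, Units.mul_inv, map_one, map_one]
    rw [h₂] at hu2
    exact mul_left_cancel₀ (left_ne_zero_of_mul_eq_one hu2) (hu2.trans e.symm)
  obtain ⟨β₁, hβ₁⟩ := hsA (α₁ : A)
  obtain ⟨β₂, hβ₂⟩ := hsA (α₂ : A)
  have hσ₁ : σ (cstHom A τ F (α₁ : A)) = cstHom A τ F β₁ := Subtype.ext hβ₁
  have hσ₂ : σ (cstHom A τ F (α₂ : A)) = cstHom A τ F β₂ := Subtype.ext hβ₂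
  refine ⟨β₁ * ((α₁⁻¹ : Aˣ) : A) ^ Q, β₂ * ((α₂⁻¹ : Aˣ) : A) ^ Q, ?_, ?_, ?_⟩
  · rw [map_mul, map_pow, hk₁' _ _ h₁, hσ₁, h₁', cst_eq, cst_eq, map_mul (cstHom A τ F), map_pow (cstHom A τ F),
      map_mul, map_pow]
  · rw [map_mul, map_pow, hk₂' _ _ h₂, hσ₂, h₂', cst_eq, cst_eq, map_mul (cstHom A τ F), map_pow (cstHom A τ F),
      map_mul, map_pow]
  · have : (σ u * u' ^ Q) * (σ u' * u ^ Q) = σ (u * u') * (u * u') ^ Q := by rw [map_mul, mul_pow]; ring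
    rw [this, huu', map_one, one_pow, one_mul]

theorem ActsLike.inv {T : TwoComp A τ F Ω₁ Ω₂} {c : NodalChart T τ⁻¹} {s : F ≃+* F} {Q : ℕ}
    (h : ActsLike c s Q) (hτ : Transcendental K τ) : ActsLike (c.inv hτ) s Q where
  map_C0 := h.map_C0
  cong₁ := fun x hx => h.cong₁ x hx
  cong₂ := fun x hx => h.cong₂ x hx

/-- **the abstract toric theorem** -/
theorem tor : TorStatement := by
  intro K _ _ _ A hA L _ _ τ hτ hgen F _ _ _ _ _ ι _ o Ω₁ Ω₂ _ _ T c0 c1 n hn hnA u u' huu' a₁ a₂ h₁ h₂ hdiv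
    s Q _ hsA hsV hk₁ hk₂ hdivs hact0 hact1
  have hτ' := transcendental_inv' hτ
  have hgen' := isGen_inv hτ hgen
  have hVV : VV A τ⁻¹ F = VV A τ F := VV_inv A hτ
  -- chart `τ`
  obtain ⟨f₀, hc₀, hf₀⟩ := T2 hτ hgen o T c0 n hn u u' huu' a₁ a₂ h₁ h₂ hdiv s Q hsA hsV hk₁ hk₂ hdivs hact0
  -- chart `τ⁻¹`
  have hcst : ∀ a : A, (cst A τ⁻¹ F a : F) = (cst A τ F a : F) := fun a => evE_C_inv a
  obtain ⟨f₁, hc₁, hf₁⟩ := T2 (τ := τ⁻¹) hτ' hgen' (o.inv hτ) (T.inv hτ) (c1.inv hτ) n hn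
    (Subring.inclusion hVV.ge u) (Subring.inclusion hVV.ge u') (Subtype.ext (congrArg Subtype.val huu' : (u : F) * (u' : F) = 1)) a₁ a₂
    (h₁.trans (congrArg T.res₁ (Subtype.ext (hcst a₁).symm)))
    (h₂.trans (congrArg T.res₂ (Subtype.ext (hcst a₂).symm)))
    hdiv s Q
    (fun a => by
      obtain ⟨a', ha'⟩ := hsA a
      exact ⟨a', by rw [hcst, hcst]; exact ha'⟩)
    (fun x hx => by rw [hVV] at hx ⊢; exact hsV x hx)
    (fun x hx => hk₁ (Subring.inclusion hVV.le x) hx)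
    (fun x hx => hk₂ (Subring.inclusion hVV.le x) hx)
    hdivs (hact1.inv hτ)
  rw [SmV_inv A hτ] at hf₁
  obtain ⟨b₁, b₂, hv₁, hv₂, hvv'⟩ := vdata T u u' huu' a₁ a₂ h₁ h₂ s Q hsA hsV hk₁ hk₂
  obtain ⟨h, hh⟩ := T3 hA hτ hgen o T c0.fg n hn hnA _ _ hvv' b₁ b₂ hv₁ hv₂ f₀ f₁ hc₀ hf₀ hc₁ hf₁
  refine ⟨h, ?_⟩
  have hvF : s (u : F) * (u' : F) ^ Q = h ^ n := hh
  have huF : (u : F) * (u' : F) = 1 := congrArg Subtype.val huu'
  calc s (u : F) = s (u : F) * ((u' : F) * (u : F)) ^ Q := by rw [mul_comm (u' : F), huF, one_pow, mul_one]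
    _ = (u : F) ^ Q * (s (u : F) * (u' : F) ^ Q) := by rw [mul_pow]; ring
    _ = (u : F) ^ Q * h ^ n := by rw [hvF]

end Tor

end Fermat.Agent.S34.T
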