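import Fermat.Agent.S18.Z.Cbar

/-!
# S34 / WK-1 : auxiliary lemmas for `exists_wbasis` (helper21)

Everything is stated with raw data (no `ONB`, `WBasis`, `FgBar`), so that `S34/T/Weak.lean` can import this file.

* `span_monic`  : monic denominators can be removed;
* `span_const`  : constant denominators can be removed;
* `exists_d1`   : `gen` + `indep` give `d1 ≡ 1` with `d1 C0 ⊂ ∑ A[τ] w_i` (denominator = discriminant, characteristic `0`);
* `linearIndependent_of_indep` : `indep` implies `L`-independence;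
* `exists_wbasis_raw` : the theorem.
-/

set_option autoImplicit false

noncomputable section

namespace Fermat.Agent.S34.T.WeakAux

open Polynomial Fermat.Agent.S18.KL

variable {K : Type*} [Field K] {A : ValuationSubring K}
variable {L : Type*} [Field L] [Algebra K L] {τ : L}
variable {E : Type*} [Field E] [Algebra L E]

/-- monic denominators can be removed -/
theorem span_monic [FiniteDimensional L E] (hτ : Transcendental K τ) (hgen : IsGen K τ) {n : ℕ}
    (w : Module.Basis (Fin n) L E) (hw : ∀ i, w i ∈ C0 A τ E)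
    (hgenC : ∀ x ∈ C0 A τ E, ∃ c : Fin n → (↥A)[X],
      Sm0 A τ E (x - ∑ i, evE A τ E (c i) * w i))
    (hind : ∀ c : Fin n → (↥A)[X], Sm0 A τ E (∑ i, evE A τ E (c i) * w i) →
      ∀ i, redP A (c i) = 0)
    {d0 : (↥A)[X]} (hd0 : d0.Monic) {y : E} (hy : y ∈ C0 A τ E) (g : Fin n → (↥A)[X])
    (hg : ∀ i, evL A τ d0 * w.repr y i = evL A τ (g i)) (i : Fin n) :
    ∃ c : (↥A)[X], w.repr y i = evL A τ c := by
  classical
  set q : Fin n → (↥A)[X] := fun i => g i /ₘ d0 with hq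
  set ρ : Fin n → (↥A)[X] := fun i => g i %ₘ d0 with hρ
  have hρq : ∀ i, g i - d0 * q i = ρ i := fun i => by
    rw [sub_eq_iff_eq_add]
    exact (Polynomial.modByMonic_add_div (g i) d0).symm
  set x3 := y - ∑ i, evE A τ E (q i) * w i with hx3
  have hx3mem : x3 ∈ C0 A τ E :=
    (C0 A τ E).sub_mem hy
      (Subring.sum_mem _ fun i _ => (C0 A τ E).mul_mem (evE_mem_C0 A τ E _) (hw i))
  have key : evE A τ E d0 * x3 = ∑ i, evE A τ E (ρ i) * w i := by
    rw [hx3, BasisAux.evE_mul_sub_sum w d0 _ g q hg]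
    simp_rw [hρq]
  have hd00 : evE A τ E d0 ≠ 0 := BasisAux.evE_ne_zero hτ hd0.ne_zero
  by_cases hall : ∀ i, ρ i = 0
  · have hx30 : x3 = 0 := by
      have : evE A τ E d0 * x3 = 0 := by
        rw [key]
        exact Finset.sum_eq_zero fun i _ => by rw [hall i, map_zero, zero_mul]
      exact (mul_eq_zero.mp this).resolve_left hd00
    refine ⟨q i, ?_⟩
    have e1 : w.repr x3 i = 0 := by rw [hx30, map_zero]; rfl
    rw [hx3, map_sub, Finsupp.sub_apply, BasisAux.repr_sum_evE, sub_eq_zero] at e1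
    exact e1
  · exfalso
    push Not at hall
    obtain ⟨α, hα, ρ', ⟨i1, hi1⟩, hρ'⟩ := exists_content_family A ρ hall
    have hα0 : evE A τ E (C α) ≠ 0 := BasisAux.evE_ne_zero hτ (by simpa using hα)
    set x4 := (evE A τ E (C α))⁻¹ * x3 with hx4
    have key4 : evE A τ E d0 * x4 = ∑ i, evE A τ E (ρ' i) * w i := by
      apply mul_left_cancel₀ hα0
      rw [Finset.mul_sum]
      have : evE A τ E (C α) * (evE A τ E d0 * x4) = evE A τ E d0 * x3 := by
        rw [hx4]
        field_simp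
      rw [this, key]
      refine Finset.sum_congr rfl fun i _ => ?_
      rw [hρ' i, map_mul, mul_assoc]
    have hx4VV : x4 ∈ VV A τ E := by
      refine ⟨d0, BasisAux.redP_monic_ne_zero hd0, ?_⟩
      rw [key4]
      exact Subring.sum_mem _ fun i _ => (C0 A τ E).mul_mem (evE_mem_C0 A τ E _) (hw i)
    have hx4B0 : x4 ∈ B0 K τ E :=
      (B0 K τ E).mul_mem (BasisAux.inv_evE_C_mem_B0 hα) (C0_le_B0 A hx3mem)
    have hx4mem : x4 ∈ C0 A τ E := mem_C0_of_mem_B0_VV A hτ hgen hx4B0 hx4VV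
    obtain ⟨P, hP⟩ := hgenC x4 hx4mem
    have hg4 : ∀ i, evL A τ d0 * w.repr x4 i = evL A τ (ρ' i) := by
      intro i
      have e1 : w.repr (evE A τ E d0 * x4) i = w.repr (∑ i, evE A τ E (ρ' i) * w i) i := by
        rw [key4]
      rwa [BasisAux.repr_sum_evE, BasisAux.evE_mul_eq_smul, map_smul, Finsupp.smul_apply,
        smul_eq_mul] at e1
    have h5 := Sm0.mul_left A hP (evE_mem_C0 A τ E d0)
    rw [BasisAux.evE_mul_sub_sum w d0 x4 ρ' P hg4] at h5
    have h6 := hind _ h5 i1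
    rw [map_sub, map_mul, sub_eq_zero] at h6
    have h7 : (redP A d0).degree ≤ (redP A (ρ' i1)).degree :=
      Polynomial.degree_le_of_dvd ⟨_, h6⟩ hi1
    have h8 : (redP A (ρ' i1)).degree ≤ (ρ' i1).degree := Polynomial.degree_map_le
    have h9 : (ρ' i1).degree = (ρ i1).degree := by
      rw [hρ' i1, Polynomial.degree_C_mul hα]
    have h10 : (ρ i1).degree < d0.degree := Polynomial.degree_modByMonic_lt _ hd0
    have h11 : (redP A d0).degree = d0.degree := hd0.degree_map (IsLocalRing.residue A)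
    rw [h11] at h7
    rw [h9] at h8
    exact absurd (lt_of_le_of_lt (h7.trans h8) h10) (lt_irrefl _)

/-- constant denominators can be removed -/
theorem span_const (hτ : Transcendental K τ) {n : ℕ}
    (w : Module.Basis (Fin n) L E)
    (hind : ∀ c : Fin n → (↥A)[X], Sm0 A τ E (∑ i, evE A τ E (c i) * w i) →
      ∀ i, redP A (c i) = 0)
    {a : A} (ha : a ≠ 0) {y : E} (hy : y ∈ C0 A τ E) (q : Fin n → (↥A)[X])
    (hq : ∀ i, evL A τ (C a) * w.repr y i = evL A τ (q i)) (i : Fin n) :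
    ∃ c : (↥A)[X], w.repr y i = evL A τ c := by
  classical
  have ha0 : evL A τ (C a) ≠ 0 := by
    intro h0
    have := evL_injective A hτ (h0.trans (map_zero _).symm)
    exact ha (by simpa using this)
  by_cases hall : ∀ i, q i = 0
  · refine ⟨0, ?_⟩
    have := hq i
    rw [hall i, map_zero] at this
    rw [map_zero]
    exact (mul_eq_zero.mp this).resolve_left ha0
  push Not at hall
  obtain ⟨α, hα, q', ⟨i1, hi1⟩, hq'⟩ := exists_content_family A q hall
  have hα0 : evL A τ (C α) ≠ 0 := by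
    intro h0
    have := evL_injective A hτ (h0.trans (map_zero _).symm)
    exact hα (by simpa using this)
  rcases ValuationRing.dvd_total a α with ⟨μ, rfl⟩ | ⟨μ, rfl⟩
  · refine ⟨C μ * q' i, ?_⟩
    apply mul_left_cancel₀ ha0
    rw [hq i, hq' i, C_mul, map_mul, map_mul, map_mul, mul_assoc]
  · have hrep : ∀ i, evL A τ (C μ) * w.repr y i = evL A τ (q' i) := by
      intro i
      apply mul_left_cancel₀ hα0
      rw [← mul_assoc, ← map_mul, ← C_mul, hq i, hq' i, map_mul]
    have hsum : ∑ i, evE A τ E (q' i) * w i = evE A τ E (C μ) * y := by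
      conv_rhs => rw [← w.sum_repr y, Finset.mul_sum]
      refine Finset.sum_congr rfl fun i _ => ?_
      rw [evE_apply, evE_apply, ← hrep i, map_mul, Algebra.smul_def, mul_assoc]
    by_cases hμ : μ ∈ IsLocalRing.maximalIdeal A
    · exact absurd (hind q' (by rw [hsum]; exact ⟨μ, hμ, y, hy, rfl⟩) i1) hi1
    · rw [IsLocalRing.mem_maximalIdeal, mem_nonunits_iff, not_not] at hμ
      obtain ⟨u, rfl⟩ := hμ
      refine ⟨C ((u⁻¹ : (↥A)ˣ) : ↥A) * q' i, ?_⟩
      rw [map_mul, ← hrep i, ← mul_assoc, ← map_mul, ← C_mul, Units.inv_mul, C_1, map_one, one_mul]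

/-- `gen` + `indep` give `d1` -/
theorem exists_d1 [IsAlgClosed K] [CharZero K] [FiniteDimensional L E]
    (hτ : Transcendental K τ) (hgen : IsGen K τ) {n : ℕ}
    (w : Module.Basis (Fin n) L E) (hw : ∀ i, w i ∈ C0 A τ E)
    (hgenC : ∀ x ∈ C0 A τ E, ∃ c : Fin n → (↥A)[X],
      Sm0 A τ E (x - ∑ i, evE A τ E (c i) * w i))
    (hind : ∀ c : Fin n → (↥A)[X], Sm0 A τ E (∑ i, evE A τ E (c i) * w i) →
      ∀ i, redP A (c i) = 0) :
    ∃ d1 : (↥A)[X], redP A d1 = 1 ∧
      ∀ x ∈ C0 A τ E, ∀ i, ∃ c : (↥A)[X], evL A τ d1 * w.repr x i = evL A τ c := by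
  classical
  have : CharZero L := charZero_of_injective_algebraMap (algebraMap K L).injective
  have hdet0 : (Algebra.traceMatrix L w).det ≠ 0 := by
    have := Algebra.discr_not_zero_of_basis L w
    rwa [Algebra.discr_def] at this
  obtain ⟨D, hD⟩ := BasisAux.exists_det hτ hgen w hw
  have hD0 : D ≠ 0 := by
    rintro rfl
    rw [map_zero] at hD
    exact hdet0 hD.symm
  obtain ⟨a, ha, D', ⟨⟨⟩, hD'⟩, hDD⟩ := exists_content_family A (fun _ : Unit => D) ⟨(), hD0⟩
  obtain ⟨u, d0, d1, hu, hfac, hd0, hd1⟩ := exists_factor A (D' ()) hD'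
  have hau : a * u ≠ 0 := mul_ne_zero ha hu.ne_zero
  have hDfac : D = d0 * (C (a * u) * d1) := by
    rw [hDD (), hfac, C_mul]; ring
  refine ⟨d1, hd1, fun x hx i => ?_⟩
  choose g hg using fun i => BasisAux.exists_cramer hτ hgen w hw hx i
  simp_rw [← hD] at hg
  have hy1 : evE A τ E d1 * x ∈ C0 A τ E := (C0 A τ E).mul_mem (evE_mem_C0 A τ E _) hx
  have hy2 : evE A τ E (C (a * u)) * (evE A τ E d1 * x) ∈ C0 A τ E :=
    (C0 A τ E).mul_mem (evE_mem_C0 A τ E _) hy1
  have hg2 : ∀ i, evL A τ d0 * w.repr (evE A τ E (C (a * u)) * (evE A τ E d1 * x)) i =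
      evL A τ (g i) := by
    intro i
    rw [BasisAux.evE_mul_eq_smul, BasisAux.evE_mul_eq_smul, map_smul, map_smul,
      Finsupp.smul_apply, Finsupp.smul_apply, smul_eq_mul, smul_eq_mul, ← hg i, hDfac,
      map_mul (evL A τ) d0, map_mul (evL A τ) (C (a * u)) d1]
    ring
  choose q hq using fun i => span_monic hτ hgen w hw hgenC hind hd0 hy2 g hg2 i
  have hq2 : ∀ i, evL A τ (C (a * u)) * w.repr (evE A τ E d1 * x) i = evL A τ (q i) := by
    intro i
    rw [← hq i, BasisAux.evE_mul_eq_smul (C (a * u)), map_smul, Finsupp.smul_apply, smul_eq_mul]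
  obtain ⟨c, hc⟩ := span_const hτ w hind hau hy1 q hq2 i
  refine ⟨c, ?_⟩
  rw [← hc, BasisAux.evE_mul_eq_smul, map_smul, Finsupp.smul_apply, smul_eq_mul]

/-- `indep` implies linear independence over `L` -/
theorem linearIndependent_of_indep (hτ : Transcendental K τ) (hgen : IsGen K τ) {m : ℕ}
    (e : Fin m → E)
    (hind : ∀ c : Fin m → (↥A)[X], Sm0 A τ E (∑ i, evE A τ E (c i) * e i) →
      ∀ i, redP A (c i) = 0) : LinearIndependent L e := by
  rw [Fintype.linearIndependent_iff]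
  intro x hx
  by_contra hne
  push Not at hne
  obtain ⟨a, ha, S, P, hS, ⟨i1, hi1⟩, h⟩ := exists_scale_L_family A hτ hgen x hne
  have ha' : algebraMap L E (algebraMap K L a) ≠ 0 := by simpa using ha
  have h0 : ∑ i, evE A τ E (P i) * e i = 0 := by
    apply mul_left_cancel₀ ha'
    rw [mul_zero, Finset.mul_sum]
    have : ∀ i, algebraMap L E (algebraMap K L a) * (evE A τ E (P i) * e i) =
        evE A τ E S * (x i • e i) := by
      intro i
      rw [evE_apply, evE_apply, ← mul_assoc, ← map_mul, ← h i, map_mul, Algebra.smul_def, mul_assoc]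
    simp_rw [this]
    rw [← Finset.mul_sum, hx, mul_zero]
  exact hi1 (hind P (by rw [h0]; exact BasisAux.sm0_zero) i1)

/-! ### the reduction -/

theorem smul_mk (P : (↥A)[X]) (x : C0 A τ E) :
    redP A P • Ideal.Quotient.mk (mC0 A τ E) x =
      Ideal.Quotient.mk (mC0 A τ E) (toC0 A τ E P * x) := by
  rw [Algebra.smul_def, algebraMap_redP, map_mul]

theorem finite_Cbar
    (hfg : ∃ G : Finset E, (∀ g ∈ G, g ∈ C0 A τ E) ∧
      ∀ x ∈ C0 A τ E, ∃ c : E → (↥A)[X], Sm0 A τ E (x - ∑ g ∈ G, evE A τ E (c g) * g)) :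
    Module.Finite (kk A)[X] (Cbar A τ E) := by
  classical
  obtain ⟨G, hG, h⟩ := hfg
  let f : E → C0 A τ E := fun g => if hg : g ∈ C0 A τ E then ⟨g, hg⟩ else 0
  have hf : ∀ g ∈ G, ((f g : C0 A τ E) : E) = g := by
    intro g hg
    simp only [f]
    rw [dif_pos (hG g hg)]
  refine ⟨⟨G.image (fun g => Ideal.Quotient.mk (mC0 A τ E) (f g)), ?_⟩⟩
  rw [eq_top_iff]
  intro Y _
  obtain ⟨x, rfl⟩ := Ideal.Quotient.mk_surjective Y
  obtain ⟨c, hc⟩ := h x x.2
  have h1 : Ideal.Quotient.mk (mC0 A τ E) x =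
      ∑ g ∈ G, redP A (c g) • Ideal.Quotient.mk (mC0 A τ E) (f g) := by
    simp_rw [smul_mk]
    rw [← map_sum, Ideal.Quotient.eq, mem_mC0]
    have : ((x - ∑ g ∈ G, toC0 A τ E (c g) * f g : C0 A τ E) : E) =
        x - ∑ g ∈ G, evE A τ E (c g) * g := by
      rw [AddSubgroupClass.coe_sub, AddSubmonoidClass.coe_finsetSum]
      congr 1
      refine Finset.sum_congr rfl fun g hg => ?_
      rw [Subring.coe_mul, coe_toC0, hf g hg]
    rw [this]
    exact hc
  rw [h1]
  refine Submodule.sum_mem _ fun g hg => Submodule.smul_mem _ _ (Submodule.subset_span ?_)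
  rw [Finset.coe_image]
  exact ⟨g, hg, rfl⟩

theorem torsionFree_Cbar [FiniteDimensional L E] (hτ : Transcendental K τ) (hgen : IsGen K τ) :
    Module.IsTorsionFree (kk A)[X] (Cbar A τ E) := by
  apply Module.IsTorsionFree.of_smul_eq_zero
  intro r m h
  by_contra hcon
  push Not at hcon
  obtain ⟨S, rfl⟩ := redP_surjective A r
  obtain ⟨x, rfl⟩ := Ideal.Quotient.mk_surjective m
  rw [smul_mk, mk_eq_zero_iff] at h
  apply hcon.2
  rw [mk_eq_zero_iff]
  exact Sm0_of_SmV A hτ hgen x.2 (SmV_of_evE_mul A hτ hcon.1 (Sm0.SmV A h))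

theorem mk_sum_eq {m : ℕ} (e : Fin m → C0 A τ E) (c : Fin m → (↥A)[X]) :
    ∑ i, redP A (c i) • Ideal.Quotient.mk (mC0 A τ E) (e i) =
      Ideal.Quotient.mk (mC0 A τ E) (∑ i, toC0 A τ E (c i) * e i) := by
  simp_rw [smul_mk]
  rw [map_sum]

theorem coe_sum_eq {ι : Type*} [Fintype ι] (e : ι → C0 A τ E) (c : ι → (↥A)[X]) :
    ((∑ i, toC0 A τ E (c i) * e i : C0 A τ E) : E) = ∑ i, evE A τ E (c i) * (e i : E) := by
  rw [AddSubmonoidClass.coe_finsetSum]
  refine Finset.sum_congr rfl fun i _ => ?_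
  rw [Subring.coe_mul, coe_toC0]

/-- lift a basis of `Cbar` -/
theorem exists_lift {m : ℕ} (b : Module.Basis (Fin m) (kk A)[X] (Cbar A τ E)) :
    ∃ e : Fin m → E, (∀ i, e i ∈ C0 A τ E) ∧
      (∀ x ∈ C0 A τ E, ∃ c : Fin m → (↥A)[X], Sm0 A τ E (x - ∑ i, evE A τ E (c i) * e i)) ∧
      (∀ c : Fin m → (↥A)[X], Sm0 A τ E (∑ i, evE A τ E (c i) * e i) → ∀ i, redP A (c i) = 0) := by
  choose e he using fun i => Ideal.Quotient.mk_surjective (b i)
  refine ⟨fun i => (e i : E), fun i => (e i).2, fun x hx => ?_, fun c hc i => ?_⟩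
  · choose c hc using fun i => redP_surjective A (b.repr (Ideal.Quotient.mk (mC0 A τ E) ⟨x, hx⟩) i)
    refine ⟨c, ?_⟩
    have h1 : Ideal.Quotient.mk (mC0 A τ E) ⟨x, hx⟩ =
        Ideal.Quotient.mk (mC0 A τ E) (∑ i, toC0 A τ E (c i) * e i) := by
      rw [← mk_sum_eq]
      simp_rw [hc, he]
      exact (b.sum_repr _).symm
    rw [Ideal.Quotient.eq, mem_mC0, AddSubgroupClass.coe_sub, coe_sum_eq] at h1
    exact h1
  · have h1 : ∑ i, redP A (c i) • b i = 0 := by
      simp_rw [← he]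
      rw [mk_sum_eq, mk_eq_zero_iff, coe_sum_eq]
      exact hc
    exact (Fintype.linearIndependent_iff.mp b.linearIndependent) _ h1 i

theorem card_le_finrank (hτ : Transcendental K τ) [Module.Finite (kk A)[X] (Cbar A τ E)]
    {ι : Type*} [Fintype ι] (β : Module.Basis ι L E) (hmem : ∀ i, β i ∈ VV A τ E)
    (hrepr : ∀ x ∈ VV A τ E, ∀ i, β.repr x i ∈ OG A τ) :
    Fintype.card ι ≤ Module.finrank (kk A)[X] (Cbar A τ E) := by
  choose S hS hSβ using hmem
  let v : ι → C0 A τ E := fun i => ⟨evE A τ E (S i) * β i, hSβ i⟩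
  have hli : LinearIndependent (kk A)[X] (fun i => Ideal.Quotient.mk (mC0 A τ E) (v i)) := by
    rw [Fintype.linearIndependent_iff]
    intro c hc i
    choose c' hc' using fun i => redP_surjective A (c i)
    have h1 : Ideal.Quotient.mk (mC0 A τ E) (∑ i, toC0 A τ E (c' i) * v i) = 0 := by
      rw [map_sum, ← hc]
      refine Finset.sum_congr rfl fun i _ => ?_
      rw [← smul_mk, hc']
    rw [mk_eq_zero_iff, coe_sum_eq] at h1
    obtain ⟨a, ha, y, hy, e⟩ := h1
    have e1 := congrArg (fun z => β.repr z i) e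
    have e2 : (∑ i, evE A τ E (c' i) * ((v i : C0 A τ E) : E)) =
        ∑ i, evL A τ (c' i * S i) • β i := by
      refine Finset.sum_congr rfl fun i _ => ?_
      rw [Algebra.smul_def, map_mul, map_mul, mul_assoc]
      rfl
    rw [e2, β.repr_sum_self, BasisAux.evE_mul_eq_smul, map_smul, Finsupp.smul_apply,
      smul_eq_mul] at e1
    have h2 : SmG A τ (evL A τ (c' i * S i)) :=
      ⟨a, ha, β.repr y i, hrepr y (C0_le_VV A τ E hy) i, e1⟩
    rw [SmG_evL_iff A hτ, map_mul] at h2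
    rw [← hc' i]
    exact (mul_eq_zero.mp h2).resolve_right (hS i)
  exact hli.fintype_card_le_finrank

/-- **WK-1**, raw form -/
theorem exists_wbasis_raw [IsAlgClosed K] [CharZero K] [FiniteDimensional L E]
    (hτ : Transcendental K τ) (hgen : IsGen K τ) {ι : Type*} [Fintype ι]
    (β : Module.Basis ι L E) (hmem : ∀ i, β i ∈ VV A τ E)
    (hrepr : ∀ x ∈ VV A τ E, ∀ i, β.repr x i ∈ OG A τ)
    (hfg : ∃ G : Finset E, (∀ g ∈ G, g ∈ C0 A τ E) ∧
      ∀ x ∈ C0 A τ E, ∃ c : E → (↥A)[X], Sm0 A τ E (x - ∑ g ∈ G, evE A τ E (c g) * g)) :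
    ∃ (w : Module.Basis (Fin (Fintype.card ι)) L E) (d1 : (↥A)[X]),
      (∀ i, w i ∈ C0 A τ E) ∧ redP A d1 = 1 ∧
      (∀ x ∈ C0 A τ E, ∀ i, ∃ c : (↥A)[X], evL A τ d1 * w.repr x i = evL A τ c) ∧
      (∀ c : Fin (Fintype.card ι) → (↥A)[X], Sm0 A τ E (∑ i, evE A τ E (c i) * w i) →
        ∀ i, redP A (c i) = 0) := by
  have hfin : Module.Finite (kk A)[X] (Cbar A τ E) := finite_Cbar hfg
  have htf : Module.IsTorsionFree (kk A)[X] (Cbar A τ E) := torsionFree_Cbar hτ hgen
  have hn : Module.finrank L E = Fintype.card ι := Module.finrank_eq_card_basis β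
  have hrk : Module.finrank (kk A)[X] (Cbar A τ E) = Fintype.card ι := by
    apply le_antisymm _ (card_le_finrank hτ β hmem hrepr)
    obtain ⟨e, -, -, hind⟩ := exists_lift (Module.finBasis (kk A)[X] (Cbar A τ E))
    have := (linearIndependent_of_indep hτ hgen e hind).fintype_card_le_finrank
    rwa [Fintype.card_fin, hn] at this
  obtain ⟨e, he, hgenC, hind⟩ := exists_lift (Module.finBasisOfFinrankEq (kk A)[X] (Cbar A τ E) hrk)
  have hli := linearIndependent_of_indep hτ hgen e hind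
  have : Nonempty (Fin (Fintype.card ι)) := ⟨⟨0, by rw [← hn]; exact Module.finrank_pos⟩⟩
  let w : Module.Basis (Fin (Fintype.card ι)) L E :=
    basisOfLinearIndependentOfCardEqFinrank hli (by simp [hn])
  have hw : ⇑w = e := coe_basisOfLinearIndependentOfCardEqFinrank _ _
  have he' : ∀ i, w i ∈ C0 A τ E := by rw [hw]; exact he
  have hgenC' : ∀ x ∈ C0 A τ E, ∃ c : Fin (Fintype.card ι) → (↥A)[X],
      Sm0 A τ E (x - ∑ i, evE A τ E (c i) * w i) := by rw [hw]; exact hgenC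
  have hind' : ∀ c : Fin (Fintype.card ι) → (↥A)[X], Sm0 A τ E (∑ i, evE A τ E (c i) * w i) →
        ∀ i, redP A (c i) = 0 := by rw [hw]; exact hind
  obtain ⟨d1, hd1, hspan⟩ := exists_d1 hτ hgen w he' hgenC' hind'
  exact ⟨w, d1, he', hd1, hspan, hind'⟩

end Fermat.Agent.S34.T.WeakAux
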