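import Fermat.Agent.S18.Z.Cbar
import Fermat.Agent.S18.Z.Fg
import Fermat.Agent.S18.Z.Conn
import Fermat.Agent.S18.Z.Kummer
import Fermat.Agent.S34.T.WeakBasis

/-!
# S34 / TOR, abstract part : trace-free replacements of `GoodRed` / `GoodBasis`  (helper4)

At level `M = M1 q` the base function is `t` and the residue extension on the component `0` is
inseparable, so the trace form degenerates modulo `𝔪` and `KL.GoodRed` FAILS.  What survives:

* `ONB A τ E ι` : an ORTHONORMAL basis (= an `OG`-basis of `VV`);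
* `FgBar A τ E` : `C0 / 𝔪 C0` is a finitely generated `k[X]`-module;
* `WBasis A τ E n` : `KL.GoodBasis` without the field `dual`.

Keys: `S34/WK-0` (the easy `ONB` lemmas), `S34/WK-1` (`exists_wbasis`), `S34/WK-2` (`WBasis.exists_bar`, `WBasis.fgC0`),
`S34/WK-3` (`ONB.kummer`).

## WK-1 : proof of `exists_wbasis`
`Cb = Cbar A τ E` is a `k[X]`-module (`KL.barHom`), f.g. by `FgBar`, torsion free (`S̄ c̄ = 0`, `S̄ ≠ 0` ⟹ `SmV (S c)` ⟹ `SmV c`
(`SmV_of_evE_mul`) ⟹ `Sm0 c` (`Sm0_of_SmV`)), hence free of some rank `m`; lift a basis to `e_i ∈ C0`.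
* `indep` is the independence of the `ē_i`.  It implies `L`-independence of the `e_i` (clear denominators, divide by the content:
  `BasisAux` / `exists_content_family`), so `m ≤ n = card ι`.
* `n ≤ m`: `S_i β_i ∈ C0` with `S_i` primitive; their classes are `k[X]`-independent by `ONB.repr_SmG`.
* KEY LEMMA: `c ∈ B0`, `x0 ∈ A`, `(τ - x0) c = ∑ b_i(τ) e_i`, `b_i ∈ K[X]` ⟹ `c ∈ ∑ K[τ] e_i`.
  [Divide `b_i = (X - x0) b_i' + β_i`; WLOG `b_i = β_i` constants; if not all `0` scale: `β_i ∈ A`, one of them a unit.  Then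
  `(τ - x0) c ∈ C0`, so `c ∈ VV` (definition, `X - C x0` is primitive), `c ∈ B0 ∩ VV = C0` (`mem_C0_of_mem_B0_VV`), `c̄ = ∑ γ_i ē_i`,
  `(X - x̄0) γ_i = β̄_i`: degrees give `β̄_i = 0` for all `i`.  Contradiction.]
* `B0` is a f.g. `K[τ]`-module (char. 0; or: `a x ∈ C0` and helper18's `KLFin`); for each generator `b` some `h_b ≠ 0` with
  `h_b b ∈ ∑ K[τ] e_i`; `h = ∏ h_b = c ∏ (X - x0)`; remove the factors with `x0 ∈ A` by the KEY LEMMA; the others give
  `d1 = ∏ (1 - X / x0) ∈ A[X]`, `redP d1 = 1`, `d1 B0 ⊂ ∑ K[τ] e_i`.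
* `span`: `x ∈ C0`, `d1 x = ∑ g_i(τ) e_i`, `g_i ∈ K[X]`.  If some coefficient of some `g_i` is not in `A`, choose `a ∈ 𝔪` with
  `a g_i ∈ A[X]` for all `i` and `redP (a g_i0) ≠ 0`; then `∑ (a g_i) e_i = a d1 x` is `Sm0`: contradiction with `indep`.

## WK-2
Copy `Z/Cbar.lean` (`GoodBasis.mk_eq_sum`, `GoodBasis.exists_bar`) and `Z/Fg.lean` (`fgC0`): only the fields kept in `WBasis` are used.

## WK-3
`x ∈ VV_E`, `x = ∑ x_a u^a`.  `u` is a unit of `VV_E` (`mem_VV_of_pow_mem` for `u` and `u⁻¹`).  `Tr_{E/F}(x u^{-a}) = p x_a`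
(`KL.trace_mul_pow_zero/pos` in `Z/Kummer.lean`), and `Tr_{E/F}` maps `VV_E` into `VV_F` (`isIntegralElem_of_mem_VV`,
`Algebra.isIntegral_trace`, `mem_VV_of_isIntegralElem`).  `p⁻¹ ∈ A`.  So `x_a ∈ VV_F`; coordinates by `o.repr_mem` and
`Module.Basis.smulTower_repr`.
-/

set_option autoImplicit false

noncomputable section

namespace Fermat.Agent.S34.T

open Polynomial Fermat.Agent.S18.KL

section Defs

variable {K : Type*} [Field K] (A : ValuationSubring K)
variable {L : Type*} [Field L] [Algebra K L] (τ : L)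
variable (E : Type*) [Field E] [Algebra L E]

/-- an orthonormal basis: an `OG`-basis of `VV` -/
structure ONB (ι : Type*) [Fintype ι] where
  β : Module.Basis ι L E
  mem : ∀ i, β i ∈ VV A τ E
  repr_mem : ∀ x ∈ VV A τ E, ∀ i, β.repr x i ∈ OG A τ

/-- `KL.GoodBasis` without `dual` -/
structure WBasis (n : ℕ) where
  w : Module.Basis (Fin n) L E
  mem : ∀ i, w i ∈ C0 A τ E
  d1 : (↥A)[X]
  red_d1 : redP A d1 = 1
  span : ∀ x ∈ C0 A τ E, ∀ i, ∃ c : (↥A)[X], evL A τ d1 * w.repr x i = evL A τ c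
  indep : ∀ c : Fin n → (↥A)[X], Sm0 A τ E (∑ i, evE A τ E (c i) * w i) → ∀ i, redP A (c i) = 0

/-- `C0 / 𝔪 C0` is a finitely generated `k[X]`-module -/
def FgBar : Prop :=
  ∃ G : Finset E, (∀ g ∈ G, g ∈ C0 A τ E) ∧
    ∀ x ∈ C0 A τ E, ∃ c : E → (↥A)[X], Sm0 A τ E (x - ∑ g ∈ G, evE A τ E (c g) * g)

end Defs

variable {K : Type*} [Field K] {A : ValuationSubring K}
variable {L : Type*} [Field L] [Algebra K L] {τ : L}
variable {E : Type*} [Field E] [Algebra L E]

/-! ### WK-0 -/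

/-- `GoodRed` gives an orthonormal basis -/
def ONB.ofGoodRed [CharZero K] [FiniteDimensional L E] (hτ : Transcendental K τ) (hgen : IsGen K τ)
    {ι : Type*} [Fintype ι] (g : GoodRed A τ E ι) : ONB A τ E ι where
  β := g.β
  mem := g.mem
  repr_mem := fun _ hx i => g.repr_mem hτ hgen hx i

theorem ONB.mem_VV_of_repr (hτ : Transcendental K τ) {ι : Type*} [Fintype ι]
    (o : ONB A τ E ι) {x : E} (hx : ∀ i, o.β.repr x i ∈ OG A τ) : x ∈ VV A τ E := by
  rw [← o.β.sum_repr x]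
  refine Subring.sum_mem _ fun i _ => ?_
  rw [Algebra.smul_def]
  exact (VV A τ E).mul_mem (algebraMap_mem_VV A hτ (hx i)) (o.mem i)

theorem ONB.repr_SmG (hτ : Transcendental K τ) {ι : Type*} [Fintype ι]
    (o : ONB A τ E ι) {x : E} (hx : SmV A τ E x) (i : ι) : SmG A τ (o.β.repr x i) := by
  obtain ⟨a, ha, y, hy, rfl⟩ := hx
  refine ⟨a, ha, o.β.repr y i, o.repr_mem y hy i, ?_⟩
  rw [evE_apply, ← Algebra.smul_def, map_smul, Finsupp.smul_apply, smul_eq_mul]

theorem SmV_zero_aux : SmV A τ E (0 : E) := ⟨0, zero_mem _, 0, zero_mem _, by simp⟩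

theorem ONB.SmV_of_repr (hτ : Transcendental K τ) {ι : Type*} [Fintype ι]
    (o : ONB A τ E ι) {x : E} (h : ∀ i, SmG A τ (o.β.repr x i)) : SmV A τ E x := by
  classical
  rw [← o.β.sum_repr x]
  refine Finset.sum_induction _ (SmV A τ E) (fun _ _ ha hb => SmV.add A ha hb) SmV_zero_aux ?_
  intro i _
  obtain ⟨a, ha, y, hy, he⟩ := h i
  refine ⟨a, ha, algebraMap L E y * o.β i,
    (VV A τ E).mul_mem (algebraMap_mem_VV A hτ hy) (o.mem i), ?_⟩
  rw [he, Algebra.smul_def, map_mul, evE_apply, mul_assoc]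

/-- an orthonormal basis does not depend on the chart -/
def ONB.inv [FiniteDimensional L E] (hτ : Transcendental K τ) {ι : Type*} [Fintype ι]
    (o : ONB A τ E ι) :
    ONB A τ⁻¹ E ι where
  β := o.β
  mem := fun i => by rw [VV_inv A hτ]; exact o.mem i
  repr_mem := fun x hx i => by
    rw [VV_inv A hτ] at hx
    rw [OG_inv A hτ]
    exact o.repr_mem x hx i

/-! ### WK-1 -/

theorem exists_wbasis [IsAlgClosed K] [CharZero K] [FiniteDimensional L E]
    (hτ : Transcendental K τ) (hgen : IsGen K τ) {ι : Type*} [Fintype ι]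
    (o : ONB A τ E ι) (hfg : FgBar A τ E) : Nonempty (WBasis A τ E (Fintype.card ι)) := by
  obtain ⟨w, d1, h1, h2, h3, h4⟩ := WeakAux.exists_wbasis_raw hτ hgen o.β o.mem o.repr_mem hfg
  exact ⟨⟨w, h1, d1, h2, h3, h4⟩⟩

/-! ### WK-2 -/

theorem WBasis.mk_eq_sum {n : ℕ} (g : WBasis A τ E n) (y : C0 A τ E) (c : Fin n → (↥A)[X])
    (hc : ∀ i, evL A τ g.d1 * g.w.repr (y : E) i = evL A τ (c i)) :
    Ideal.Quotient.mk (mC0 A τ E) y =
      ∑ i, redP A (c i) • Ideal.Quotient.mk (mC0 A τ E) ⟨g.w i, g.mem i⟩ := by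
  have h1 : toC0 A τ E g.d1 * y = ∑ i, toC0 A τ E (c i) * ⟨g.w i, g.mem i⟩ := by
    apply Subtype.ext
    rw [Subring.coe_mul, coe_toC0, AddSubmonoidClass.coe_finsetSum]
    simp only [Subring.coe_mul, coe_toC0]
    conv_lhs => rw [← g.w.sum_repr (y : E), Finset.mul_sum]
    refine Finset.sum_congr rfl fun i _ => ?_
    rw [evE_apply, evE_apply, ← hc i, map_mul, Algebra.smul_def, mul_assoc]
  have h2 := congrArg (Ideal.Quotient.mk (mC0 A τ E)) h1
  rw [map_mul, ← algebraMap_redP, g.red_d1, map_one, one_mul, map_sum] at h2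
  rw [h2]
  refine Finset.sum_congr rfl fun i _ => ?_
  rw [map_mul, ← algebraMap_redP, Algebra.smul_def]

theorem WBasis.exists_bar (hτ : Transcendental K τ) (hgen : IsGen K τ) {n : ℕ}
    (g : WBasis A τ E n) :
    ∃ b : Module.Basis (Fin n) (kk A)[X] (Cbar A τ E),
      ∀ i, b i = Ideal.Quotient.mk (mC0 A τ E) ⟨g.w i, g.mem i⟩ := by
  have hli : LinearIndependent (kk A)[X]
      (fun i : Fin n => Ideal.Quotient.mk (mC0 A τ E) ⟨g.w i, g.mem i⟩) := by
    rw [Fintype.linearIndependent_iff]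
    intro c hc
    choose c' hc' using fun i => redP_surjective A (c i)
    have h1 : Ideal.Quotient.mk (mC0 A τ E) (∑ i, toC0 A τ E (c' i) * ⟨g.w i, g.mem i⟩) = 0 := by
      rw [map_sum, ← hc]
      refine Finset.sum_congr rfl fun i _ => ?_
      rw [map_mul, ← algebraMap_redP, Algebra.smul_def, hc']
    rw [mk_eq_zero_iff, AddSubmonoidClass.coe_finsetSum] at h1
    simp only [Subring.coe_mul, coe_toC0] at h1
    intro i
    rw [← hc' i]
    exact g.indep c' h1 i
  have hsp : ⊤ ≤ Submodule.span (kk A)[X]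
      (Set.range fun i : Fin n => Ideal.Quotient.mk (mC0 A τ E) ⟨g.w i, g.mem i⟩) := by
    intro X _
    obtain ⟨x, rfl⟩ := Ideal.Quotient.mk_surjective X
    choose c hc using fun i => g.span x x.2 i
    rw [g.mk_eq_sum x c hc]
    exact Submodule.sum_mem _ fun i _ =>
      Submodule.smul_mem _ _ (Submodule.subset_span ⟨i, rfl⟩)
  exact ⟨Module.Basis.mk hli hsp, fun i => Module.Basis.mk_apply hli hsp i⟩

theorem WBasis.fgC0 [CharZero K] [FiniteDimensional L E]
    (hτ : Transcendental K τ) (hgen : IsGen K τ) (hA : Arch A) {n : ℕ}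
    (g : WBasis A τ E n) : FgC0 A τ E := by
  classical
  let _ := Bridge.algE K τ E
  have := Bridge.faithfulSMul_E E hτ
  let _ : Algebra ↥A E := ((evE A τ E).comp C).toAlgebra
  have halg : ∀ a : A, algebraMap ↥A E a = evE A τ E (C a) := fun a => rfl
  have : IsScalarTower ↥A K[X] E := by
    refine .of_algebraMap_eq fun a => ?_
    rw [halg, SatB.evE_C]
    change _ = evK K τ E (C (a : K))
    simp [evK]
  have hphi := Bridge.phi_eq A τ E
  have hS1 : ∀ x, (S18.KLGauss.phi (↥A) K E).IsIntegralElem x → ∃ q : Fin n → (↥A)[X],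
      S18.KLGauss.phi (↥A) K E g.d1 * x = ∑ i, S18.KLGauss.phi (↥A) K E (q i) * g.w i := by
    intro x hx
    rw [hphi] at hx ⊢
    choose c hc using g.span x hx
    refine ⟨c, ?_⟩
    conv_lhs => rw [← g.w.sum_repr x]
    rw [Finset.mul_sum]
    refine Finset.sum_congr rfl fun i _ => ?_
    rw [evE_apply, evE_apply, ← hc i, map_mul, Algebra.smul_def, mul_assoc]
  obtain ⟨G, hG, hspan⟩ := S18.KLGauss.exists_finset_span (A := ↥A) (K := K) (E := E) g.w
    (fun i => by rw [hphi]; exact g.mem i) hA g.d1 1 one_ne_zero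
    (by have := g.red_d1; rw [C_1]; exact this) hS1
  rw [hphi] at hG hspan
  exact ⟨G, hG, fun x hx => exists_coeff_of_mem_span halg G (hspan x hx)⟩

/-! ### WK-3 -/

/-- the relative trace maps `VV_E` into `VV_F` -/
theorem trace_mem_VV_aux {F : Type*} [Field F] [Algebra L F]
    [Algebra F E] [IsScalarTower L F E] [FiniteDimensional F E]
    (hτ : Transcendental K τ) {x : E} (hx : x ∈ VV A τ E) :
    Algebra.trace F E x ∈ VV A τ F := by
  have h1 : IsIntegral (OG A τ) x := isIntegralElem_of_mem_VV A hτ hx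
  have h2 : IsIntegral (OG A τ) (Algebra.trace F E x) := Algebra.isIntegral_trace h1
  exact mem_VV_of_isIntegralElem A hτ h2

theorem ONB.kummer [CharZero K] {F : Type*} [Field F] [Algebra L F] [FiniteDimensional L F]
    [Algebra F E] [IsScalarTower L F E]
    (hτ : Transcendental K τ) (hgen : IsGen K τ) {ι : Type*} [Fintype ι]
    (o : ONB A τ F ι) (p : ℕ) (hp : 0 < p) (hpA : ((p : K))⁻¹ ∈ A)
    (f : F) (hf : f ∈ VV A τ F) (hf' : f⁻¹ ∈ VV A τ F) (u : E) (hu : u ^ p = algebraMap F E f)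
    (b : Module.Basis (Fin p) F E) (hb : ∀ a, b a = u ^ (a : ℕ)) :
    ∃ o' : ONB A τ E (ι × Fin p), o'.β = o.β.smulTower b := by
  have hFE : FiniteDimensional F E := Module.Finite.of_basis b
  have huV : u ∈ VV A τ E :=
    mem_VV_of_pow_mem A hτ hp (by rw [hu]; exact algebraMap_mem_VV_of_mem hf)
  have hpF : ((p : F))⁻¹ ∈ VV A τ F := by
    have e : ((p : F))⁻¹ = evE A τ F (C ⟨(p : K)⁻¹, hpA⟩) := by
      rw [evE_apply, evL]
      simp
    rw [e]
    exact C0_le_VV A τ F (evE_mem_C0 A τ F _)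
  have hp0 : (p : F) ≠ 0 := by
    have : (p : F) = algebraMap L F (algebraMap K L (p : K)) := by simp
    rw [this]
    simp only [ne_eq, map_eq_zero]
    exact_mod_cast hp.ne'
  refine ⟨⟨o.β.smulTower b, ?_, ?_⟩, rfl⟩
  · rintro ⟨i, a⟩
    rw [Module.Basis.smulTower_apply, hb, Algebra.smul_def]
    exact (VV A τ E).mul_mem (algebraMap_mem_VV_of_mem (o.mem i)) ((VV A τ E).pow_mem huV _)
  · rintro x hx ⟨i, c⟩
    rw [Module.Basis.smulTower_repr]
    refine o.repr_mem _ ?_ i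
    simp only
    rcases Nat.eq_zero_or_pos (c : ℕ) with hc | hc
    · have h1 := trace_mem_VV_aux (F := F) hτ hx
      rw [trace_mul_pow_zero hp hu b hb] at h1
      have hc' : c = ⟨0, hp⟩ := Fin.ext hc
      have e : b.repr x c = ((p : F))⁻¹ * ((p : F) * b.repr x ⟨0, hp⟩) := by
        rw [hc', ← mul_assoc, inv_mul_cancel₀ hp0, one_mul]
      rw [e]
      exact (VV A τ F).mul_mem hpF h1
    · have hc2 := c.2
      have h1 := trace_mem_VV_aux (F := F) hτ
        ((VV A τ E).mul_mem hx ((VV A τ E).pow_mem huV (p - c)))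
      rw [trace_mul_pow_pos hu b hb x c hc] at h1
      have hf0 : f ≠ 0 := by
        rintro rfl
        rw [map_zero] at hu
        have hu0 : u = 0 := pow_eq_zero_iff hp.ne' |>.mp hu
        apply b.ne_zero c
        rw [hb, hu0, zero_pow hc.ne']
      have e : b.repr x c = ((p : F))⁻¹ * f⁻¹ * ((p : F) * f * b.repr x c) := by
        field_simp
      rw [e]
      exact (VV A τ F).mul_mem ((VV A τ F).mul_mem hpF hf') h1

end Fermat.Agent.S34.T
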