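import Fermat.Agent.S18.Z.Normal
import Fermat.Agent.S34.T.Weak

/-!
# S34 / TOR : two abstract lemmas used by the modular side  (helper4; keys `S34/NU`, `S34/RAD`)

## NU (~200 lines) : full normality of `C0 / 𝔪 C0` in the good reduction case
Generalisation of `KL.nu_idem` (`Z/Normal.lean`) from idempotents to arbitrary integral elements; same proof:
`x ∈ VV`, `S x = y ∈ C0`, `S` primitive.  In `Cbar`, with `b` = `g.exists_bar`, `x_i` = `exists_dualElts`: copy the proof of `KL.lemmaN` (`Z/LemmaN.lean`) with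
`Y' = S̄⁻¹ • ι ȳ`, which is integral over `R = k[X]` because it is a root of the monic polynomial `p̄` (image of `p` under `redP`; use
`S̄^deg p • p̄(Y') = image of S^deg p • p(x)`, which is `0` in `Cbar` by `h`; `Q ⊗ Cbar` is `S̄`-torsion free), and apply `KLNormal.mem_of_isIntegral`.
Output `Z` with `ȳ = S̄ Z`; lift `Z` to `c ∈ C0`: `Sm0 (y - S c)`, hence `SmV (x - c)` (`SmV_of_evE_mul`).

## RAD (~120 lines, Mathlib only)
`R` a commutative ring, `f₁ f₂` ring homs, `f₂.range` noetherian, `Q ≥ 2`, every `f₂ y` is a `Q`-th power modulo `I₂ = f₂ (ker f₁)`.  Then `I₂` is radical.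
Proof: in the noetherian ring `f₂.range / I₂` the nilradical `𝔑` is nilpotent (`IsNoetherianRing.isNilpotent_nilradical`); `x ∈ 𝔑`, `x = g^Q`, `g ∈ 𝔑`; so
`𝔑 ⊆ 𝔑^Q ⊆ 𝔑^(Q²) ⊆ … = 0`.
-/

set_option autoImplicit false

noncomputable section

namespace Fermat.Agent.S34.T

open Polynomial Fermat.Agent.S18.KL

open scoped TensorProduct in
/-- `KL.lemmaN` for arbitrary integral elements with denominator -/
theorem lemmaN_int {R : Type*} [CommRing R] [IsDomain R] [IsPrincipalIdealRing R]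
    {Λ : Type*} [CommRing Λ] [Algebra R Λ] {n : ℕ} (w : Module.Basis (Fin n) R Λ)
    (θ : R) (hθ : Squarefree θ) (x : Fin n → Λ)
    (hx : ∀ i j, Algebra.trace R Λ (x i * w j) = if i = j then θ else 0)
    (he : ∀ i, ∃ e : ℕ, 0 < e ∧ ∃ z : Λ, x i ^ e = θ • z)
    (Y : Λ) (S : R) (hS : S ≠ 0) (p : R[X]) (hp : p.Monic)
    (hY : ∑ i ∈ Finset.range (p.natDegree + 1), (p.coeff i * S ^ (p.natDegree - i)) • Y ^ i = 0) :
    ∃ Z : Λ, Y = S • Z := by
  classical
  have : Module.Free R Λ := Module.Free.of_basis w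
  have : Module.Finite R Λ := Module.Finite.of_basis w
  let Q := FractionRing R
  let E := Q ⊗[R] Λ
  let ι : Λ →ₐ[R] E := Algebra.TensorProduct.includeRight
  have hι : Function.Injective ι :=
    Algebra.TensorProduct.includeRight_injective (IsFractionRing.injective R Q)
  have hιapp : ∀ l : Λ, ι l = (1 : Q) ⊗ₜ[R] l := fun l => rfl
  let wQ : Module.Basis (Fin n) Q E := Algebra.TensorProduct.basis Q w
  have hwQ : ∀ i, wQ i = ι (w i) := fun i => Algebra.TensorProduct.basis_apply w i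
  -- traces
  have htr : ∀ l : Λ, Algebra.trace Q E (ι l) = algebraMap R Q (Algebra.trace R Λ l) := by
    intro l
    rw [Algebra.trace_apply, Algebra.trace_apply, ← LinearMap.trace_baseChange]
    congr 1
    ext m
    simp only [hιapp, TensorProduct.AlgebraTensorModule.curry_apply, TensorProduct.curry_apply,
      LinearMap.coe_restrictScalars]
    rw [LinearMap.baseChange_tmul, Algebra.coe_lmul_eq_mul, Algebra.coe_lmul_eq_mul,
      LinearMap.mul_apply', Algebra.TensorProduct.tmul_mul_tmul, one_mul, LinearMap.mul_apply']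
  have hθ0 : algebraMap R Q θ ≠ 0 := by
    rw [Ne, IsFractionRing.to_map_eq_zero_iff]; exact hθ.ne_zero
  have hS0 : algebraMap R Q S ≠ 0 := by
    rw [Ne, IsFractionRing.to_map_eq_zero_iff]; exact hS
  let wd : Fin n → E := fun i => (algebraMap R Q θ)⁻¹ • ι (x i)
  have hθwd : ∀ i, θ • wd i = ι (x i) := by
    intro i
    simp only [wd]
    rw [← algebraMap_smul Q θ, smul_smul, mul_inv_cancel₀ hθ0, one_smul]
  have hdual : ∀ i j, Algebra.trace Q E (wQ i * wd j) = if i = j then 1 else 0 := by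
    intro i j
    simp only [wd]
    rw [mul_smul_comm, map_smul, hwQ, ← map_mul, htr, mul_comm (w i), hx j i, smul_eq_mul]
    by_cases hij : i = j
    · rw [if_pos hij, if_pos hij.symm, inv_mul_cancel₀ hθ0]
    · rw [if_neg hij, if_neg (Ne.symm hij), map_zero, mul_zero]
  have hΛ₀ : Subalgebra.toSubmodule ι.range = Submodule.span R (Set.range wQ) := by
    have h1 : Set.range wQ = ι.toLinearMap '' Set.range w := by
      rw [← Set.range_comp]
      congr 1
      funext i
      exact hwQ i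
    rw [h1, ← Submodule.map_span, w.span_eq, Submodule.map_top]
    rfl
  -- a uniform exponent
  choose e he0 z hz using he
  let e₀ := ∑ i, e i
  have hxe : ∀ i, ∃ c ∈ ι.range, (θ • wd i) ^ e₀ = θ • c := by
    intro i
    have hle : e i ≤ e₀ := Finset.single_le_sum (f := e) (fun _ _ => Nat.zero_le _) (Finset.mem_univ i)
    refine ⟨ι (z i * x i ^ (e₀ - e i)), ⟨_, rfl⟩, ?_⟩
    rw [hθwd, ← map_pow, ← map_smul, ← smul_mul_assoc, ← hz i, ← pow_add, Nat.add_sub_cancel' hle]
  -- the integral element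
  let Y' : E := (algebraMap R Q S)⁻¹ • ι Y
  have hint : IsIntegral R Y' := by
    refine ⟨p, hp, ?_⟩
    have hSN : (algebraMap R Q S) ^ p.natDegree ≠ 0 := pow_ne_zero _ hS0
    have h1 : (algebraMap R Q S) ^ p.natDegree • Polynomial.eval₂ (algebraMap R E) Y' p = 0 := by
      rw [Polynomial.eval₂_eq_sum_range, Finset.smul_sum, ← map_zero ι, ← hY, map_sum]
      refine Finset.sum_congr rfl fun i hi => ?_
      have hi' : i ≤ p.natDegree := Nat.lt_succ_iff.mp (Finset.mem_range.mp hi)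
      simp only [Y']
      rw [_root_.smul_pow, ← map_pow, map_smul, ← Algebra.smul_def, ← algebraMap_smul Q (p.coeff i),
        smul_smul, smul_smul, ← algebraMap_smul Q (p.coeff i * S ^ (p.natDegree - i)), map_mul,
        map_pow]
      have h2 : (algebraMap R Q S) ^ p.natDegree =
          (algebraMap R Q S) ^ (p.natDegree - i) * (algebraMap R Q S) ^ i := by
        rw [← pow_add, Nat.sub_add_cancel hi']
      have h3 : (algebraMap R Q S) ^ i ≠ 0 := pow_ne_zero _ hS0
      congr 1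
      · rw [h2, inv_pow, map_pow, mul_assoc, mul_assoc, mul_comm ((algebraMap R Q S) ^ i),
          mul_assoc, inv_mul_cancel₀ h3, mul_one, mul_comm]
      · rw [map_pow]
    exact (smul_eq_zero.mp h1).resolve_left hSN
  obtain ⟨Z, hZ⟩ := Fermat.Agent.S18.KLNormal.mem_of_isIntegral (Q := Q) wQ wd hdual ι.range hΛ₀ θ hθ e₀
    (fun i => ⟨x i, (hθwd i).symm⟩) hxe Y' hint
  refine ⟨Z, hι ?_⟩
  have hZ' : ι Z = Y' := hZ
  rw [map_smul, hZ']
  simp only [Y']
  rw [← algebraMap_smul Q S, smul_smul, mul_inv_cancel₀ hS0, one_smul]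

theorem nu_int {K : Type*} [Field K] [CharZero K] {A : ValuationSubring K}
    {L : Type*} [Field L] [Algebra K L] {τ : L}
    {E : Type*} [Field E] [Algebra L E] [FiniteDimensional L E]
    (hτ : Transcendental K τ) (hgen : IsGen K τ) {n : ℕ}
    (g : GoodBasis A τ E n) (θ : (↥A)[X]) (hθ : Squarefree (redP A θ)) (hD : DiffHyp A τ E θ)
    {x : E} (hx : x ∈ VV A τ E) (p : (↥A)[X][X]) (hp : p.Monic)
    (h : SmV A τ E (p.eval₂ (evE A τ E) x)) :
    ∃ c ∈ C0 A τ E, SmV A τ E (x - c) := by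
  obtain ⟨S, hS, hy⟩ := hx
  set y := evE A τ E S * x with hydef
  obtain ⟨b, hb⟩ := g.exists_bar hτ hgen
  obtain ⟨xx, hx0, hxtr, hxe⟩ := exists_dualElts hτ hgen g θ hθ.ne_zero hD
  have hdeg : (p.map (redP A)).natDegree = p.natDegree := hp.natDegree_map _
  have key := lemmaN_int b (redP A θ) hθ (fun i => Ideal.Quotient.mk (mC0 A τ E) ⟨xx i, hx0 i⟩) ?_ ?_
    (Ideal.Quotient.mk (mC0 A τ E) ⟨y, hy⟩) (redP A S) hS (p.map (redP A)) (hp.map _) ?_
  · obtain ⟨Z, hZ⟩ := key
    obtain ⟨z, rfl⟩ := Ideal.Quotient.mk_surjective Z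
    refine ⟨z, z.2, ?_⟩
    rw [Algebra.smul_def, algebraMap_redP, ← map_mul, ← sub_eq_zero, ← map_sub,
      mk_eq_zero_iff] at hZ
    refine SmV_of_evE_mul A hτ hS ?_
    have := hZ.SmV
    convert this using 1
    rw [mul_sub]
    rfl
  · intro i j
    rw [hb j, ← map_mul]
    by_cases hij : i = j
    · rw [if_pos hij]
      have := g.trace_bar hτ hgen (⟨xx i, hx0 i⟩ * ⟨g.w j, g.mem j⟩) (g.d1 * θ)
        (by rw [← if_pos hij (t := evL A τ (g.d1 * θ)) (e := (0 : L)), ← hxtr i j]; rfl)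
      rw [this, map_mul, g.red_d1, one_mul]
    · rw [if_neg hij]
      have := g.trace_bar hτ hgen (⟨xx i, hx0 i⟩ * ⟨g.w j, g.mem j⟩) 0
        (by rw [map_zero, ← if_neg hij (t := evL A τ (g.d1 * θ)) (e := (0 : L)), ← hxtr i j]; rfl)
      rw [this, map_zero]
  · intro i
    obtain ⟨e, he, z, hz, hze⟩ := hxe i
    refine ⟨e, he, Ideal.Quotient.mk (mC0 A τ E) ⟨z, hz⟩, ?_⟩
    rw [Algebra.smul_def, algebraMap_redP, ← map_mul, ← map_pow]
    congr 1
    exact Subtype.ext hze
  · rw [hdeg]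
    have h1 : ∀ i, ((p.map (redP A)).coeff i * redP A S ^ (p.natDegree - i)) •
        Ideal.Quotient.mk (mC0 A τ E) ⟨y, hy⟩ ^ i =
        Ideal.Quotient.mk (mC0 A τ E)
          (toC0 A τ E (p.coeff i * S ^ (p.natDegree - i)) * ⟨y, hy⟩ ^ i) := by
      intro i
      rw [Algebra.smul_def, coeff_map, ← map_pow, ← map_mul, algebraMap_redP,
        map_mul (Ideal.Quotient.mk (mC0 A τ E)), map_pow (Ideal.Quotient.mk (mC0 A τ E))]
    simp only [h1]
    rw [← map_sum, mk_eq_zero_iff]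
    have h2 : ((∑ i ∈ Finset.range (p.natDegree + 1),
        toC0 A τ E (p.coeff i * S ^ (p.natDegree - i)) * ⟨y, hy⟩ ^ i : C0 A τ E) : E) =
        evE A τ E S ^ p.natDegree * p.eval₂ (evE A τ E) x := by
      rw [AddSubmonoidClass.coe_finsetSum, eval₂_eq_sum_range, Finset.mul_sum]
      refine Finset.sum_congr rfl fun i hi => ?_
      have hi' : i ≤ p.natDegree := Nat.lt_succ_iff.mp (Finset.mem_range.mp hi)
      rw [Subring.coe_mul, coe_toC0, SubmonoidClass.coe_pow, map_mul, map_pow]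
      show _ * _ * (evE A τ E S * x) ^ i = _
      rw [mul_pow]
      have h3 : evE A τ E S ^ p.natDegree = evE A τ E S ^ (p.natDegree - i) * evE A τ E S ^ i := by
        rw [← pow_add, Nat.sub_add_cancel hi']
      rw [h3]
      ring
    refine Sm0_of_SmV A hτ hgen (Subtype.coe_prop _) ?_
    rw [h2]
    exact SmV.mul_left A h ((VV A τ E).pow_mem (C0_le_VV A τ E (evE_mem_C0 A τ E S)) _)

theorem GoodBasis.fgBar {K : Type*} [Field K] {A : ValuationSubring K}
    {L : Type*} [Field L] [Algebra K L] {τ : L}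
    {E : Type*} [Field E] [Algebra L E] {n : ℕ} (g : GoodBasis A τ E n) : FgBar A τ E := by
  classical
  refine ⟨Finset.univ.image g.w, ?_, fun x hx => ?_⟩
  · intro e he
    obtain ⟨i, -, rfl⟩ := Finset.mem_image.mp he
    exact g.mem i
  · choose c hc using g.span x hx
    refine ⟨fun e => if h : ∃ i, g.w i = e then c h.choose else 0, ?_⟩
    rw [Finset.sum_image (fun i _ j _ hij => g.w.injective hij)]
    have h1 : ∀ i, (if h : ∃ j, g.w j = g.w i then c h.choose else 0) = c i := by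
      intro i
      have h : ∃ j, g.w j = g.w i := ⟨i, rfl⟩
      rw [dif_pos h, g.w.injective h.choose_spec]
    simp only [h1]
    have h2 : ∑ i, evE A τ E (c i) * g.w i = evE A τ E g.d1 * x := by
      conv_rhs => rw [← g.w.sum_repr x, Finset.mul_sum]
      refine Finset.sum_congr rfl fun i _ => ?_
      rw [evE_apply, evE_apply, ← hc i, map_mul, Algebra.smul_def, mul_assoc]
    rw [h2]
    have h3 : x - evE A τ E g.d1 * x = x * evE A τ E (1 - g.d1) := by
      rw [map_sub, map_one]; ring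
    rw [h3]
    exact Sm0.mul_left A (Sm0_evE_of_redP_eq_zero A (by rw [map_sub, map_one, g.red_d1, sub_self])) hx

theorem radical_of_pow {R Ω₁ Ω₂ : Type*} [CommRing R] [CommRing Ω₁] [CommRing Ω₂]
    (f₁ : R →+* Ω₁) (f₂ : R →+* Ω₂) (hN : IsNoetherianRing f₂.range) (Q : ℕ) (hQ : 2 ≤ Q)
    (h : ∀ y : R, ∃ g d : R, f₁ d = 0 ∧ f₂ d = f₂ y - f₂ g ^ Q)
    (y : R) (n : ℕ) (hn : 0 < n) (hy : ∃ c : R, f₁ c = 0 ∧ f₂ c = f₂ y ^ n) :
    ∃ c : R, f₁ c = 0 ∧ f₂ c = f₂ y := by
  have hsurj : Function.Surjective f₂.rangeRestrict := f₂.rangeRestrict_surjective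
  set I : Ideal f₂.range := Ideal.map f₂.rangeRestrict (RingHom.ker f₁) with hI
  have hmem : ∀ x : f₂.range, x ∈ I ↔ ∃ c : R, f₁ c = 0 ∧ f₂ c = x := by
    intro x
    rw [hI, Ideal.mem_map_iff_of_surjective _ hsurj]
    constructor
    · rintro ⟨c, hc, rfl⟩
      exact ⟨c, hc, rfl⟩
    · rintro ⟨c, hc, hcx⟩
      exact ⟨c, hc, Subtype.ext hcx⟩
  set J := I.radical with hJ
  obtain ⟨k, hk⟩ := Ideal.exists_radical_pow_le_of_fg I (IsNoetherian.noetherian _)
  have h1 : J ≤ J ^ 2 ⊔ I := by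
    intro x hx
    obtain ⟨x0, rfl⟩ := hsurj x
    obtain ⟨g, d, hd1, hd2⟩ := h x0
    have hdI : f₂.rangeRestrict d ∈ I := (hmem _).mpr ⟨d, hd1, rfl⟩
    have e : f₂.rangeRestrict x0 = f₂.rangeRestrict g ^ Q + f₂.rangeRestrict d := by
      apply Subtype.ext
      show f₂ x0 = f₂ g ^ Q + f₂ d
      rw [hd2]; ring
    have hgQ : f₂.rangeRestrict g ^ Q ∈ J := by
      have : f₂.rangeRestrict g ^ Q = f₂.rangeRestrict x0 - f₂.rangeRestrict d := by rw [e]; ring
      rw [this]
      exact J.sub_mem hx (Ideal.le_radical hdI)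
    have hg : f₂.rangeRestrict g ∈ J := by
      have := (Ideal.radical_isRadical I)
      exact this ⟨Q, hgQ⟩
    rw [e]
    exact Submodule.add_mem_sup (Ideal.pow_le_pow_right hQ (Ideal.pow_mem_pow hg Q)) hdI
  have h2 : ∀ j : ℕ, J ≤ J ^ (j + 1) ⊔ I := by
    intro j
    induction j with
    | zero => rw [zero_add, pow_one]; exact le_sup_left
    | succ j ih =>
      refine h1.trans (sup_le ?_ le_sup_right)
      rw [pow_two]
      calc J * J ≤ (J ^ (j + 1) ⊔ I) * J := Ideal.mul_mono_left ih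
        _ = J ^ (j + 1) * J ⊔ I * J := Ideal.sup_mul _ _ _
        _ ≤ J ^ (j + 1 + 1) ⊔ I := sup_le_sup (le_of_eq (pow_succ J (j + 1)).symm) Ideal.mul_le_left
  have h3 : J ≤ I := by
    refine (h2 k).trans (sup_le ?_ le_rfl)
    exact (Ideal.pow_le_pow_right (Nat.le_succ k)).trans hk
  have h4 : f₂.rangeRestrict y ∈ J := by
    refine ⟨n, (hmem _).mpr ?_⟩
    obtain ⟨c, hc1, hc2⟩ := hy
    exact ⟨c, hc1, hc2⟩
  exact (hmem _).mp (h3 h4)

end Fermat.Agent.S34.T
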