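import Fermat.Agent.S34.T.Cech

/-!
# S34 / MOD-CH5, abstract part  (helper14)

* `fgBar_of_two` : if the chart `C0 A θ F` has two reductions `f₁, f₂` with joint kernel `𝔪 C0`, and the image of `fᵢ` is spanned
  (over the image of `A[X]`) by finitely many elements, then `C0 / 𝔪 C0` is a finitely generated `k[X]`-module (`FgBar`).
  Proof: the coefficient vectors of the pairs `(f₁ x, f₂ x)` form a `k[X]`-submodule of the noetherian module `k[X]^κ₁ × k[X]^κ₂`.
* `exists_expand_decomp` : `P = ∑_{j<q} X^j P_j(X^q)`.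
-/

set_option autoImplicit false

noncomputable section

namespace Fermat.Agent.S34.T

open Polynomial Fermat.Agent.S18.KL

theorem fgBar_of_two {K : Type*} [Field K] {A : ValuationSubring K} {L : Type*} [Field L]
    [Algebra K L] {θ : L} {F : Type*} [Field F] [Algebra L F]
    {Ω₁ Ω₂ : Type*} [CommRing Ω₁] [CommRing Ω₂]
    (f₁ : C0 A θ F →+* Ω₁) (f₂ : C0 A θ F →+* Ω₂)
    (hker : ∀ x : C0 A θ F, f₁ x = 0 → f₂ x = 0 → Sm0 A θ F (x : F))
    (hsm : ∀ x : C0 A θ F, Sm0 A θ F (x : F) → f₁ x = 0 ∧ f₂ x = 0)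
    {κ₁ κ₂ : Type*} [Fintype κ₁] [Fintype κ₂] (e₁ : κ₁ → Ω₁) (e₂ : κ₂ → Ω₂)
    (h₁ : ∀ x : C0 A θ F, ∃ c : κ₁ → (↥A)[X],
      f₁ x = ∑ i, f₁ ⟨evE A θ F (c i), evE_mem_C0 A θ F _⟩ * e₁ i)
    (h₂ : ∀ x : C0 A θ F, ∃ c : κ₂ → (↥A)[X],
      f₂ x = ∑ i, f₂ ⟨evE A θ F (c i), evE_mem_C0 A θ F _⟩ * e₂ i) :
    FgBar A θ F := by
  classical
  let ev : (↥A)[X] →+* C0 A θ F := (evE A θ F).codRestrict (C0 A θ F) (evE_mem_C0 A θ F)
  have hev : ∀ P, ev P = ⟨evE A θ F P, evE_mem_C0 A θ F _⟩ := fun P => rfl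
  have hred : ∀ P : (↥A)[X], redP A P = 0 → f₁ (ev P) = 0 ∧ f₂ (ev P) = 0 := fun P hP =>
    hsm _ (Sm0_evE_of_redP_eq_zero A hP)
  let R := (kk A)[X]
  let P : Submodule R ((κ₁ → R) × (κ₂ → R)) :=
    { carrier := {v | ∃ (c₁ : κ₁ → (↥A)[X]) (c₂ : κ₂ → (↥A)[X]) (x : C0 A θ F),
        (∀ i, redP A (c₁ i) = v.1 i) ∧ (∀ i, redP A (c₂ i) = v.2 i) ∧
        f₁ x = ∑ i, f₁ (ev (c₁ i)) * e₁ i ∧ f₂ x = ∑ i, f₂ (ev (c₂ i)) * e₂ i}
      add_mem' := by
        rintro v w ⟨c₁, c₂, x, a1, a2, a3, a4⟩ ⟨d₁, d₂, y, b1, b2, b3, b4⟩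
        refine ⟨fun i => c₁ i + d₁ i, fun i => c₂ i + d₂ i, x + y, fun i => ?_, fun i => ?_, ?_, ?_⟩
        · rw [map_add, a1, b1]; rfl
        · rw [map_add, a2, b2]; rfl
        · rw [map_add, a3, b3, ← Finset.sum_add_distrib]
          exact Finset.sum_congr rfl fun i _ => by rw [map_add, map_add, add_mul]
        · rw [map_add, a4, b4, ← Finset.sum_add_distrib]
          exact Finset.sum_congr rfl fun i _ => by rw [map_add, map_add, add_mul]
      zero_mem' := ⟨fun _ => 0, fun _ => 0, 0, fun i => by simp, fun i => by simp, by simp, by simp⟩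
      smul_mem' := by
        rintro a v ⟨c₁, c₂, x, a1, a2, a3, a4⟩
        obtain ⟨p, rfl⟩ := redP_surjective A a
        refine ⟨fun i => p * c₁ i, fun i => p * c₂ i, ev p * x, fun i => ?_, fun i => ?_, ?_, ?_⟩
        · rw [map_mul, a1]; rfl
        · rw [map_mul, a2]; rfl
        · rw [map_mul, a3, Finset.mul_sum]
          exact Finset.sum_congr rfl fun i _ => by rw [map_mul, map_mul, mul_assoc]
        · rw [map_mul, a4, Finset.mul_sum]
          exact Finset.sum_congr rfl fun i _ => by rw [map_mul, map_mul, mul_assoc] }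
  have hPfg : P.FG := IsNoetherian.noetherian P
  obtain ⟨n, s, hs⟩ := Submodule.fg_iff_exists_fin_generating_family.mp hPfg
  have hsP : ∀ l, s l ∈ P := fun l => hs ▸ Submodule.subset_span ⟨l, rfl⟩
  choose d₁ d₂ y b1 b2 b3 b4 using hsP
  refine fgBar_of_family (fun l : Fin n => (y l : F)) (fun l => (y l).2) fun x hx => ?_
  obtain ⟨c₁, hc₁⟩ := h₁ ⟨x, hx⟩
  obtain ⟨c₂, hc₂⟩ := h₂ ⟨x, hx⟩
  have hv : ((fun i => redP A (c₁ i), fun i => redP A (c₂ i)) : (κ₁ → R) × (κ₂ → R)) ∈ P :=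
    ⟨c₁, c₂, ⟨x, hx⟩, fun _ => rfl, fun _ => rfl, hc₁, hc₂⟩
  rw [← hs, Submodule.mem_span_range_iff_exists_fun] at hv
  obtain ⟨a, ha⟩ := hv
  choose p hp using fun l => redP_surjective A (a l)
  refine ⟨p, ?_⟩
  have hcoe : x - ∑ l, evE A θ F (p l) * (y l : F) =
      ((⟨x, hx⟩ - ∑ l, ev (p l) * y l : C0 A θ F) : F) := by
    push_cast
    rfl
  rw [hcoe]
  have ha1 : ∀ i, redP A (c₁ i - ∑ l, p l * d₁ l i) = 0 := by
    intro i
    have := congrArg (fun v => v.1 i) ha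
    simp only [Prod.fst_sum, Prod.smul_fst, Finset.sum_apply, Pi.smul_apply, smul_eq_mul] at this
    rw [map_sub, map_sum, ← this, sub_eq_zero]
    exact Finset.sum_congr rfl fun l _ => by rw [map_mul, hp, b1]
  have ha2 : ∀ i, redP A (c₂ i - ∑ l, p l * d₂ l i) = 0 := by
    intro i
    have := congrArg (fun v => v.2 i) ha
    simp only [Prod.snd_sum, Prod.smul_snd, Finset.sum_apply, Pi.smul_apply, smul_eq_mul] at this
    rw [map_sub, map_sum, ← this, sub_eq_zero]
    exact Finset.sum_congr rfl fun l _ => by rw [map_mul, hp, b2]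
  apply hker
  · have : f₁ (⟨x, hx⟩ - ∑ l, ev (p l) * y l) =
        ∑ i, f₁ (ev (c₁ i - ∑ l, p l * d₁ l i)) * e₁ i := by
      rw [map_sub, hc₁, map_sum]
      simp only [map_mul, b3, map_sub, map_sum, sub_mul, Finset.sum_sub_distrib, Finset.mul_sum,
        Finset.sum_mul]
      congr 1
      rw [Finset.sum_comm]
      exact Finset.sum_congr rfl fun i _ => Finset.sum_congr rfl fun l _ => by ring
    rw [this]
    exact Finset.sum_eq_zero fun i _ => by rw [(hred _ (ha1 i)).1, zero_mul]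
  · have : f₂ (⟨x, hx⟩ - ∑ l, ev (p l) * y l) =
        ∑ i, f₂ (ev (c₂ i - ∑ l, p l * d₂ l i)) * e₂ i := by
      rw [map_sub, hc₂, map_sum]
      simp only [map_mul, b4, map_sub, map_sum, sub_mul, Finset.sum_sub_distrib, Finset.mul_sum,
        Finset.sum_mul]
      congr 1
      rw [Finset.sum_comm]
      exact Finset.sum_congr rfl fun i _ => Finset.sum_congr rfl fun l _ => by ring
    rw [this]
    exact Finset.sum_eq_zero fun i _ => by rw [(hred _ (ha2 i)).2, zero_mul]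

/-- `P = ∑_{j<q} X^j P_j(X^q)` -/
theorem exists_expand_decomp {R : Type*} [CommRing R] (q : ℕ) (hq : 0 < q) (P : R[X]) :
    ∃ c : Fin q → R[X], P = ∑ j : Fin q, X ^ (j : ℕ) * expand R q (c j) := by
  classical
  induction P using Polynomial.induction_on' with
  | add P Q hP hQ =>
    obtain ⟨c, hc⟩ := hP
    obtain ⟨d, hd⟩ := hQ
    refine ⟨fun j => c j + d j, ?_⟩
    conv_lhs => rw [hc, hd, ← Finset.sum_add_distrib]
    exact Finset.sum_congr rfl fun j _ => by rw [map_add, mul_add]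
  | monomial n a =>
    refine ⟨fun j => if (j : ℕ) = n % q then monomial (n / q) a else 0, ?_⟩
    rw [Finset.sum_eq_single (⟨n % q, Nat.mod_lt n hq⟩ : Fin q)]
    · show _ = X ^ (n % q) * expand R q (if n % q = n % q then monomial (n / q) a else 0)
      rw [if_pos rfl, expand_monomial, X_pow_mul_monomial]
      rw [mul_comm (n / q) q, Nat.div_add_mod]
    · intro j _ hj
      show X ^ (j : ℕ) * expand R q (if (j : ℕ) = n % q then monomial (n / q) a else 0) = 0
      rw [if_neg (fun h => hj (Fin.ext h)), map_zero, mul_zero]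
    · intro h
      exact absurd (Finset.mem_univ _) h

/-- the image of a chart with `FgBar` under a reduction map is a noetherian ring -/
theorem isNoetherianRing_range_of_fgBar {K : Type*} [Field K] {A : ValuationSubring K}
    {L : Type*} [Field L] [Algebra K L] {θ : L} {F : Type*} [Field F] [Algebra L F]
    (hfg : FgBar A θ F) {Ω : Type*} [CommRing Ω] (f : C0 A θ F →+* Ω)
    (hsm : ∀ x : C0 A θ F, Sm0 A θ F (x : F) → f x = 0) : IsNoetherianRing f.range := by
  have hfin : Module.Finite (kk A)[X] (Cbar A θ F) := WeakAux.finite_Cbar hfg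
  have h1 : IsNoetherian (kk A)[X] (Cbar A θ F) := isNoetherian_of_isNoetherianRing_of_finite _ _
  have h2 : IsNoetherianRing (Cbar A θ F) := isNoetherian_of_tower (kk A)[X] h1
  let g : Cbar A θ F →+* f.range :=
    Ideal.Quotient.lift (mC0 A θ F) f.rangeRestrict (fun x hx => Subtype.ext (hsm x hx))
  refine isNoetherianRing_of_surjective (Cbar A θ F) f.range g ?_
  rintro ⟨_, x, rfl⟩
  exact ⟨Ideal.Quotient.mk _ x, rfl⟩

end Fermat.Agent.S34.T
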