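import Mathlib

/-!
# S34 / TOR, abstract part : codimension of a sublattice over `k[X]`   (key `S34/T-COD`, Mathlib only)

`R` free over `k[X]` with basis `b`; `𝔧` = the `k[X]`-span of the rows `∑ j, P i j • b j` of a square matrix `P` with
`det P ≠ 0`.  Then `dim_k R / 𝔧 = natDegree (det P)`.

Proof.  Model: `Mathlib/LinearAlgebra/FreeModule/Norm.lean` (`finrank_quotient_span_eq_natDegree_norm`,
`associated_norm_prod_smith`) and `Mathlib/LinearAlgebra/FreeModule/IdealQuotient.lean`
(`Submodule.finrank_quotient_eq_sum`, `Submodule.quotientEquivDirectSum`, `Submodule.smithNormalFormOfRankEq`).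
Let `N : Submodule k[X] R` be the span of the rows.  The rows are linearly independent (`det P ≠ 0`), so `N` has rank `n`;
Smith normal form: bases `b'` of `R`, `ab` of `N` with `ab i = a i • b' i`.  The endomorphism `f = Matrix.toLin b b Pᵀ`
(`b i ↦ row i`) has range `N` and `det f = det P`; comparing with `b' i ↦ a i • b' i` (two bases of `N` differ by a unit
of `k[X]`) gives `Associated (det P) (∏ a i)`.  `R / N ≅ ⨁ k[X] / (a i)`, `finrank_k k[X]/(a) = natDegree a`
(`Polynomial.finrank_quotient_span_eq_natDegree`).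
-/

set_option autoImplicit false

namespace Fermat.Agent.S34.T

open Polynomial Module Submodule

/-- an endomorphism of a finite free module over a domain with nonzero determinant is injective -/
theorem injective_of_det_ne_zero_aux {A : Type*} [CommRing A] [IsDomain A] {M : Type*}
    [AddCommGroup M] [Module A M] {n : ℕ} (b : Basis (Fin n) A M) (f : M →ₗ[A] M)
    (hf : LinearMap.det f ≠ 0) : Function.Injective f := by
  rw [← LinearMap.det_toMatrix b] at hf
  rw [injective_iff_map_eq_zero]
  intro x hx
  have h1 : (LinearMap.toMatrix b b f).mulVec (b.repr x) = 0 := by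
    rw [LinearMap.toMatrix_mulVec_repr, hx]
    simp
  have h2 := Matrix.eq_zero_of_mulVec_eq_zero hf h1
  apply b.repr.injective
  ext i
  simpa using congrFun h2 i

/-- module form of `finrank_quotient_rows` -/
theorem finrank_quotient_range_aux {k : Type*} [Field k] {M : Type*} [AddCommGroup M]
    [Module k[X] M] [Module k M] [IsScalarTower k k[X] M] {n : ℕ} (b : Basis (Fin n) k[X] M)
    (f : M →ₗ[k[X]] M) (hf : LinearMap.det f ≠ 0) :
    Module.Finite k (M ⧸ LinearMap.range f) ∧
      Module.finrank k (M ⧸ LinearMap.range f) = (LinearMap.det f).natDegree := by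
  classical
  have hinj := injective_of_det_ne_zero_aux b f hf
  set N := LinearMap.range f with hN
  let e : M ≃ₗ[k[X]] N := LinearEquiv.ofInjective f hinj
  have h : Module.finrank k[X] N = Module.finrank k[X] M := e.symm.finrank_eq
  let a := smithNormalFormCoeffs b h
  let b' := smithNormalFormTopBasis b h
  let ab := smithNormalFormBotBasis b h
  have ab_eq := smithNormalFormBotBasis_def b h
  have ha0 : ∀ i, a i ≠ 0 := smithNormalFormCoeffs_ne_zero b h
  let e' : M ≃ₗ[k[X]] N := b'.equiv ab (Equiv.refl _)
  let f' : M →ₗ[k[X]] M := N.subtype.comp (e' : M →ₗ[k[X]] N)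
  have hfe : f = N.subtype.comp (e : M →ₗ[k[X]] N) := by
    ext x; rfl
  have hass : Associated (LinearMap.det f) (LinearMap.det f') := by
    rw [hfe]
    exact LinearMap.associated_det_comp_equiv _ _ _
  have ha : ∀ i, f' (b' i) = a i • b' i := by
    intro i
    show ((b'.equiv ab (Equiv.refl _) (b' i) : N) : M) = _
    rw [b'.equiv_apply, Equiv.refl_apply]
    exact ab_eq i
  have hdet : LinearMap.det f' = ∏ i, a i := by
    rw [← LinearMap.det_toMatrix b', ← Matrix.det_diagonal]
    congr 1
    ext i j
    rw [LinearMap.toMatrix_apply, ha, map_smul, Basis.repr_self, Finsupp.smul_single,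
      smul_eq_mul, mul_one]
    by_cases hij : i = j
    · rw [hij, Matrix.diagonal_apply_eq, Finsupp.single_eq_same]
    · rw [Matrix.diagonal_apply_ne _ hij, Finsupp.single_eq_of_ne hij]
  have hfin : ∀ i, Module.Finite k (k[X] ⧸ Ideal.span ({smithNormalFormCoeffs b h i} : Set k[X])) :=
    fun i => PowerBasis.finite <| AdjoinRoot.powerBasis <| ha0 i
  constructor
  · exact Module.Finite.equiv (quotientEquivDirectSum k b h).symm
  · rw [natDegree_eq_of_degree_eq (degree_eq_degree_of_associated hass), hdet,
      natDegree_prod _ _ fun i _ => ha0 i, finrank_quotient_eq_sum k b h]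
    congr with i
    exact (AdjoinRoot.powerBasis <| ha0 i).finrank

theorem finrank_quotient_rows {k : Type*} [Field k] {R : Type*} [CommRing R] [Algebra k[X] R]
    [Algebra k R] [IsScalarTower k k[X] R] {n : ℕ} (b : Module.Basis (Fin n) k[X] R)
    (P : Matrix (Fin n) (Fin n) k[X]) (hP : P.det ≠ 0) (𝔧 : Ideal R)
    (h𝔧 : ∀ x, x ∈ 𝔧 ↔ ∃ c : Fin n → k[X], x = ∑ i, c i • ∑ j, P i j • b j) :
    Module.Finite k (R ⧸ 𝔧) ∧ Module.finrank k (R ⧸ 𝔧) = P.det.natDegree := by
  classical
  let f : R →ₗ[k[X]] R := Matrix.toLin b b P.transpose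
  have hdet : LinearMap.det f = P.det := by
    rw [LinearMap.det_toLin, Matrix.det_transpose]
  have hfb : ∀ i, f (b i) = ∑ j, P i j • b j := by
    intro i
    rw [Matrix.toLin_self]
    rfl
  obtain ⟨h1, h2⟩ := finrank_quotient_range_aux b f (by rw [hdet]; exact hP)
  have heq : (LinearMap.range f).restrictScalars k = 𝔧.restrictScalars k := by
    ext x
    rw [Submodule.restrictScalars_mem, Submodule.restrictScalars_mem, h𝔧, LinearMap.mem_range]
    constructor
    · rintro ⟨y, rfl⟩
      refine ⟨fun i => b.repr y i, ?_⟩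
      conv_lhs => rw [← b.sum_repr y, map_sum]
      refine Finset.sum_congr rfl fun i _ => ?_
      rw [map_smul, hfb]
    · rintro ⟨c, rfl⟩
      refine ⟨∑ i, c i • b i, ?_⟩
      rw [map_sum]
      refine Finset.sum_congr rfl fun i _ => ?_
      rw [map_smul, hfb]
  let E : (R ⧸ LinearMap.range f) ≃ₗ[k] (R ⧸ 𝔧) :=
    ((Submodule.Quotient.restrictScalarsEquiv k (LinearMap.range f)).symm.trans
      (Submodule.quotEquivOfEq _ _ heq)).trans (Submodule.Quotient.restrictScalarsEquiv k 𝔧)
  exact ⟨Module.Finite.equiv E, by rw [← E.finrank_eq, h2, hdet]⟩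

/-- the special case `𝔧 = h R` -/
theorem finrank_quotient_span_singleton {k : Type*} [Field k] {R : Type*} [CommRing R] [Algebra k[X] R]
    [Algebra k R] [IsScalarTower k k[X] R] {n : ℕ} (b : Module.Basis (Fin n) k[X] R)
    (h : k[X]) (hh : h ≠ 0) :
    Module.Finite k (R ⧸ Ideal.span {algebraMap k[X] R h}) ∧
      Module.finrank k (R ⧸ Ideal.span {algebraMap k[X] R h}) = n * h.natDegree := by
  classical
  have hdet : (Matrix.diagonal fun _ : Fin n => h).det = h ^ n := by
    rw [Matrix.det_diagonal, Finset.prod_const, Finset.card_univ, Fintype.card_fin]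
  have hrow : ∀ i, ∑ j, (Matrix.diagonal fun _ : Fin n => h) i j • b j = h • b i := by
    intro i
    rw [Finset.sum_eq_single i]
    · rw [Matrix.diagonal_apply_eq]
    · intro j _ hj
      rw [Matrix.diagonal_apply_ne _ (Ne.symm hj), zero_smul]
    · intro hi; exact absurd (Finset.mem_univ i) hi
  have := finrank_quotient_rows b (Matrix.diagonal fun _ : Fin n => h)
    (by rw [hdet]; exact pow_ne_zero _ hh) (Ideal.span {algebraMap k[X] R h}) (fun x => by
      rw [Ideal.mem_span_singleton']
      simp only [hrow]
      constructor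
      · rintro ⟨y, rfl⟩
        refine ⟨fun i => b.repr y i, ?_⟩
        conv_lhs => rw [← b.sum_repr y, Finset.sum_mul]
        refine Finset.sum_congr rfl fun i _ => ?_
        rw [mul_comm, ← Algebra.smul_def, smul_comm]
      · rintro ⟨c, rfl⟩
        refine ⟨∑ i, c i • b i, ?_⟩
        rw [Finset.sum_mul]
        refine Finset.sum_congr rfl fun i _ => ?_
        rw [mul_comm, ← Algebra.smul_def, smul_comm])
  rw [hdet, natDegree_pow] at this
  exact this

end Fermat.Agent.S34.T
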