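import Fermat.Agent.S37.BrB0
import Fermat.Agent.S24.PlacesCore

/-!
# S34 / TOR, abstract part : the generic fibre   (keys `S34/T-GEN-a` (Mathlib only), `S34/T-GEN-b`)

`u ∈ Fˣ` with `n ∣ ord_P u` for all places.  Then the fractional ideal `(u)` of the Dedekind domain `B0` is an `n`-th power
`𝔞⁻ⁿ`; `I_K = {f : fⁿ u ∈ B0} = 𝔞`, `I'_K = {g : gⁿ u⁻¹ ∈ B0} = 𝔞⁻¹`, and `𝔞` is generated by two elements.  Output:
`f₁ g₁ + f₂ g₂ = 1` with `fᵢ ∈ I_K`, `gᵢ ∈ I'_K`, i.e. a matrix `[[f₁, f₂], [-g₂, g₁]] ∈ SL₂(F)` mapping `B0²` ONTO `I_K ⊕ I'_K`.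

## GEN-a (`exists_sl2_of_dedekind`)
`FractionalIdeal.spanSingleton B⁰ u = ∏ᶠ v, v ^ (count v)` (`FractionalIdeal.finprod_heightOneSpectrum_factorization'`,
`FractionalIdeal.count`; `count K v (spanSingleton u)` is `- log (v.valuation u)`:
`FractionalIdeal.count_spanSingleton`? otherwise write `u = a / b`, and use `valuation_of_algebraMap`, `intValuation` and
`Ideal.count_associates_factors_eq`).  Put `𝔞 = ∏ᶠ v, v ^ (- count v / n)`; `𝔞 ^ n * (u) = 1`.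
Alternative without `finprod`: induct, or take `𝔞 = {f : fⁿ u ∈ B}` directly and prove `𝔞 𝔞' = 1` locally.
`f ∈ 𝔞 ⟹ fⁿ ∈ 𝔞ⁿ = (u⁻¹) ⟹ fⁿ u ∈ B`; the same for `𝔞⁻¹`.
Two generators: choose `0 ≠ f₁ ∈ 𝔞`; `IsDedekindDomain.exists_add_spanSingleton_mul_eq` with `a = (f₁)`, `b = 1`, `c = 𝔞` gives
`f₂` with `(f₁) + (f₂) = 𝔞`.  `1 ∈ 𝔞 * 𝔞⁻¹ = f₁ 𝔞⁻¹ + f₂ 𝔞⁻¹`.

## GEN-b (`exists_gen`)
`S37.isDedekindDomain_B0`, `S37.isFractionRing_B0`, `S37.algB0`; for `v : HeightOneSpectrum B0` the place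
`Place.ofHeightOneSpectrum v` has `ord f = - log (v.valuation F f)` (`S24.ord_ofHeightOneSpectrum`), so
`v.valuation F u = exp (- ord u) = (exp (- ord u / n)) ^ n`.
-/

set_option autoImplicit false

noncomputable section

namespace Fermat.Agent.S34.T

open Polynomial Fermat.Agent.S18.KL IsDedekindDomain WithZero
open scoped nonZeroDivisors

section GenA

variable {B F : Type*} [CommRing B] [IsDedekindDomain B] [Field F] [Algebra B F] [IsFractionRing B F]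

theorem valuation_eq_exp_count_int (v : HeightOneSpectrum B) (a : B) (ha0 : a ≠ 0) :
    v.valuation F (algebraMap B F a) =
      exp (-(FractionalIdeal.count F v (FractionalIdeal.spanSingleton B⁰ (algebraMap B F a)))) := by
  classical
  have e1 : FractionalIdeal.spanSingleton B⁰ (algebraMap B F a) =
      ((Ideal.span {a} : Ideal B) : FractionalIdeal B⁰ F) := by
    rw [FractionalIdeal.coeIdeal_span_singleton]
  have hs : (Ideal.span {a} : Ideal B) ≠ 0 := by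
    rw [Ne, Ideal.zero_eq_bot, Ideal.span_singleton_eq_bot]
    exact ha0
  rw [e1, FractionalIdeal.count_coe F v hs, HeightOneSpectrum.valuation_of_algebraMap,
    HeightOneSpectrum.intValuation_if_neg v ha0]

theorem valuation_eq_exp_count (v : HeightOneSpectrum B) (x : F) (hx : x ≠ 0) :
    v.valuation F x = exp (-(FractionalIdeal.count F v (FractionalIdeal.spanSingleton B⁰ x))) := by
  obtain ⟨a, b, hb, hab⟩ := IsFractionRing.div_surjective (A := B) x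
  have hb0' : b ≠ 0 := nonZeroDivisors.ne_zero hb
  have hb0 : algebraMap B F b ≠ 0 := by
    rw [Ne, map_eq_zero_iff _ (IsFractionRing.injective B F)]
    exact hb0'
  have ha0 : a ≠ 0 := by
    rintro rfl
    apply hx
    rw [← hab]; simp
  have hxy : x * algebraMap B F b = algebraMap B F a := by
    rw [← hab, div_mul_cancel₀ _ hb0]
  have h1 := valuation_eq_exp_count_int (F := F) v a ha0
  have h2 := valuation_eq_exp_count_int (F := F) v b hb0'
  rw [← hxy, ← FractionalIdeal.spanSingleton_mul_spanSingleton,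
    FractionalIdeal.count_mul F v (FractionalIdeal.spanSingleton_ne_zero_iff.mpr hx)
      (FractionalIdeal.spanSingleton_ne_zero_iff.mpr hb0), map_mul, h2, neg_add, exp_add] at h1
  exact mul_right_cancel₀ (by simp) h1

theorem fracIdeal_ext_count {I J : FractionalIdeal B⁰ F} (hI : I ≠ 0) (hJ : J ≠ 0)
    (h : ∀ v : HeightOneSpectrum B, FractionalIdeal.count F v I = FractionalIdeal.count F v J) : I = J := by
  rw [← FractionalIdeal.finprod_heightOneSpectrum_factorization' F hI,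
    ← FractionalIdeal.finprod_heightOneSpectrum_factorization' F hJ]
  exact finprod_congr fun v => by rw [h v]

theorem exists_root_fracIdeal (n : ℕ) (hn : 0 < n) (u : F) (hu : u ≠ 0)
    (hdiv : ∀ v : HeightOneSpectrum B, ∃ y : ℤᵐ⁰, v.valuation F u = y ^ n) :
    ∃ 𝔞 : FractionalIdeal B⁰ F, 𝔞 ≠ 0 ∧ 𝔞 ^ n * FractionalIdeal.spanSingleton B⁰ u = 1 := by
  classical
  set I := FractionalIdeal.spanSingleton B⁰ u with hI
  have hI0 : I ≠ 0 := FractionalIdeal.spanSingleton_ne_zero_iff.mpr hu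
  have hdvd : ∀ v : HeightOneSpectrum B, (n : ℤ) ∣ FractionalIdeal.count F v I := by
    intro v
    obtain ⟨y, hy⟩ := hdiv v
    have hy0 : y ≠ 0 := by
      rintro rfl
      rw [zero_pow hn.ne'] at hy
      exact hu ((map_eq_zero _).mp hy)
    obtain ⟨k, rfl⟩ : ∃ k : ℤ, y = exp k := ⟨log y, (exp_log hy0).symm⟩
    rw [valuation_eq_exp_count v u hu, ← exp_nsmul, exp_inj] at hy
    refine ⟨-k, ?_⟩
    rw [← hI] at hy
    simp only [nsmul_eq_mul] at hy
    linarith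
  have hfin : {v : HeightOneSpectrum B | FractionalIdeal.count F v I ≠ 0}.Finite :=
    FractionalIdeal.finite_factors (K := F) I
  let e : HeightOneSpectrum B →₀ ℤ :=
    Finsupp.mk (hfin.toFinset) (fun v => -(FractionalIdeal.count F v I / n)) (by
      intro v
      rw [Set.Finite.mem_toFinset]
      simp only [Set.mem_ofPred_eq, ne_eq, neg_eq_zero]
      constructor
      · intro h h2
        obtain ⟨k, hk⟩ := hdvd v
        rw [hk, Int.mul_ediv_cancel_left _ (by exact_mod_cast hn.ne')] at h2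
        exact h (by rw [hk, h2, mul_zero])
      · intro h h2
        exact h (by rw [h2]; simp))
  refine ⟨e.prod (fun v k => (v.asIdeal : FractionalIdeal B⁰ F) ^ k), ?_, ?_⟩
  · rw [Finsupp.prod, Finset.prod_ne_zero_iff]
    exact fun v _ => zpow_ne_zero _ (FractionalIdeal.coeIdeal_ne_zero.mpr v.ne_bot)
  · have h0 : e.prod (fun v k => (v.asIdeal : FractionalIdeal B⁰ F) ^ k) ≠ 0 := by
      rw [Finsupp.prod, Finset.prod_ne_zero_iff]
      exact fun v _ => zpow_ne_zero _ (FractionalIdeal.coeIdeal_ne_zero.mpr v.ne_bot)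
    apply fracIdeal_ext_count (mul_ne_zero (pow_ne_zero _ h0) hI0) one_ne_zero
    intro v
    rw [FractionalIdeal.count_mul F v (pow_ne_zero _ h0) hI0, FractionalIdeal.count_pow,
      FractionalIdeal.count_finsuppProd, FractionalIdeal.count_one]
    show (n : ℤ) * (-(FractionalIdeal.count F v I / n)) + _ = 0
    obtain ⟨k, hk⟩ := hdvd v
    rw [hk, Int.mul_ediv_cancel_left _ (by exact_mod_cast hn.ne')]
    ring

omit [IsDedekindDomain B] in
theorem pow_mul_mem_of_mem {𝔞 : FractionalIdeal B⁰ F} {n : ℕ} {u : F}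
    (h : 𝔞 ^ n * FractionalIdeal.spanSingleton B⁰ u = 1) {f : F} (hf : f ∈ 𝔞) :
    ∃ b : B, f ^ n * u = algebraMap B F b := by
  have h1 : f ^ n ∈ 𝔞 ^ n := by
    rw [← FractionalIdeal.mem_coe, FractionalIdeal.coe_pow]
    exact Submodule.pow_mem_pow _ hf n
  have h2 : f ^ n * u ∈ 𝔞 ^ n * FractionalIdeal.spanSingleton B⁰ u :=
    FractionalIdeal.mul_mem_mul h1 (FractionalIdeal.mem_spanSingleton_self _ _)
  rw [h, FractionalIdeal.mem_one_iff] at h2
  obtain ⟨b, hb⟩ := h2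
  exact ⟨b, hb.symm⟩

end GenA

theorem exists_sl2_of_dedekind {B F : Type*} [CommRing B] [IsDedekindDomain B] [Field F] [Algebra B F]
    [IsFractionRing B F] (n : ℕ) (hn : 0 < n) (u : F) (hu : u ≠ 0)
    (hdiv : ∀ v : HeightOneSpectrum B, ∃ y : ℤᵐ⁰, v.valuation F u = y ^ n) :
    ∃ f₁ f₂ g₁ g₂ : F, (∃ b : B, f₁ ^ n * u = algebraMap B F b) ∧ (∃ b : B, f₂ ^ n * u = algebraMap B F b) ∧
      (∃ b : B, g₁ ^ n * u⁻¹ = algebraMap B F b) ∧ (∃ b : B, g₂ ^ n * u⁻¹ = algebraMap B F b) ∧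
      f₁ * g₁ + f₂ * g₂ = 1 := by
  obtain ⟨𝔞, h0, h⟩ := exists_root_fracIdeal (B := B) n hn u hu hdiv
  have h' : 𝔞⁻¹ ^ n * FractionalIdeal.spanSingleton B⁰ u⁻¹ = 1 := by
    rw [← FractionalIdeal.spanSingleton_inv, inv_pow, ← mul_inv, h, inv_one]
  obtain ⟨f₁, hf₁, hf₁0⟩ : ∃ f ∈ 𝔞, f ≠ 0 := by
    by_contra hcon
    push Not at hcon
    exact h0 (FractionalIdeal.eq_zero_iff.mpr hcon)
  have hle : FractionalIdeal.spanSingleton B⁰ f₁ ≤ 𝔞 :=
    (FractionalIdeal.spanSingleton_le_iff_mem).mpr hf₁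
  obtain ⟨f₂, hf₂⟩ := IsDedekindDomain.exists_add_spanSingleton_mul_eq (b := 1) hle
    (FractionalIdeal.spanSingleton_ne_zero_iff.mpr hf₁0) one_ne_zero
  rw [mul_one] at hf₂
  have hf₂m : f₂ ∈ 𝔞 := by
    rw [← hf₂]
    exact FractionalIdeal.mem_add _ _ _ |>.mpr
      ⟨0, FractionalIdeal.zero_mem _, f₂, FractionalIdeal.mem_spanSingleton_self _ _, zero_add _⟩
  have h1 : (1 : F) ∈ 𝔞 * 𝔞⁻¹ := by
    rw [mul_inv_cancel₀ h0]
    exact FractionalIdeal.one_mem_one _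
  nth_rewrite 1 [← hf₂] at h1
  rw [add_mul, FractionalIdeal.mem_add] at h1
  obtain ⟨a, ha, b, hb, hab⟩ := h1
  rw [FractionalIdeal.mem_singleton_mul] at ha hb
  obtain ⟨g₁, hg₁, rfl⟩ := ha
  obtain ⟨g₂, hg₂, rfl⟩ := hb
  exact ⟨f₁, f₂, g₁, g₂, pow_mul_mem_of_mem h hf₁, pow_mul_mem_of_mem h hf₂m,
    pow_mul_mem_of_mem h' hg₁, pow_mul_mem_of_mem h' hg₂, hab⟩

theorem exists_gen {K : Type*} [Field K] [CharZero K] {L : Type*} [Field L] [Algebra K L] {τ : L}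
    {F : Type*} [Field F] [Algebra L F] [Algebra K F] [IsScalarTower K L F] [FiniteDimensional L F]
    (hτ : Transcendental K τ) (hgen : IsGen K τ) (n : ℕ) (hn : 0 < n) (u : F) (hu : u ≠ 0)
    (hdiv : ∀ P : AlgebraicCurve.Place K F, (n : ℤ) ∣ P.ord u) :
    ∃ f₁ f₂ g₁ g₂ : F, f₁ ^ n * u ∈ B0 K τ F ∧ f₂ ^ n * u ∈ B0 K τ F ∧
      g₁ ^ n * u⁻¹ ∈ B0 K τ F ∧ g₂ ^ n * u⁻¹ ∈ B0 K τ F ∧ f₁ * g₁ + f₂ * g₂ = 1 := by
  have := S37.isDedekindDomain_B0 (F := F) hτ hgen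
  have := S37.isFractionRing_B0 (F := F) hτ hgen
  obtain ⟨f₁, f₂, g₁, g₂, ⟨b₁, h₁⟩, ⟨b₂, h₂⟩, ⟨b₃, h₃⟩, ⟨b₄, h₄⟩, h⟩ :=
    exists_sl2_of_dedekind (B := ↥(B0 K τ F)) (F := F) n hn u hu (by
      intro v
      obtain ⟨k, hk⟩ := hdiv (AlgebraicCurve.Place.ofHeightOneSpectrum (K := K) (F := F) v)
      rw [S24.ord_ofHeightOneSpectrum] at hk
      refine ⟨exp (-k), ?_⟩
      have h0 : v.valuation F u ≠ 0 := (_root_.map_ne_zero _).mpr hu
      rw [← exp_nsmul, ← exp_log h0, exp_inj, nsmul_eq_mul]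
      linarith)
  exact ⟨f₁, f₂, g₁, g₂, h₁ ▸ b₁.2, h₂ ▸ b₂.2, h₃ ▸ b₃.2, h₄ ▸ b₄.2, h⟩

end Fermat.Agent.S34.T
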