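import Fermat.Agent.S34.T.Defs

/-!
# S34 / TOR, abstract part : `I(u)` is a saturated lattice   (key `S34/T-LATII`)

`u` a unit of `VV` (`u, u' ∈ VV`, `u u' = 1`), `n > 0`, `I(u) = {f : f ^ n u ∈ C0}`.

* `le`   : `f^n u ∈ C0 ⊂ VV`, `f^n = (f^n u) u' ∈ VV`, `mem_VV_of_pow_mem`.
* `smul` : `II.mul_mem`.
* `sat`  : `(a x)^n u ∈ C0 ⊂ B0`, so `x^n u ∈ B0` (`a⁻ⁿ` is a constant, `SatB.const_mem_B0`); `x^n u ∈ VV`; `mem_C0_of_mem_B0_VV`.
* `full` : `x ∈ VV`, `x^n u ∈ VV`, `S x^n u ∈ C0` with `S` primitive; `(S x)^n u = S^(n-1) (S x^n u)`.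
* `den`  : `S u' ∈ C0` with `S` primitive; `(S f)^n = S^(n-1) (S u') (f^n u) ∈ C0`, `mem_C0_of_pow_mem`.

The generic fibre (`K I(u) = {f : f^n u ∈ B0}`):
* `II.exists_smul_mem` : `f^n u ∈ B0 ⟹ ∃ a ≠ 0, a f ∈ I(u)`.  [`f ∈ F`, so `a₁ f ∈ VV` for some `a₁ ≠ 0` (e.g. `S f ∈ B0` for a
  polynomial `S`, `exists_smul_mem_C0`; or: `h = f^n u ∈ B0`, `a₂ h ∈ C0`; take `a` with `a^n = a₂ b`...).  Simplest:
  `exists_smul_mem_C0` gives `a₂ ≠ 0` in `A` with `a₂ f^n u ∈ C0`; then `(a₂ f)^n u = a₂^(n-1) (a₂ f^n u) ∈ C0`.]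
* `II.mul_mem_B0` : `f ∈ I(u)`, `g^n u⁻¹ ∈ B0 ⟹ g f ∈ B0`  [`(g f)^n = (g^n u⁻¹)(f^n u)`, `mem_B0_of_pow_mem`].
-/

set_option autoImplicit false

noncomputable section

namespace Fermat.Agent.S34.T

open Polynomial Fermat.Agent.S18.KL

variable {K : Type*} [Field K] {A : ValuationSubring K}
variable {L : Type*} [Field L] [Algebra K L] {τ : L}
variable {F : Type*} [Field F] [Algebra L F] [FiniteDimensional L F]

theorem isLat_II (hτ : Transcendental K τ) (hgen : IsGen K τ) (n : ℕ) (hn : 0 < n) (u u' : F)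
    (hu : u ∈ VV A τ F) (hu' : u' ∈ VV A τ F) (huu' : u * u' = 1) :
    IsLat A τ F (II A τ F n hn u) := by
  have hn1 : n - 1 + 1 = n := Nat.sub_add_cancel hn
  refine ⟨fun f hf => ?_, fun c x hx => II.mul_mem (evE_mem_C0 A τ F c) hx, fun a x ha hx hax => ?_,
    fun x hx => ?_, ?_⟩
  · rw [mem_II] at hf
    refine mem_VV_of_pow_mem A hτ hn ?_
    have : f ^ n = (f ^ n * u) * u' := by rw [mul_assoc, huu', mul_one]
    rw [this]
    exact (VV A τ F).mul_mem (C0_le_VV A τ F hf) hu'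
  · rw [mem_II] at hax ⊢
    refine mem_C0_of_mem_B0_VV A hτ hgen ?_ ((VV A τ F).mul_mem ((VV A τ F).pow_mem hx _) hu)
    have h1 : x ^ n * u = evK K τ F (C (a⁻¹ ^ n)) * ((evK K τ F (C a) * x) ^ n * u) := by
      rw [mul_pow, ← map_pow, ← mul_assoc, ← mul_assoc, ← map_mul, ← C_pow, ← C_mul, ← mul_pow,
        inv_mul_cancel₀ ha, one_pow, C_1, map_one, one_mul]
    rw [h1]
    exact (B0 K τ F).mul_mem (evK_mem_B0 _) (C0_le_B0 A hax)
  · obtain ⟨S, hS, hSx⟩ := (VV A τ F).mul_mem ((VV A τ F).pow_mem hx n) hu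
    refine ⟨S, hS, ?_⟩
    rw [mem_II]
    have : (evE A τ F S * x) ^ n * u = evE A τ F S ^ (n - 1) * (evE A τ F S * (x ^ n * u)) := by
      rw [mul_pow, ← mul_assoc (evE A τ F S ^ (n - 1)), ← pow_succ, hn1, mul_assoc]
    rw [this]
    exact (C0 A τ F).mul_mem ((C0 A τ F).pow_mem (evE_mem_C0 A τ F S) _) hSx
  · obtain ⟨S, hS, hSu⟩ := hu'
    refine ⟨S, hS, fun f hf => ?_⟩
    rw [mem_II] at hf
    refine mem_C0_of_pow_mem hn ?_
    have : (evE A τ F S * f) ^ n =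
        evE A τ F S ^ (n - 1) * ((evE A τ F S * u') * (f ^ n * u)) := by
      have e : evE A τ F S * u' * (f ^ n * u) = evE A τ F S * f ^ n * (u * u') := by ring
      rw [e, huu', mul_one, mul_pow, ← mul_assoc, ← pow_succ, hn1]
    rw [this]
    exact (C0 A τ F).mul_mem ((C0 A τ F).pow_mem (evE_mem_C0 A τ F S) _) ((C0 A τ F).mul_mem hSu hf)

theorem II.exists_smul_mem (n : ℕ) (hn : 0 < n) (u f : F) (hf : f ^ n * u ∈ B0 K τ F) :
    ∃ a : K, a ≠ 0 ∧ evK K τ F (C a) * f ∈ II A τ F n hn u := by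
  have hn1 : n - 1 + 1 = n := Nat.sub_add_cancel hn
  obtain ⟨a, ha, haf⟩ := exists_smul_mem_C0 A hf
  refine ⟨(a : K), fun h => ha (Subtype.ext h), ?_⟩
  have e : evK K τ F (C (a : K)) = evE A τ F (C a) := by
    rw [SatB.evE_C]; simp [evK]
  rw [mem_II, e]
  have : (evE A τ F (C a) * f) ^ n * u =
      evE A τ F (C a) ^ (n - 1) * (evE A τ F (C a) * (f ^ n * u)) := by
    rw [mul_pow, ← mul_assoc (evE A τ F (C a) ^ (n - 1)), ← pow_succ, hn1, mul_assoc]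
  rw [this]
  exact (C0 A τ F).mul_mem ((C0 A τ F).pow_mem (evE_mem_C0 A τ F _) _) haf

theorem II.mul_mem_B0 (n : ℕ) (hn : 0 < n) (u f g : F) (hu : u ≠ 0) (hf : f ∈ II A τ F n hn u)
    (hg : g ^ n * u⁻¹ ∈ B0 K τ F) : g * f ∈ B0 K τ F := by
  rw [mem_II] at hf
  refine mem_B0_of_pow_mem hn ?_
  have : (g * f) ^ n = (g ^ n * u⁻¹) * (f ^ n * u) := by
    rw [mul_pow]
    field_simp
  rw [this]
  exact (B0 K τ F).mul_mem hg (C0_le_B0 A hf)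

end Fermat.Agent.S34.T
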