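import Fermat.Agent.S34.T.Det
import Fermat.Agent.S34.T.LatII
import Fermat.Agent.S34.T.Generic
import Fermat.Agent.S34.T.Codim

/-!
# S34 / TOR, abstract part : the global count   (key `S34/T-CNT`)

`jj H Λ` = the reduction of `H Λ ⊂ C0` in `Cbar = C0 / 𝔪 C0` (an ideal, if `Λ` is a `C0`-module).
`count` : for a unit `u` of `VV` with `n ∣ div u` :  `dim Cbar / jj H I(u) + dim Cbar / jj H I(u⁻¹) = 2 dim Cbar / (H̄)`.
(`Algebra (kk A) (Cbar A τ F)` is the instance `S37.algCbar`.)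

Proof of `count`.
1. `Λ = II n u`, `Λ' = II n u'` (`u' = u⁻¹`); `isLat_II`, `exists_wlat` give `lat`, `lat'`; `H₀, H₀'` the denominators (`IsLat.den`);
   `H = H₀ * H₀'`.
2. `g.span` applied to `H m_i ∈ C0` gives `Pm i j` with `evL g.d1 * w.repr (H m_i) j = evL (Pm i j)`, i.e.
   `evE (g.d1 * H) * m_i = ∑ j, evE (Pm i j) * w_j` (`w.sum_repr`).  The same for `m'`.
3. `exists_gen` gives `f₁ f₂ g₁ g₂`; the hypotheses of `det_formula`:
   `hf₁` : `(f₁ b)^n u = b^n (f₁^n u) ∈ B0`, `II.exists_smul_mem`;  `hΛ₁` : `II.mul_mem_B0`; etc. (for `Λ'` use `u'⁻¹ = u`).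
4. `b̄` = basis of `Cbar` with `b̄ i = mk (w i)` (`WBasis.exists_bar`), `P̄ = Pm.map (redP A)`, `det P̄ = redP (det Pm)`
   (`RingHom.map_det`), `≠ 0` by `redP_det_ne_zero`.
   `y ∈ jj H Λ ↔ ∃ c, y = ∑ i, c i • ∑ j, P̄ i j • b̄ j`:
   `mk (H m_i) = mk (g.d1 H m_i) = ∑ j, P̄ i j • b̄ j` because `redP g.d1 = 1` (`algebraMap_redP`);
   for `x ∈ Λ`: `lat.d1 x = ∑ c_i m_i` (`lat.span`), so `mk (H x) = mk (lat.d1 H x) = ∑ c̄_i mk (H m_i)`.
5. `finrank_quotient_rows` (twice), `finrank_quotient_span_singleton`, `det_formula`, `natDegree_mul`, `natDegree_C_mul`,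
   `natDegree_pow`.
-/

set_option autoImplicit false

noncomputable section

namespace Fermat.Agent.S34.T

open Polynomial Fermat.Agent.S18.KL

variable {K : Type*} [Field K] {A : ValuationSubring K}
variable {L : Type*} [Field L] [Algebra K L] {τ : L}
variable {F : Type*} [Field F] [Algebra L F]

/-- the reduction of `H Λ` in `Cbar` -/
def jj (H : (↥A)[X]) (Λ : AddSubgroup F) : Ideal (Cbar A τ F) :=
  Ideal.span {y | ∃ x ∈ Λ, ∃ hx : evE A τ F H * x ∈ C0 A τ F,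
    y = Ideal.Quotient.mk (mC0 A τ F) ⟨evE A τ F H * x, hx⟩}

theorem mem_jj {H : (↥A)[X]} {Λ : AddSubgroup F} (hH : ∀ x ∈ Λ, evE A τ F H * x ∈ C0 A τ F)
    (hmod : ∀ c ∈ C0 A τ F, ∀ x ∈ Λ, c * x ∈ Λ) {y : Cbar A τ F} :
    y ∈ jj (τ := τ) H Λ ↔ ∃ (x : F) (hx : x ∈ Λ),
      y = Ideal.Quotient.mk (mC0 A τ F) ⟨evE A τ F H * x, hH x hx⟩ := by
  constructor
  · intro hy
    unfold jj at hy
    induction hy using Submodule.span_induction with
    | mem y hy =>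
      obtain ⟨x, hx, hx', rfl⟩ := hy
      exact ⟨x, hx, rfl⟩
    | zero =>
      refine ⟨0, Λ.zero_mem, ?_⟩
      rw [eq_comm, mk_eq_zero_iff]
      simp only [mul_zero]
      exact ⟨0, zero_mem _, 0, zero_mem _, by simp⟩
    | add y z _ _ hy hz =>
      obtain ⟨x, hx, rfl⟩ := hy
      obtain ⟨x', hx', rfl⟩ := hz
      refine ⟨x + x', Λ.add_mem hx hx', ?_⟩
      rw [← map_add]
      congr 1
      apply Subtype.ext
      simp [mul_add]
    | smul a y _ hy =>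
      obtain ⟨x, hx, rfl⟩ := hy
      obtain ⟨c, rfl⟩ := Ideal.Quotient.mk_surjective a
      refine ⟨c * x, hmod c c.2 x hx, ?_⟩
      rw [smul_eq_mul, ← map_mul]
      congr 1
      apply Subtype.ext
      simp only [Subring.coe_mul]
      ring
  · rintro ⟨x, hx, rfl⟩
    exact Ideal.subset_span ⟨x, hx, hH x hx, rfl⟩

/-- the codimension of `jj H Λ` is the degree of the determinant of the matrix of `H m_i` -/
theorem count_aux [Algebra K F] [IsScalarTower K L F] [FiniteDimensional L F]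
    (hτ : Transcendental K τ) (hgen : IsGen K τ) {N : ℕ} (g : WBasis A τ F N)
    (Λ : AddSubgroup F) (lat : WLat A τ F Λ N) (H : (↥A)[X]) (hH : redP A H ≠ 0)
    (hHΛ : ∀ x ∈ Λ, evE A τ F H * x ∈ C0 A τ F)
    (hmod : ∀ c ∈ C0 A τ F, ∀ x ∈ Λ, c * x ∈ Λ) :
    ∃ Pm : Matrix (Fin N) (Fin N) (↥A)[X],
      (∀ i, evE A τ F (g.d1 * H) * lat.m i = ∑ j, evE A τ F (Pm i j) * g.w j) ∧
      redP A Pm.det ≠ 0 ∧
      Module.Finite (kk A) (Cbar A τ F ⧸ jj (τ := τ) H Λ) ∧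
      Module.finrank (kk A) (Cbar A τ F ⧸ jj (τ := τ) H Λ) = (redP A Pm.det).natDegree := by
  classical
  choose Pm hPm0 using fun i j => g.span (evE A τ F H * lat.m i) (hHΛ _ (lat.mem i)) j
  have hPm : ∀ i, evE A τ F (g.d1 * H) * lat.m i = ∑ j, evE A τ F (Pm i j) * g.w j := by
    intro i
    rw [map_mul, mul_assoc]
    conv_lhs => rw [← g.w.sum_repr (evE A τ F H * lat.m i), Finset.mul_sum]
    refine Finset.sum_congr rfl fun j _ => ?_
    rw [evE_apply A τ F g.d1, evE_apply A τ F (Pm i j), ← hPm0 i j, (algebraMap L F).map_mul,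
      Algebra.smul_def, mul_assoc]
  have hdet0 : redP A (Matrix.of Pm).det ≠ 0 :=
    redP_det_ne_zero hτ hgen g Λ lat H hH (Matrix.of Pm) hPm
  obtain ⟨b, hb⟩ := g.exists_bar hτ hgen
  have hrow : ∀ i, Ideal.Quotient.mk (mC0 A τ F) ⟨evE A τ F H * lat.m i, hHΛ _ (lat.mem i)⟩ =
      ∑ j, ((Matrix.of Pm).map (redP A)) i j • b j := by
    intro i
    rw [g.mk_eq_sum ⟨evE A τ F H * lat.m i, hHΛ _ (lat.mem i)⟩ (Pm i) (hPm0 i)]
    refine Finset.sum_congr rfl fun j _ => ?_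
    rw [hb j]
    rfl
  have hdetmap : ((Matrix.of Pm).map (redP A)).det = redP A (Matrix.of Pm).det := by
    rw [RingHom.map_det]
    rfl
  have hjj : ∀ y, y ∈ jj (τ := τ) H Λ ↔ ∃ c : Fin N → (kk A)[X],
      y = ∑ i, c i • ∑ j, ((Matrix.of Pm).map (redP A)) i j • b j := by
    intro y
    simp only [← hrow]
    constructor
    · intro hy
      obtain ⟨x, hx, rfl⟩ := (mem_jj hHΛ hmod).mp hy
      choose c hc using fun i => lat.span x hx i
      refine ⟨fun i => redP A (c i), ?_⟩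
      have h1 : toC0 A τ F lat.d1 * ⟨evE A τ F H * x, hHΛ x hx⟩ =
          ∑ i, toC0 A τ F (c i) * ⟨evE A τ F H * lat.m i, hHΛ _ (lat.mem i)⟩ := by
        apply Subtype.ext
        rw [Subring.coe_mul, coe_toC0, AddSubmonoidClass.coe_finsetSum]
        simp only [Subring.coe_mul, coe_toC0]
        conv_lhs => rw [← lat.m.sum_repr x, Finset.mul_sum, Finset.mul_sum]
        refine Finset.sum_congr rfl fun i _ => ?_
        rw [evE_apply A τ F lat.d1, evE_apply A τ F (c i), ← hc i, (algebraMap L F).map_mul,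
          Algebra.smul_def]
        ring
      have h2 := congrArg (Ideal.Quotient.mk (mC0 A τ F)) h1
      rw [map_mul, ← algebraMap_redP, lat.red_d1, map_one, one_mul, map_sum] at h2
      rw [h2]
      refine Finset.sum_congr rfl fun i _ => ?_
      rw [map_mul, ← algebraMap_redP, Algebra.smul_def]
    · rintro ⟨c, rfl⟩
      refine Ideal.sum_mem _ fun i _ => ?_
      rw [Algebra.smul_def]
      exact Ideal.mul_mem_left _ _ ((mem_jj hHΛ hmod).mpr ⟨lat.m i, lat.mem i, rfl⟩)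
  obtain ⟨h1, h2⟩ := finrank_quotient_rows b ((Matrix.of Pm).map (redP A))
    (by rw [hdetmap]; exact hdet0) (jj (τ := τ) H Λ) hjj
  exact ⟨Matrix.of Pm, hPm, hdet0, h1, by rw [h2, hdetmap]⟩

theorem count [IsAlgClosed K] [CharZero K] [Algebra K F] [IsScalarTower K L F] [FiniteDimensional L F]
    (hτ : Transcendental K τ) (hgen : IsGen K τ) {N : ℕ} (g : WBasis A τ F N)
    (n : ℕ) (hn : 0 < n) (u u' : F) (hu : u ∈ VV A τ F) (hu' : u' ∈ VV A τ F) (huu' : u * u' = 1)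
    (hdiv : ∀ P : AlgebraicCurve.Place K F, (n : ℤ) ∣ P.ord u) :
    ∃ H : (↥A)[X], redP A H ≠ 0 ∧ (∀ x ∈ II A τ F n hn u, evE A τ F H * x ∈ C0 A τ F) ∧
      (∀ x ∈ II A τ F n hn u', evE A τ F H * x ∈ C0 A τ F) ∧
      Module.Finite (kk A) (Cbar A τ F ⧸ jj (τ := τ) H (II A τ F n hn u)) ∧
      Module.Finite (kk A) (Cbar A τ F ⧸ jj (τ := τ) H (II A τ F n hn u')) ∧
      Module.Finite (kk A)
        (Cbar A τ F ⧸ Ideal.span {algebraMap (kk A)[X] (Cbar A τ F) (redP A H)}) ∧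
      Module.finrank (kk A) (Cbar A τ F ⧸ jj (τ := τ) H (II A τ F n hn u)) +
        Module.finrank (kk A) (Cbar A τ F ⧸ jj (τ := τ) H (II A τ F n hn u')) =
      2 * Module.finrank (kk A)
        (Cbar A τ F ⧸ Ideal.span {algebraMap (kk A)[X] (Cbar A τ F) (redP A H)}) := by
  classical
  have hu0 : u ≠ 0 := left_ne_zero_of_mul_eq_one huu'
  have hu'0 : u' ≠ 0 := right_ne_zero_of_mul_eq_one huu'
  have hinv : u⁻¹ = u' := inv_eq_of_mul_eq_one_right huu'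
  have hinv' : u'⁻¹ = u := by rw [← hinv, inv_inv]
  have hL := isLat_II (A := A) hτ hgen n hn u u' hu hu' huu'
  have hL' := isLat_II (A := A) hτ hgen n hn u' u hu' hu (by rwa [mul_comm])
  obtain ⟨lat⟩ := exists_wlat hτ hgen g _ hL
  obtain ⟨lat'⟩ := exists_wlat hτ hgen g _ hL'
  obtain ⟨H₀, hH₀, hden⟩ := hL.den
  obtain ⟨H₀', hH₀', hden'⟩ := hL'.den
  have hH : redP A (H₀ * H₀') ≠ 0 := by
    rw [map_mul]; exact mul_ne_zero hH₀ hH₀'
  have hHΛ : ∀ x ∈ II A τ F n hn u, evE A τ F (H₀ * H₀') * x ∈ C0 A τ F := by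
    intro x hx
    rw [map_mul, mul_comm (evE A τ F H₀), mul_assoc]
    exact (C0 A τ F).mul_mem (evE_mem_C0 A τ F _) (hden x hx)
  have hHΛ' : ∀ x ∈ II A τ F n hn u', evE A τ F (H₀ * H₀') * x ∈ C0 A τ F := by
    intro x hx
    rw [map_mul, mul_assoc]
    exact (C0 A τ F).mul_mem (evE_mem_C0 A τ F _) (hden' x hx)
  obtain ⟨Pm, hPm, hP0, hfin, hrk⟩ := count_aux hτ hgen g _ lat (H₀ * H₀') hH hHΛ
    (fun c hc x hx => II.mul_mem hc hx)
  obtain ⟨Pm', hPm', hP0', hfin', hrk'⟩ := count_aux hτ hgen g _ lat' (H₀ * H₀') hH hHΛ'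
    (fun c hc x hx => II.mul_mem hc hx)
  obtain ⟨f₁, f₂, g₁, g₂, hf₁, hf₂, hg₁, hg₂, hdet⟩ := exists_gen hτ hgen n hn u hu0 hdiv
  have key : ∀ (v f b : F), f ^ n * v ∈ B0 K τ F → b ∈ B0 K τ F →
      ∃ a : K, a ≠ 0 ∧ evK K τ F (C a) * (f * b) ∈ II A τ F n hn v := by
    intro v f b hf hb
    apply II.exists_smul_mem
    have : (f * b) ^ n * v = b ^ n * (f ^ n * v) := by rw [mul_pow]; ring
    rw [this]
    exact (B0 K τ F).mul_mem ((B0 K τ F).pow_mem hb _) hf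
  obtain ⟨c, hc, hform⟩ := det_formula hτ hgen g _ _ lat lat' f₁ f₂ g₁ g₂ hdet
    (fun b hb => key u f₁ b hf₁ hb) (fun b hb => key u f₂ b hf₂ hb)
    (fun b hb => key u' g₁ b (hinv ▸ hg₁) hb) (fun b hb => key u' g₂ b (hinv ▸ hg₂) hb)
    (fun x hx => II.mul_mem_B0 n hn u x g₁ hu0 hx hg₁)
    (fun x hx => II.mul_mem_B0 n hn u x g₂ hu0 hx hg₂)
    (fun x hx => II.mul_mem_B0 n hn u' x f₁ hu'0 hx (hinv'.symm ▸ hf₁))
    (fun x hx => II.mul_mem_B0 n hn u' x f₂ hu'0 hx (hinv'.symm ▸ hf₂))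
    (H₀ * H₀') hH Pm Pm' hPm hPm'
  obtain ⟨b, -⟩ := g.exists_bar hτ hgen
  obtain ⟨hfinH, hrkH⟩ := finrank_quotient_span_singleton b (redP A (H₀ * H₀')) hH
  refine ⟨H₀ * H₀', hH, hHΛ, hHΛ', hfin, hfin', hfinH, ?_⟩
  rw [hrk, hrk', hrkH, ← natDegree_mul hP0 hP0', hform, natDegree_C_mul hc, natDegree_pow]
  ring

end Fermat.Agent.S34.T
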