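import Fermat.Agent.S18.Z.Cbar
import Fermat.Agent.S18.Z.Fg
import Fermat.Agent.S18.Z.Conn

/-!
# S34 / TOR, abstract part : saturated lattices  (helper22)

`IsLat A τ E Λ` : `Λ ⊂ VV` is a saturated `A[τ]`-lattice of full rank with bounded denominators (examples: `C0`, and
`I(u) = {f : f ^ n * u ∈ C0}` for a unit `u` of `VV`).
`WLat A τ E Λ n` : the analogue of `WBasis` (= `KL.GoodBasis` without `dual`) for `Λ`.
The theorem `exists_wlat : WBasis + IsLat ⟹ WLat` is in `Lat.lean`.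
-/

set_option autoImplicit false

noncomputable section

namespace Fermat.Agent.S34.T

open Polynomial Fermat.Agent.S18.KL

variable {K : Type*} [Field K] (A : ValuationSubring K)
variable {L : Type*} [Field L] [Algebra K L] (τ : L)
variable (E : Type*) [Field E] [Algebra L E]

/-- a saturated `A[τ]`-lattice of full rank in `VV` -/
structure IsLat (Λ : AddSubgroup E) : Prop where
  le : ∀ x ∈ Λ, x ∈ VV A τ E
  smul : ∀ (c : (↥A)[X]) (x : E), x ∈ Λ → evE A τ E c * x ∈ Λ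
  sat : ∀ (a : K) (x : E), a ≠ 0 → x ∈ VV A τ E → evK K τ E (C a) * x ∈ Λ → x ∈ Λ
  full : ∀ x ∈ VV A τ E, ∃ S : (↥A)[X], redP A S ≠ 0 ∧ evE A τ E S * x ∈ Λ
  den : ∃ H : (↥A)[X], redP A H ≠ 0 ∧ ∀ x ∈ Λ, evE A τ E H * x ∈ C0 A τ E

/-- a good basis of the lattice `Λ` -/
structure WLat (Λ : AddSubgroup E) (n : ℕ) where
  m : Module.Basis (Fin n) L E
  mem : ∀ i, m i ∈ Λ
  d1 : (↥A)[X]
  red_d1 : redP A d1 = 1
  span : ∀ x ∈ Λ, ∀ i, ∃ c : (↥A)[X], evL A τ d1 * m.repr x i = evL A τ c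
  indep : ∀ c : Fin n → (↥A)[X], SmV A τ E (∑ i, evE A τ E (c i) * m i) → ∀ i, redP A (c i) = 0

end Fermat.Agent.S34.T
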