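import Fermat.Agent.S34.T.Iface
import Fermat.Agent.S34.T.LatDefs

/-!
# S34 / TOR, abstract part : basic definitions  (helper22)

* `II A τ E n hn u = {f : f ^ n * u ∈ C0}` (a `C0`-submodule of `E`);
* `TwoComp.inv`, `NodalChart.inv` : transport of the interface to the chart `τ⁻¹`, so that all theorems can be stated for ONE
  chart `(τ, T : TwoComp A τ F Ω₁ Ω₂, c : NodalChart T τ)`;
* `NodalChart.p₁, p₂ : Cbar A θ F →+* Ωᵢ`.
-/

set_option autoImplicit false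

noncomputable section

namespace Fermat.Agent.S34.T

open Polynomial Fermat.Agent.S18.KL

section II

variable {K : Type*} [Field K] (A : ValuationSubring K)
variable {L : Type*} [Field L] [Algebra K L] (τ : L)
variable (E : Type*) [Field E] [Algebra L E]

variable {A τ E} in
theorem mem_C0_of_pow_mem {x : E} {n : ℕ} (hn : 0 < n) (hx : x ^ n ∈ C0 A τ E) : x ∈ C0 A τ E :=
  SatA.isIntegralElem_of_pow _ hn hx

/-- `I(u) = {f : f ^ n * u ∈ C0}` -/
def II (n : ℕ) (hn : 0 < n) (u : E) : AddSubgroup E where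
  carrier := {f | f ^ n * u ∈ C0 A τ E}
  zero_mem' := by
    show (0 : E) ^ n * u ∈ C0 A τ E
    rw [zero_pow hn.ne', zero_mul]; exact (C0 A τ E).zero_mem
  add_mem' := by
    intro f g hf hg
    show (f + g) ^ n * u ∈ C0 A τ E
    rw [add_pow, Finset.sum_mul]
    refine (C0 A τ E).sum_mem fun i hi => ?_
    have hi' : i ≤ n := Nat.lt_succ_iff.mp (Finset.mem_range.mp hi)
    have h1 : f ^ i * g ^ (n - i) * u ∈ C0 A τ E := by
      refine mem_C0_of_pow_mem hn ?_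
      have : (f ^ i * g ^ (n - i) * u) ^ n = (f ^ n * u) ^ i * (g ^ n * u) ^ (n - i) := by
        have hu : u ^ n = u ^ i * u ^ (n - i) := by rw [← pow_add, Nat.add_sub_cancel' hi']
        rw [mul_pow, mul_pow, mul_pow, mul_pow, hu, ← pow_mul, ← pow_mul, ← pow_mul, ← pow_mul,
          mul_comm i n, mul_comm (n - i) n]
        ring
      rw [this]
      exact (C0 A τ E).mul_mem ((C0 A τ E).pow_mem hf _) ((C0 A τ E).pow_mem hg _)
    have : f ^ i * g ^ (n - i) * (n.choose i : E) * u = (n.choose i : E) * (f ^ i * g ^ (n - i) * u) := by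
      ring
    rw [this]
    exact (C0 A τ E).mul_mem (natCast_mem _ _) h1
  neg_mem' := by
    intro f hf
    show (-f) ^ n * u ∈ C0 A τ E
    rw [neg_pow, mul_assoc]
    exact (C0 A τ E).mul_mem ((C0 A τ E).pow_mem ((C0 A τ E).neg_mem (C0 A τ E).one_mem) _) hf

variable {A τ E}

theorem mem_II {n : ℕ} {hn : 0 < n} {u f : E} : f ∈ II A τ E n hn u ↔ f ^ n * u ∈ C0 A τ E := Iff.rfl

theorem II.mul_mem {n : ℕ} {hn : 0 < n} {u f c : E} (hc : c ∈ C0 A τ E) (hf : f ∈ II A τ E n hn u) :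
    c * f ∈ II A τ E n hn u := by
  rw [mem_II] at hf ⊢
  rw [mul_pow, mul_assoc]
  exact (C0 A τ E).mul_mem ((C0 A τ E).pow_mem hc _) hf

/-- `I(u) I(v) ⊂ I(u v)` -/
theorem II.mul_mem_mul {n : ℕ} {hn : 0 < n} {u v f g : E} (hf : f ∈ II A τ E n hn u)
    (hg : g ∈ II A τ E n hn v) : f * g ∈ II A τ E n hn (u * v) := by
  rw [mem_II] at hf hg ⊢
  have : (f * g) ^ n * (u * v) = (f ^ n * u) * (g ^ n * v) := by rw [mul_pow]; ring
  rw [this]; exact (C0 A τ E).mul_mem hf hg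

theorem II.pow_mem_pow {n : ℕ} {hn : 0 < n} {u f : E} (hf : f ∈ II A τ E n hn u) (Q : ℕ) :
    f ^ Q ∈ II A τ E n hn (u ^ Q) := by
  rw [mem_II] at hf ⊢
  have : (f ^ Q) ^ n * u ^ Q = (f ^ n * u) ^ Q := by rw [mul_pow, ← pow_mul, ← pow_mul, mul_comm Q n]
  rw [this]; exact (C0 A τ E).pow_mem hf _

theorem II.mem_one {n : ℕ} {hn : 0 < n} {f : E} (hf : f ∈ II A τ E n hn 1) : f ∈ C0 A τ E := by
  rw [mem_II, mul_one] at hf
  exact mem_C0_of_pow_mem hn hf

end II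

section Charts

variable {K : Type} [Field K] {A : ValuationSubring K}
variable {L : Type} [Field L] [Algebra K L] {τ : L}
variable {F : Type} [Field F] [Algebra L F]
variable {Ω₁ Ω₂ : Type} [Field Ω₁] [Field Ω₂]

/-- `𝔪 C0(θ) ⊂ 𝔪 VV(τ)` -/
theorem NodalChart.SmV_of_Sm0 {T : TwoComp A τ F Ω₁ Ω₂} {θ : L} (c : NodalChart T θ) {x : F}
    (hx : Sm0 A θ F x) : SmV A τ F x := by
  obtain ⟨a, ha, y, hy, rfl⟩ := hx
  exact ⟨a, ha, y, c.le hy, by rw [SatB.evE_C, SatB.evE_C]⟩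

/-- the inclusion `C0(θ) → VV` -/
def NodalChart.inc {T : TwoComp A τ F Ω₁ Ω₂} {θ : L} (c : NodalChart T θ) : C0 A θ F →+* VV A τ F :=
  Subring.inclusion c.le

/-- first component of `Cbar` -/
def NodalChart.p₁ {T : TwoComp A τ F Ω₁ Ω₂} {θ : L} (c : NodalChart T θ) : Cbar A θ F →+* Ω₁ :=
  Ideal.Quotient.lift (mC0 A θ F) (T.res₁.comp c.inc) (fun y hy =>
    ((T.ker (c.inc y)).mpr (c.SmV_of_Sm0 ((mem_mC0 A θ F).mp hy))).1)

/-- second component of `Cbar` -/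
def NodalChart.p₂ {T : TwoComp A τ F Ω₁ Ω₂} {θ : L} (c : NodalChart T θ) : Cbar A θ F →+* Ω₂ :=
  Ideal.Quotient.lift (mC0 A θ F) (T.res₂.comp c.inc) (fun y hy =>
    ((T.ker (c.inc y)).mpr (c.SmV_of_Sm0 ((mem_mC0 A θ F).mp hy))).2)

@[simp] theorem NodalChart.p₁_mk {T : TwoComp A τ F Ω₁ Ω₂} {θ : L} (c : NodalChart T θ) (y : C0 A θ F) :
    c.p₁ (Ideal.Quotient.mk (mC0 A θ F) y) = T.res₁ (c.inc y) := rfl

@[simp] theorem NodalChart.p₂_mk {T : TwoComp A τ F Ω₁ Ω₂} {θ : L} (c : NodalChart T θ) (y : C0 A θ F) :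
    c.p₂ (Ideal.Quotient.mk (mC0 A θ F) y) = T.res₂ (c.inc y) := rfl

variable [FiniteDimensional L F]

/-- the same two components, seen from the chart `τ⁻¹` -/
def TwoComp.inv (T : TwoComp A τ F Ω₁ Ω₂) (hτ : Transcendental K τ) : TwoComp A τ⁻¹ F Ω₁ Ω₂ where
  res₁ := T.res₁.comp (Subring.inclusion (VV_inv A hτ).le)
  res₂ := T.res₂.comp (Subring.inclusion (VV_inv A hτ).le)
  ker := fun x => by
    rw [SmV_inv A hτ]
    exact T.ker (Subring.inclusion (VV_inv A hτ).le x)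
  e := Subring.inclusion (VV_inv A hτ).ge T.e
  res₁_e := T.res₁_e
  res₂_e := T.res₂_e

/-- the chart `τ⁻¹` as a chart of `T.inv` -/
theorem NodalChart.inv {T : TwoComp A τ F Ω₁ Ω₂} (c : NodalChart T τ⁻¹) (hτ : Transcendental K τ) :
    NodalChart (T.inv hτ) τ⁻¹ where
  le := C0_le_VV A τ⁻¹ F
  normal₁ := fun x hx => c.normal₁ (Subring.inclusion (VV_inv A hτ).le x) hx
  normal₂ := fun x hx => c.normal₂ (Subring.inclusion (VV_inv A hτ).le x) hx
  radical₁ := fun y n hn h => c.radical₁ y n hn h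
  radical₂ := fun y n hn h => c.radical₂ y n hn h
  fg := c.fg

end Charts

end Fermat.Agent.S34.T
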