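import Mathlib

/-!
# S34 / TOR, abstract part : the `SL₂` determinant trick   (key `S34/T-DET-a`, Mathlib only)

`F / L` a finite field extension, `w, m, m'` three `L`-bases of `F` (of `B0`, `I`, `I'`), `𝕄 = [[f₁, f₂], [-g₂, g₁]] ∈ SL₂(F)`.
`S ⊂ L` a subring (the polynomials).  Suppose `e 𝕄 (w ⊕ w)` has coordinates in `S` w.r.t. `m ⊕ m'` and `d 𝕄⁻¹ (m ⊕ m')` has
coordinates in `S` w.r.t. `w ⊕ w`.  Then `D = det [m : w] * det [m' : w]` satisfies `d ^ (2N) * D ∈ S` and `a * D = e ^ (2N)`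
for some `a ∈ S`.

Proof.  `V = F × F` (or `Fin 2 → F`), `𝕄 : V →ₗ[F] V`, `𝕄 (a, b) = (f₁ a + f₂ b, - g₂ a + g₁ b)`,
`𝕄⁻¹ (x, y) = (g₁ x - f₂ y, g₂ x + f₁ y)`.  `LinearMap.det 𝕄 = f₁ g₁ + f₂ g₂ = 1` over `F`
(`LinearMap.det_toLin'` / `Matrix.det_fin_two`), hence `LinearMap.det (𝕄.restrictScalars L) = Algebra.norm L 1 = 1`
(`LinearMap.det_restrictScalars`).  Bases of `V` over `L`: `W = w.prod w`, `M = m.prod m'` (index `Fin N ⊕ Fin N`).
`W.toMatrix M = fromBlocks [m : w] 0 0 [m' : w]`, `det = D` (`Matrix.det_fromBlocks_zero₂₁`).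
`Q := e • LinearMap.toMatrix W M 𝕄` has entries in `S`, `det Q = e ^ (2N) * det (toMatrix W M 𝕄)` and
`toMatrix W M 𝕄 = M.toMatrix W * toMatrix W W 𝕄` (`basis_toMatrix_mul_linearMap_toMatrix`), so
`det Q * D = e ^ (2N)` (`Basis.toMatrix_mul_toMatrix_flip`).  In the same way `Q' := d • toMatrix M W 𝕄⁻¹`,
`det Q' = d ^ (2N) * D`.  A matrix with entries in the subring `S` has its determinant in `S` (`Matrix.det_apply`,
`Subring.sum_mem`, `Subring.prod_mem`; or map from `Matrix _ _ S`).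
-/

set_option autoImplicit false

namespace Fermat.Agent.S34.T

theorem det_mem_subring_aux {L ι : Type*} [CommRing L] [Fintype ι] [DecidableEq ι] (S : Subring L)
    (Q : Matrix ι ι L) (h : ∀ i j, Q i j ∈ S) : Q.det ∈ S := by
  have : Q = (Matrix.of fun i j => (⟨Q i j, h i j⟩ : S)).map S.subtype := by
    ext i j; simp
  rw [this, ← RingHom.mapMatrix_apply, ← RingHom.map_det]
  exact Subtype.property _

theorem det_sl2 {L F : Type*} [Field L] [Field F] [Algebra L F] {N : ℕ}
    (w m m' : Module.Basis (Fin N) L F) (f₁ f₂ g₁ g₂ : F) (hdet : f₁ * g₁ + f₂ * g₂ = 1)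
    (S : Subring L) (e d : L)
    (h1 : ∀ i j, e * m.repr (f₁ * w i) j ∈ S) (h2 : ∀ i j, e * m.repr (f₂ * w i) j ∈ S)
    (h3 : ∀ i j, e * m'.repr (g₁ * w i) j ∈ S) (h4 : ∀ i j, e * m'.repr (g₂ * w i) j ∈ S)
    (h5 : ∀ i j, d * w.repr (g₁ * m i) j ∈ S) (h6 : ∀ i j, d * w.repr (g₂ * m i) j ∈ S)
    (h7 : ∀ i j, d * w.repr (f₁ * m' i) j ∈ S) (h8 : ∀ i j, d * w.repr (f₂ * m' i) j ∈ S) :
    ∃ a ∈ S, ∃ b ∈ S, a * ((w.toMatrix m).det * (w.toMatrix m').det) = e ^ (2 * N) ∧
      b = d ^ (2 * N) * ((w.toMatrix m).det * (w.toMatrix m').det) := by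
  classical
  let MM : (F × F) →ₗ[F] (F × F) :=
    LinearMap.prod (f₁ • LinearMap.fst F F F + f₂ • LinearMap.snd F F F)
      (-g₂ • LinearMap.fst F F F + g₁ • LinearMap.snd F F F)
  let MI : (F × F) →ₗ[F] (F × F) :=
    LinearMap.prod (g₁ • LinearMap.fst F F F - f₂ • LinearMap.snd F F F)
      (g₂ • LinearMap.fst F F F + f₁ • LinearMap.snd F F F)
  have hMM : ∀ x y : F, MM (x, y) = (f₁ * x + f₂ * y, -(g₂ * x) + g₁ * y) := by
    intro x y; simp [MM]
  have hMI : ∀ x y : F, MI (x, y) = (g₁ * x - f₂ * y, g₂ * x + f₁ * y) := by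
    intro x y; simp [MI]
  have hdetM : LinearMap.det MM = 1 := by
    rw [← LinearMap.det_toMatrix (Module.Basis.finTwoProd F), Matrix.det_fin_two]
    simp only [LinearMap.toMatrix_apply, Module.Basis.finTwoProd_zero, Module.Basis.finTwoProd_one,
      hMM]
    simp
    linear_combination hdet
  have hdetI : LinearMap.det MI = 1 := by
    rw [← LinearMap.det_toMatrix (Module.Basis.finTwoProd F), Matrix.det_fin_two]
    simp only [LinearMap.toMatrix_apply, Module.Basis.finTwoProd_zero, Module.Basis.finTwoProd_one,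
      hMI]
    simp
    linear_combination hdet
  have hdetML : LinearMap.det (MM.restrictScalars L) = 1 := by
    rw [LinearMap.det_restrictScalars, hdetM, map_one]
  have hdetIL : LinearMap.det (MI.restrictScalars L) = 1 := by
    rw [LinearMap.det_restrictScalars, hdetI, map_one]
  let W := w.prod w
  let M := m.prod m'
  have hD : (W.toMatrix M).det = (w.toMatrix m).det * (w.toMatrix m').det := by
    have : W.toMatrix M = Matrix.fromBlocks (w.toMatrix m) 0 0 (w.toMatrix m') := by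
      ext i j
      rcases i with i | i <;> rcases j with j | j <;>
        simp [W, M, Module.Basis.toMatrix_apply]
    rw [this, Matrix.det_fromBlocks_zero₂₁]
  have hcard : Fintype.card (Fin N ⊕ Fin N) = 2 * N := by simp [two_mul]
  rw [← hD]
  refine ⟨(e • LinearMap.toMatrix W M (MM.restrictScalars L)).det, ?_,
    (d • LinearMap.toMatrix M W (MI.restrictScalars L)).det, ?_, ?_, ?_⟩
  · apply det_mem_subring_aux
    intro i j
    rcases i with i | i <;> rcases j with j | j
    · simpa [W, M, LinearMap.toMatrix_apply, hMM] using h1 j i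
    · simpa [W, M, LinearMap.toMatrix_apply, hMM] using h2 j i
    · simpa [W, M, LinearMap.toMatrix_apply, hMM] using S.neg_mem (h4 j i)
    · simpa [W, M, LinearMap.toMatrix_apply, hMM] using h3 j i
  · apply det_mem_subring_aux
    intro i j
    rcases i with i | i <;> rcases j with j | j
    · simpa [W, M, LinearMap.toMatrix_apply, hMI] using h5 j i
    · simpa [W, M, LinearMap.toMatrix_apply, hMI] using S.neg_mem (h8 j i)
    · simpa [W, M, LinearMap.toMatrix_apply, hMI] using h6 j i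
    · simpa [W, M, LinearMap.toMatrix_apply, hMI] using h7 j i
  · rw [Matrix.det_smul, hcard, ← basis_toMatrix_mul_linearMap_toMatrix W M W, Matrix.det_mul,
      LinearMap.det_toMatrix, hdetML, mul_one, mul_assoc, ← Matrix.det_mul,
      Module.Basis.toMatrix_mul_toMatrix_flip, Matrix.det_one, mul_one]
  · rw [Matrix.det_smul, hcard, ← basis_toMatrix_mul_linearMap_toMatrix M W M, Matrix.det_mul,
      LinearMap.det_toMatrix, hdetIL, mul_one]

end Fermat.Agent.S34.T
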