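import Fermat.Agent.S34.T.Lat
import Fermat.Agent.S34.T.DetLin

/-!
# S34 / TOR, abstract part : the index formula   (key `S34/T-DET-b`)

`g` a good basis of `C0`, `lat`, `lat'` good bases of two lattices `Λ, Λ'` such that `𝕄 = [[f₁, f₂], [-g₂, g₁]] ∈ SL₂(F)` maps
`B0²` onto `K Λ ⊕ K Λ'`.  `Pm`, `Pm'` = matrices (over `A[X]`) of `d1 H m_i`, `d1 H m'_i` in the basis `w`.  Then
`redP (det Pm) * redP (det Pm') = c * redP H ^ (2N)` with `c ∈ kˣ`.

Proof.
(0) `redP (det Pm) ≠ 0`: otherwise there is `c̄ ≠ 0` in `k[X]^N` with `c̄ P̄m = 0` (`Matrix.exists_vecMul_eq_zero_iff`); lift it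
    (`redP_surjective`): `d1 H ∑ c_i m_i = ∑_j (∑_i c_i Pm i j) w_j` with all coefficients of reduction `0`, so it is `Sm0`
    (`Sm0_evE_of_redP_eq_zero`), `SmV (∑ c_i m_i)` by `SmV_of_evE_mul`, contradiction with `lat.indep`.
(1) Apply `det_sl2` with `S` = the range of `aeval τ : K[X] → L`, `e = evL (lat.d1 * lat'.d1)`, `d = evL g.d1`.
    `h1` : `a f₁ w_i ∈ Λ` for some `a ≠ 0`, `lat.span` gives `evL lat.d1 * m.repr (a f₁ w_i) j = evL c`; divide by `a`.
    `h5` : `g₁ m_i ∈ B0`, `exists_smul_mem_C0` + `g.span`.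
    Output: `q, q' ∈ K[X]`, `aeval τ q * D = e ^ (2N)`, `aeval τ q' = d ^ (2N) * D`, `D = det [m : w] det [m' : w]`.
    So `q q' = incP ((lat.d1 lat'.d1 g.d1) ^ (2N))` (`aeval τ` is injective), a polynomial of reduction `1`.
(2) Gauss: `q' = C c' * incP q0`, `q = C c'' * incP q1` with `redP q0, redP q1 ≠ 0` (`exists_scale`); `c' c''` is a unit of `A` and
    `redP q0 * redP q1` is a nonzero constant, so `redP q0 = C κ`, `κ ≠ 0`.
(3) `evL (Pm i j) = evL (g.d1 H) * w.repr (m_i) j`, so `evL (det Pm) = evL (g.d1 H) ^ N * det [m : w]`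
    (`Matrix.det_smul`, `Matrix.det_transpose`, `RingHom.map_det`).  Hence
    `evL (det Pm * det Pm') = evL H ^ (2N) * aeval τ q' `, i.e. `incP (det Pm det Pm') = C c' * incP (H ^ (2N) q0)`.
    Both polynomials have nonzero reduction, so `c'` is a unit of `A` and `redP (det Pm det Pm') = C (c̄' κ) redP H ^ (2N)`.
-/

set_option autoImplicit false

noncomputable section

namespace Fermat.Agent.S34.T

open Polynomial Fermat.Agent.S18.KL

variable {K : Type*} [Field K] {A : ValuationSubring K}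
variable {L : Type*} [Field L] [Algebra K L] {τ : L}
variable {F : Type*} [Field F] [Algebra L F] [FiniteDimensional L F]

omit [FiniteDimensional L F] in
theorem Sm0_sum_det_aux {ι : Type*} (s : Finset ι) (f : ι → F) (h : ∀ i ∈ s, Sm0 A τ F (f i)) :
    Sm0 A τ F (∑ i ∈ s, f i) :=
  Finset.sum_induction f (Sm0 A τ F) (fun _ _ ha hb => Sm0.add A ha hb)
    ⟨0, zero_mem _, 0, zero_mem _, by simp⟩ h

/-- two primitive polynomials which are proportional differ by a unit of `A` -/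
theorem scale_unit_det_aux {c : K} {P P' : (↥A)[X]} (hP : redP A P ≠ 0) (hP' : redP A P' ≠ 0)
    (h : C c * incP A P = incP A P') :
    ∃ u : A, (u : K) = c ∧ IsLocalRing.residue A u ≠ 0 ∧ P' = C u * P := by
  have h2 : C c ∈ lifts (algebraMap A K) := by
    apply Fermat.Agent.S18.KLGauss.mem_lifts_of_mul_primitive (s := P) hP
    rw [mem_lifts]
    exact ⟨P', h.symm⟩
  obtain ⟨Q, hQ⟩ := (mem_lifts _).1 h2
  have h3 := congrArg (fun p => p.coeff 0) hQ
  simp only [coeff_map, coeff_C_zero] at h3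
  refine ⟨Q.coeff 0, h3, ?_, ?_⟩
  · intro h0
    apply hP'
    have h4 : P' = C (Q.coeff 0) * P := by
      apply incP_injective A
      rw [map_mul, incP_C, ← h]
      congr 2
      exact h3.symm
    rw [h4, map_mul, redP_C, h0, C_0, zero_mul]
  · apply incP_injective A
    rw [map_mul, incP_C, ← h]
    congr 2
    exact h3.symm

theorem redP_det_ne_zero (hτ : Transcendental K τ) (hgen : IsGen K τ) {N : ℕ} (g : WBasis A τ F N)
    (Λ : AddSubgroup F) (lat : WLat A τ F Λ N) (H : (↥A)[X]) (hH : redP A H ≠ 0)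
    (Pm : Matrix (Fin N) (Fin N) (↥A)[X])
    (hPm : ∀ i, evE A τ F (g.d1 * H) * lat.m i = ∑ j, evE A τ F (Pm i j) * g.w j) :
    redP A Pm.det ≠ 0 := by
  classical
  intro h0
  have h1 : ((redP A).mapMatrix Pm).det = 0 := by
    rw [← RingHom.map_det]; exact h0
  obtain ⟨v, hv0, hv⟩ := Matrix.exists_vecMul_eq_zero_iff.mpr h1
  choose c hc using fun i => redP_surjective A (v i)
  have h2 : evE A τ F (g.d1 * H) * ∑ i, evE A τ F (c i) * lat.m i =
      ∑ j, evE A τ F (∑ i, c i * Pm i j) * g.w j := by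
    rw [Finset.mul_sum]
    calc ∑ i, evE A τ F (g.d1 * H) * (evE A τ F (c i) * lat.m i)
        = ∑ i, evE A τ F (c i) * ∑ j, evE A τ F (Pm i j) * g.w j := by
          refine Finset.sum_congr rfl fun i _ => ?_
          rw [← hPm i]; ring
      _ = ∑ i, ∑ j, evE A τ F (c i * Pm i j) * g.w j := by
          refine Finset.sum_congr rfl fun i _ => ?_
          rw [Finset.mul_sum]
          refine Finset.sum_congr rfl fun j _ => ?_
          rw [map_mul, mul_assoc]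
      _ = ∑ j, ∑ i, evE A τ F (c i * Pm i j) * g.w j := Finset.sum_comm
      _ = ∑ j, evE A τ F (∑ i, c i * Pm i j) * g.w j := by
          refine Finset.sum_congr rfl fun j _ => ?_
          rw [map_sum, Finset.sum_mul]
  have h3 : ∀ j, redP A (∑ i, c i * Pm i j) = 0 := by
    intro j
    have := congrFun hv j
    rw [map_sum]
    simp only [map_mul, hc]
    simpa [Matrix.vecMul, dotProduct] using this
  have h4 : Sm0 A τ F (∑ j, evE A τ F (∑ i, c i * Pm i j) * g.w j) := by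
    refine Sm0_sum_det_aux _ _ fun j _ => ?_
    rw [mul_comm]
    exact Sm0.mul_left A (Sm0_evE_of_redP_eq_zero A (h3 j)) (g.mem j)
  rw [← h2] at h4
  have h5 : SmV A τ F (∑ i, evE A τ F (c i) * lat.m i) :=
    SmV_of_evE_mul A hτ (by rw [map_mul, g.red_d1, one_mul]; exact hH) h4.SmV
  apply hv0
  funext i
  rw [← hc i]
  exact lat.indep c h5 i

omit [FiniteDimensional L F] in
theorem evK_C_mul_det_aux (a : K) (y : F) : evK K τ F (C a) * y = (algebraMap K L a) • y := by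
  rw [Algebra.smul_def]
  simp [evK]

omit [FiniteDimensional L F] in
/-- coordinates of the generic fibre of a lattice are polynomials, up to `d1` -/
theorem repr_mem_det_aux {N : ℕ} (m : Module.Basis (Fin N) L F) (d1 : (↥A)[X]) (Λ : Set F)
    (span : ∀ x ∈ Λ, ∀ i, ∃ c : (↥A)[X], evL A τ d1 * m.repr x i = evL A τ c) {y : F}
    (hy : ∃ a : K, a ≠ 0 ∧ evK K τ F (C a) * y ∈ Λ) (j : Fin N) :
    ∃ p : K[X], aeval τ p = evL A τ d1 * m.repr y j := by
  obtain ⟨a, ha, hay⟩ := hy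
  obtain ⟨c, hc⟩ := span _ hay j
  rw [evK_C_mul_det_aux, map_smul, Finsupp.smul_apply, smul_eq_mul] at hc
  refine ⟨C a⁻¹ * incP A c, ?_⟩
  have ha' : algebraMap K L a ≠ 0 := by rw [Ne, map_eq_zero]; exact ha
  rw [map_mul, aeval_C, ← evL_eq_aeval, ← hc, map_inv₀]
  field_simp

omit [FiniteDimensional L F] in
theorem evL_det_aux {N : ℕ} (w m : Module.Basis (Fin N) L F) (D : (↥A)[X])
    (Pm : Matrix (Fin N) (Fin N) (↥A)[X])
    (hPm : ∀ i, evE A τ F D * m i = ∑ j, evE A τ F (Pm i j) * w j) :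
    evL A τ Pm.det = evL A τ D ^ N * (w.toMatrix m).det := by
  classical
  have h1 : ∀ i j, evL A τ (Pm i j) = evL A τ D * w.repr (m i) j := by
    intro i j
    have h2 := congrArg (fun x => w.repr x j) (hPm i)
    simp only [evE_apply, ← Algebra.smul_def, map_smul, map_sum, Finsupp.smul_apply,
      Finsupp.coe_finsetSum, Finset.sum_apply, Module.Basis.repr_self, smul_eq_mul,
      Finsupp.single_apply, mul_ite, mul_one, mul_zero, Finset.sum_ite_eq', Finset.mem_univ,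
      if_true] at h2
    exact h2.symm
  have h3 : (evL A τ).mapMatrix Pm = evL A τ D • (w.toMatrix m).transpose := by
    ext i j
    simp only [RingHom.mapMatrix_apply, Matrix.map_apply, Matrix.smul_apply, Matrix.transpose_apply,
      Module.Basis.toMatrix_apply, smul_eq_mul]
    exact h1 i j
  rw [RingHom.map_det, h3, Matrix.det_smul, Matrix.det_transpose, Fintype.card_fin]

theorem det_formula (hτ : Transcendental K τ) (hgen : IsGen K τ) {N : ℕ} (g : WBasis A τ F N)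
    (Λ Λ' : AddSubgroup F) (lat : WLat A τ F Λ N) (lat' : WLat A τ F Λ' N)
    (f₁ f₂ g₁ g₂ : F) (hdet : f₁ * g₁ + f₂ * g₂ = 1)
    (hf₁ : ∀ b ∈ B0 K τ F, ∃ a : K, a ≠ 0 ∧ evK K τ F (C a) * (f₁ * b) ∈ Λ)
    (hf₂ : ∀ b ∈ B0 K τ F, ∃ a : K, a ≠ 0 ∧ evK K τ F (C a) * (f₂ * b) ∈ Λ)
    (hg₁ : ∀ b ∈ B0 K τ F, ∃ a : K, a ≠ 0 ∧ evK K τ F (C a) * (g₁ * b) ∈ Λ')
    (hg₂ : ∀ b ∈ B0 K τ F, ∃ a : K, a ≠ 0 ∧ evK K τ F (C a) * (g₂ * b) ∈ Λ')
    (hΛ₁ : ∀ x ∈ Λ, g₁ * x ∈ B0 K τ F) (hΛ₂ : ∀ x ∈ Λ, g₂ * x ∈ B0 K τ F)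
    (hΛ'₁ : ∀ x ∈ Λ', f₁ * x ∈ B0 K τ F) (hΛ'₂ : ∀ x ∈ Λ', f₂ * x ∈ B0 K τ F)
    (H : (↥A)[X]) (hH : redP A H ≠ 0) (Pm Pm' : Matrix (Fin N) (Fin N) (↥A)[X])
    (hPm : ∀ i, evE A τ F (g.d1 * H) * lat.m i = ∑ j, evE A τ F (Pm i j) * g.w j)
    (hPm' : ∀ i, evE A τ F (g.d1 * H) * lat'.m i = ∑ j, evE A τ F (Pm' i j) * g.w j) :
    ∃ c : kk A, c ≠ 0 ∧ redP A Pm.det * redP A Pm'.det = C c * redP A H ^ (2 * N) := by
  classical
  set S : Subring L := ((aeval τ : K[X] →ₐ[K] L) : K[X] →+* L).range with hS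
  have hSmem : ∀ x : L, x ∈ S ↔ ∃ p : K[X], aeval τ p = x := fun x => RingHom.mem_range
  have hevL : ∀ P : (↥A)[X], evL A τ P ∈ S := fun P =>
    (hSmem _).mpr ⟨incP A P, by rw [evL_eq_aeval]⟩
  have hwB : ∀ i, g.w i ∈ B0 K τ F := fun i => C0_le_B0 A (g.mem i)
  -- coordinates with respect to the three bases
  have hL : ∀ y : F, (∃ a : K, a ≠ 0 ∧ evK K τ F (C a) * y ∈ Λ) → ∀ j,
      evL A τ (lat.d1 * lat'.d1) * lat.m.repr y j ∈ S := by
    intro y hy j
    have := (hSmem _).mpr (repr_mem_det_aux lat.m lat.d1 Λ lat.span hy j)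
    rw [map_mul, mul_comm (evL A τ lat.d1), mul_assoc]
    exact S.mul_mem (hevL _) this
  have hL' : ∀ y : F, (∃ a : K, a ≠ 0 ∧ evK K τ F (C a) * y ∈ Λ') → ∀ j,
      evL A τ (lat.d1 * lat'.d1) * lat'.m.repr y j ∈ S := by
    intro y hy j
    have := (hSmem _).mpr (repr_mem_det_aux lat'.m lat'.d1 Λ' lat'.span hy j)
    rw [map_mul, mul_assoc]
    exact S.mul_mem (hevL _) this
  have hW : ∀ y ∈ B0 K τ F, ∀ j, evL A τ g.d1 * g.w.repr y j ∈ S := by
    intro y hy j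
    obtain ⟨a, ha, hay⟩ := exists_smul_mem_C0 A hy
    refine (hSmem _).mpr (repr_mem_det_aux g.w g.d1 (C0 A τ F) g.span
      ⟨(a : K), fun h => ha (Subtype.ext h), ?_⟩ j)
    have e : evK K τ F (C (a : K)) = evE A τ F (C a) := by
      rw [SatB.evE_C]; simp [evK]
    rw [e]
    exact hay
  obtain ⟨a, ha, b, hb, hab1, hab2⟩ := det_sl2 g.w lat.m lat'.m f₁ f₂ g₁ g₂ hdet S
    (evL A τ (lat.d1 * lat'.d1)) (evL A τ g.d1)
    (fun i j => hL _ (hf₁ _ (hwB i)) j) (fun i j => hL _ (hf₂ _ (hwB i)) j)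
    (fun i j => hL' _ (hg₁ _ (hwB i)) j) (fun i j => hL' _ (hg₂ _ (hwB i)) j)
    (fun i j => hW _ (hΛ₁ _ (lat.mem i)) j) (fun i j => hW _ (hΛ₂ _ (lat.mem i)) j)
    (fun i j => hW _ (hΛ'₁ _ (lat'.mem i)) j) (fun i j => hW _ (hΛ'₂ _ (lat'.mem i)) j)
  obtain ⟨qa, rfl⟩ := (hSmem _).mp ha
  obtain ⟨qb, rfl⟩ := (hSmem _).mp hb
  set D := (g.w.toMatrix lat.m).det * (g.w.toMatrix lat'.m).det with hD
  have hinj : Function.Injective (aeval τ : K[X] →ₐ[K] L) := transcendental_iff_injective.1 hτ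
  -- `qa * qb` is a polynomial of reduction `1`
  set U : (↥A)[X] := (g.d1 * (lat.d1 * lat'.d1)) ^ (2 * N) with hU
  have hUred : redP A U = 1 := by
    rw [hU, map_pow, map_mul, map_mul, g.red_d1, lat.red_d1, lat'.red_d1]; simp
  have hqq : qa * qb = incP A U := by
    apply hinj
    rw [map_mul, hab2, ← evL_eq_aeval, hU, map_pow, map_mul, mul_pow, ← hab1]
    ring
  have hU0 : incP A U ≠ 0 := by
    intro h
    have : U = 0 := incP_injective A (by rw [h, map_zero])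
    rw [this, map_zero] at hUred
    exact zero_ne_one hUred
  have hqa0 : qa ≠ 0 := fun h => hU0 (by rw [← hqq, h, zero_mul])
  have hqb0 : qb ≠ 0 := fun h => hU0 (by rw [← hqq, h, mul_zero])
  obtain ⟨ca, -, a0, ha0, rfl⟩ := exists_scale A qa hqa0
  obtain ⟨cb, -, b0, hb0, rfl⟩ := exists_scale A qb hqb0
  obtain ⟨u, -, -, hu⟩ := scale_unit_det_aux (c := ca * cb) (P := a0 * b0) (P' := U)
    (by rw [map_mul]; exact mul_ne_zero ha0 hb0) (by rw [hUred]; exact one_ne_zero)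
    (by rw [← hqq, map_mul, map_mul]; ring)
  -- `redP b0` is a nonzero constant
  have hunit : IsUnit (redP A b0) := by
    have h1 : redP A b0 * (redP A (C u) * redP A a0) = 1 := by
      rw [← hUred, hu, map_mul, map_mul]; ring
    exact IsUnit.of_mul_eq_one _ h1
  obtain ⟨κ, hκ, hκb⟩ := Polynomial.isUnit_iff.mp hunit
  -- the determinants
  have h1 := evL_det_aux g.w lat.m (g.d1 * H) Pm hPm
  have h2 := evL_det_aux g.w lat'.m (g.d1 * H) Pm' hPm'
  have h3 : C cb * incP A (H ^ (2 * N) * b0) = incP A (Pm.det * Pm'.det) := by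
    apply hinj
    rw [← evL_eq_aeval, map_mul (evL A τ), h1, h2, map_mul (incP A), ← mul_assoc,
      mul_comm (C cb), mul_assoc, map_mul (aeval τ), hab2, ← evL_eq_aeval, map_pow, map_mul, hD]
    ring
  obtain ⟨ub, -, hub, hub2⟩ := scale_unit_det_aux (c := cb) (P := H ^ (2 * N) * b0)
    (P' := Pm.det * Pm'.det)
    (by rw [map_mul, map_pow]; exact mul_ne_zero (pow_ne_zero _ hH) hb0)
    (by
      rw [map_mul]
      exact mul_ne_zero (redP_det_ne_zero hτ hgen g Λ lat H hH Pm hPm)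
        (redP_det_ne_zero hτ hgen g Λ' lat' H hH Pm' hPm')) h3
  refine ⟨IsLocalRing.residue A ub * κ, mul_ne_zero hub hκ.ne_zero, ?_⟩
  rw [← map_mul, hub2, map_mul, map_mul, map_pow, redP_C, ← hκb, C_mul]
  ring

end Fermat.Agent.S34.T
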