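import Fermat.Agent.S34.T.Weak

/-!
# S34 / TOR : the interface between the abstract and the modular part  (helper4)

`F / L = K(τ)` finite, `VV` = integral closure of the Gauss ring.  The special fibre has two components:

* `TwoComp A τ F Ω₁ Ω₂` (chart independent): two ring homs `res₁, res₂ : VV → Ωᵢ` into fields with joint kernel `𝔪 VV`, and
  an element `e` with `res e = (1, 0)`.
* `NodalChart T θ` (`θ = τ` or `τ⁻¹`): for the chart `C0 A θ F`
  - `normalᵢ` : `resᵢ (C0)` is integrally closed in `resᵢ (VV)`;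
  - `radicalᵢ` : the crossing ideal `Iᵢ = {resᵢ c : c ∈ C0, resⱼ c = 0}` of `resᵢ (C0)` is radical  (ordinary double points);
  - `fg` : `C0 / 𝔪 C0` is a f.g. `k[X]`-module.
* `TorStatement` : the abstract toric theorem (to be proved by helper22 in `S34/T/`).  `Q = 1` is the inertia case (S34),
  `Q = q ^ 2` the case of the square of a Frobenius lift (S35).
-/

set_option autoImplicit false

noncomputable section

namespace Fermat.Agent.S34.T

open Polynomial Fermat.Agent.S18.KL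

section Defs

variable {K : Type} [Field K] (A : ValuationSubring K)
variable {L : Type} [Field L] [Algebra K L] (τ : L)
variable (F : Type) [Field F] [Algebra L F]

/-- the two components of the special fibre -/
structure TwoComp (Ω₁ Ω₂ : Type) [Field Ω₁] [Field Ω₂] where
  res₁ : VV A τ F →+* Ω₁
  res₂ : VV A τ F →+* Ω₂
  ker : ∀ x : VV A τ F, (res₁ x = 0 ∧ res₂ x = 0) ↔ SmV A τ F (x : F)
  e : VV A τ F
  res₁_e : res₁ e = 1
  res₂_e : res₂ e = 0

/-- constants -/
def cst (a : A) : VV A τ F := ⟨evE A τ F (C a), C0_le_VV A τ F (evE_mem_C0 A τ F _)⟩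

variable {A τ F}

/-- a chart whose only singularities are ordinary double points where the two components meet -/
structure NodalChart {Ω₁ Ω₂ : Type} [Field Ω₁] [Field Ω₂] (T : TwoComp A τ F Ω₁ Ω₂) (θ : L) where
  le : C0 A θ F ≤ VV A τ F
  normal₁ : ∀ x : VV A τ F, (T.res₁.comp (Subring.inclusion le)).IsIntegralElem (T.res₁ x) →
    ∃ c : C0 A θ F, T.res₁ (Subring.inclusion le c) = T.res₁ x
  normal₂ : ∀ x : VV A τ F, (T.res₂.comp (Subring.inclusion le)).IsIntegralElem (T.res₂ x) →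
    ∃ c : C0 A θ F, T.res₂ (Subring.inclusion le c) = T.res₂ x
  radical₁ : ∀ (y : C0 A θ F) (n : ℕ), 0 < n →
    (∃ c : C0 A θ F, T.res₂ (Subring.inclusion le c) = 0 ∧
      T.res₁ (Subring.inclusion le c) = T.res₁ (Subring.inclusion le y) ^ n) →
    ∃ c : C0 A θ F, T.res₂ (Subring.inclusion le c) = 0 ∧
      T.res₁ (Subring.inclusion le c) = T.res₁ (Subring.inclusion le y)
  radical₂ : ∀ (y : C0 A θ F) (n : ℕ), 0 < n →
    (∃ c : C0 A θ F, T.res₁ (Subring.inclusion le c) = 0 ∧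
      T.res₂ (Subring.inclusion le c) = T.res₂ (Subring.inclusion le y) ^ n) →
    ∃ c : C0 A θ F, T.res₁ (Subring.inclusion le c) = 0 ∧
      T.res₂ (Subring.inclusion le c) = T.res₂ (Subring.inclusion le y)
  fg : FgBar A θ F

/-- `s` is a semilinear automorphism acting on the chart `θ` like `x ↦ x ^ Q` at the crossing points -/
structure ActsLike {Ω₁ Ω₂ : Type} [Field Ω₁] [Field Ω₂] {T : TwoComp A τ F Ω₁ Ω₂} {θ : L}
    (c : NodalChart T θ) (s : F ≃+* F) (Q : ℕ) : Prop where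
  map_C0 : ∀ x ∈ C0 A θ F, s x ∈ C0 A θ F
  cong₁ : ∀ (x : C0 A θ F) (hx : s x ∈ C0 A θ F), ∃ d : C0 A θ F,
    T.res₂ (Subring.inclusion c.le d) = 0 ∧ T.res₁ (Subring.inclusion c.le d) =
      T.res₁ (Subring.inclusion c.le ⟨s x, hx⟩) - T.res₁ (Subring.inclusion c.le x) ^ Q
  cong₂ : ∀ (x : C0 A θ F) (hx : s x ∈ C0 A θ F), ∃ d : C0 A θ F,
    T.res₁ (Subring.inclusion c.le d) = 0 ∧ T.res₂ (Subring.inclusion c.le d) =
      T.res₂ (Subring.inclusion c.le ⟨s x, hx⟩) - T.res₂ (Subring.inclusion c.le x) ^ Q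

end Defs

/-- **the abstract toric theorem** -/
def TorStatement : Prop :=
  ∀ {K : Type} [Field K] [IsAlgClosed K] [CharZero K] (A : ValuationSubring K) (_ : Arch A)
    {L : Type} [Field L] [Algebra K L] (τ : L) (_ : Transcendental K τ) (_ : IsGen K τ)
    {F : Type} [Field F] [Algebra L F] [Algebra K F] [IsScalarTower K L F] [FiniteDimensional L F]
    {ι : Type} [Fintype ι] (_ : ONB A τ F ι)
    {Ω₁ Ω₂ : Type} [Field Ω₁] [Field Ω₂] (T : TwoComp A τ F Ω₁ Ω₂)
    (c0 : NodalChart T τ) (c1 : NodalChart T τ⁻¹)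
    (n : ℕ) (_ : 0 < n) (_ : ((n : K))⁻¹ ∈ A)
    -- `u` : a unit of `VV`, constant on both components, with divisor divisible by `n`
    (u u' : VV A τ F) (_ : u * u' = 1) (a₁ a₂ : A)
    (_ : T.res₁ u = T.res₁ (cst A τ F a₁)) (_ : T.res₂ u = T.res₂ (cst A τ F a₂))
    (_ : ∀ P : AlgebraicCurve.Place K F, (n : ℤ) ∣ P.ord (u : F))
    -- the semilinear automorphism
    (s : F ≃+* F) (Q : ℕ) (_ : 0 < Q)
    (_ : ∀ a : A, ∃ a' : A, s (cst A τ F a : F) = (cst A τ F a' : F))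
    (hsV : ∀ x ∈ VV A τ F, s x ∈ VV A τ F)
    (_ : ∀ x : VV A τ F, T.res₁ x = 0 → T.res₁ ⟨s x, hsV x x.2⟩ = 0)
    (_ : ∀ x : VV A τ F, T.res₂ x = 0 → T.res₂ ⟨s x, hsV x x.2⟩ = 0)
    (_ : ∀ P : AlgebraicCurve.Place K F, (n : ℤ) ∣ P.ord (s (u : F)))
    (_ : ActsLike c0 s Q) (_ : ActsLike c1 s Q),
    ∃ h : F, s (u : F) = (u : F) ^ Q * h ^ n

end Fermat.Agent.S34.T
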