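import Mathlib

/-!
# S34 / TOR, abstract part : the local analysis at the nodes by a global count   (key `S34/T-NODE`, Mathlib only)

`R` (= `C0 / 𝔪 C0`) a `k`-algebra with two ring homs `p₁, p₂` (the two components), `h ∈ R`, `𝔧, 𝔧'` ideals
(= reductions of `h I(u)`, `h I(u⁻¹)`).

* `codim_le` (modular law + rank-nullity): `V` a `k`-vector space, `P Q N` subspaces, `V/P`, `V/Q` finite dimensional,
  `P ⊔ N ≤ Q ⊔ N`, `P ⊓ N ≤ Q ⊓ N`.  Then `dim V/Q ≤ dim V/P`, and equality forces `P ⊔ N = Q ⊔ N`, `P ⊓ N = Q ⊓ N`.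
  [`dim V/P = dim V/(P ⊔ N) + dim (P ⊔ N)/P`, `(P ⊔ N)/P ≅ N/(P ⊓ N)` (`LinearMap.quotientInfEquivSupQuotient`);
  `V/(P ⊔ N) ↠ V/(Q ⊔ N)`, `N/(P ⊓ N) ↠ N/(Q ⊓ N)`; a surjection between spaces of the same finite dimension is injective.]
* `node_one` : apply it with `P = 𝔧`, `Q = h R`, `N = ker p`.
* `node` : the count `dim R/𝔧 + dim R/𝔧' ≤ 2 dim R/hR` and `node_one` (for `p₁` and for `p₂`, for `𝔧` and for `𝔧'`).
-/

set_option autoImplicit false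

namespace Fermat.Agent.S34.T

open Module Submodule

/-- monotonicity of the codimension, with the equality case -/
theorem finrank_quotient_le_aux {k : Type*} [Field k] {W : Type*} [AddCommGroup W] [Module k W]
    {S T : Submodule k W} (hST : S ≤ T) [Module.Finite k (W ⧸ S)] :
    Module.finrank k (W ⧸ T) ≤ Module.finrank k (W ⧸ S) ∧
      (Module.finrank k (W ⧸ S) = Module.finrank k (W ⧸ T) → S = T) := by
  have h1 := Submodule.finrank_quotient_add_finrank (T.map S.mkQ)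
  have h2 := (Submodule.quotientQuotientEquivQuotient S T hST).finrank_eq
  rw [h2] at h1
  refine ⟨by omega, fun h => le_antisymm hST ?_⟩
  have h3 : Module.finrank k (T.map S.mkQ) = 0 := by omega
  have h4 : T.map S.mkQ = ⊥ := Submodule.finrank_eq_zero.mp h3
  intro x hx
  have h5 : S.mkQ x ∈ T.map S.mkQ := Submodule.mem_map_of_mem hx
  rw [h4, Submodule.mem_bot, Submodule.mkQ_apply, Submodule.Quotient.mk_eq_zero] at h5
  exact h5

/-- `dim V/P = dim V/(P + N) + dim N/(P ∩ N)` -/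
theorem finrank_quotient_split_aux {k : Type*} [Field k] {V : Type*} [AddCommGroup V] [Module k V]
    (P N : Submodule k V) [Module.Finite k (V ⧸ P)] :
    Module.Finite k (V ⧸ (P ⊔ N)) ∧ Module.Finite k (N ⧸ P.comap N.subtype) ∧
      Module.finrank k (V ⧸ P) =
        Module.finrank k (V ⧸ (P ⊔ N)) + Module.finrank k (N ⧸ P.comap N.subtype) := by
  have h1 := Submodule.finrank_quotient_add_finrank ((P ⊔ N).map P.mkQ)
  let E := Submodule.quotientQuotientEquivQuotient P (P ⊔ N) le_sup_left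
  rw [E.finrank_eq] at h1
  let g : N →ₗ[k] V ⧸ P := P.mkQ.comp N.subtype
  have hker : LinearMap.ker g = P.comap N.subtype := by
    rw [LinearMap.ker_comp, Submodule.ker_mkQ]
  have hrange : LinearMap.range g = (P ⊔ N).map P.mkQ := by
    rw [LinearMap.range_comp, Submodule.range_subtype, Submodule.map_sup, Submodule.mkQ_map_self,
      bot_sup_eq]
  let E2 := g.quotKerEquivRange
  have h2 := E2.finrank_eq
  rw [hrange] at h2
  have hfin2 : Module.Finite k (N ⧸ LinearMap.ker g) := Module.Finite.equiv E2.symm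
  rw [hker] at h2 hfin2
  exact ⟨Module.Finite.equiv E, hfin2, by omega⟩

theorem codim_le {k : Type*} [Field k] {V : Type*} [AddCommGroup V] [Module k V]
    (P Q N : Submodule k V) [Module.Finite k (V ⧸ P)] [Module.Finite k (V ⧸ Q)]
    (hsup : P ⊔ N ≤ Q ⊔ N) (hinf : P ⊓ N ≤ Q ⊓ N) :
    Module.finrank k (V ⧸ Q) ≤ Module.finrank k (V ⧸ P) ∧
      (Module.finrank k (V ⧸ P) = Module.finrank k (V ⧸ Q) → P ⊔ N = Q ⊔ N ∧ P ⊓ N = Q ⊓ N) := by
  obtain ⟨f1, f2, e1⟩ := finrank_quotient_split_aux P N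
  obtain ⟨-, -, e2⟩ := finrank_quotient_split_aux Q N
  have hcomap : P.comap N.subtype ≤ Q.comap N.subtype := by
    intro x hx
    exact (hinf ⟨hx, x.2⟩).1
  obtain ⟨a1, a2⟩ := finrank_quotient_le_aux hsup
  obtain ⟨c1, c2⟩ := finrank_quotient_le_aux hcomap
  refine ⟨by omega, fun h => ⟨a2 (by omega), le_antisymm hinf ?_⟩⟩
  have h3 := c2 (by omega)
  intro x hx
  have h4 : (⟨x, hx.2⟩ : N) ∈ Q.comap N.subtype := hx.1
  rw [← h3] at h4
  exact ⟨h4, hx.2⟩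

theorem node_one {k : Type*} [Field k] {R : Type*} [CommRing R] [Algebra k R]
    {Ω : Type*} [CommRing Ω] (p : R →+* Ω) (h : R) (𝔧 : Ideal R)
    [Module.Finite k (R ⧸ 𝔧)] [Module.Finite k (R ⧸ Ideal.span {h})]
    (hdiv : ∀ c ∈ 𝔧, ∃ r, p c = p h * p r)
    (hker : ∀ c ∈ 𝔧, p c = 0 → ∃ r, c = h * r) :
    Module.finrank k (R ⧸ Ideal.span {h}) ≤ Module.finrank k (R ⧸ 𝔧) ∧
      (Module.finrank k (R ⧸ 𝔧) = Module.finrank k (R ⧸ Ideal.span {h}) →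
        (∃ c ∈ 𝔧, p c = p h) ∧ ∀ r, p r = 0 → h * r ∈ 𝔧) := by
  let P : Submodule k R := 𝔧.restrictScalars k
  let Q : Submodule k R := (Ideal.span {h}).restrictScalars k
  let N : Submodule k R := (RingHom.ker p).restrictScalars k
  let EP : (R ⧸ P) ≃ₗ[k] (R ⧸ 𝔧) := Submodule.Quotient.restrictScalarsEquiv k 𝔧
  let EQ : (R ⧸ Q) ≃ₗ[k] (R ⧸ Ideal.span {h}) :=
    Submodule.Quotient.restrictScalarsEquiv k (Ideal.span {h})
  have : Module.Finite k (R ⧸ P) := Module.Finite.equiv EP.symm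
  have : Module.Finite k (R ⧸ Q) := Module.Finite.equiv EQ.symm
  have hQ : ∀ r, h * r ∈ Q := fun r => Ideal.mul_mem_right _ _ (Ideal.mem_span_singleton_self h)
  have hsup : P ⊔ N ≤ Q ⊔ N := by
    refine sup_le ?_ le_sup_right
    intro c hc
    obtain ⟨r, hr⟩ := hdiv c hc
    have h1 : c = h * r + (c - h * r) := by ring
    rw [h1]
    refine Submodule.add_mem_sup (hQ r) ?_
    show c - h * r ∈ RingHom.ker p
    rw [RingHom.mem_ker, map_sub, map_mul, hr, sub_self]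
  have hinf : P ⊓ N ≤ Q ⊓ N := by
    intro c hc
    obtain ⟨r, hr⟩ := hker c hc.1 hc.2
    exact ⟨hr ▸ hQ r, hc.2⟩
  obtain ⟨h1, h2⟩ := codim_le P Q N hsup hinf
  rw [EP.finrank_eq, EQ.finrank_eq] at h1 h2
  refine ⟨h1, fun he => ?_⟩
  obtain ⟨e1, e2⟩ := h2 he
  constructor
  · have h3 : h ∈ P ⊔ N := by
      rw [e1]
      exact Submodule.mem_sup_left (Ideal.mem_span_singleton_self h)
    obtain ⟨c, hc, n, hn, hcn⟩ := Submodule.mem_sup.mp h3
    refine ⟨c, hc, ?_⟩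
    have hn' : p n = 0 := hn
    rw [← hcn, map_add, hn', add_zero]
  · intro r hr
    have h3 : h * r ∈ Q ⊓ N := by
      refine ⟨hQ r, ?_⟩
      show h * r ∈ RingHom.ker p
      rw [RingHom.mem_ker, map_mul, hr, mul_zero]
    rw [← e2] at h3
    exact h3.1

theorem node {k : Type*} [Field k] {R : Type*} [CommRing R] [Algebra k R]
    {Ω₁ Ω₂ : Type*} [CommRing Ω₁] [CommRing Ω₂] (p₁ : R →+* Ω₁) (p₂ : R →+* Ω₂) (h : R) (𝔧 𝔧' : Ideal R)
    [Module.Finite k (R ⧸ 𝔧)] [Module.Finite k (R ⧸ 𝔧')] [Module.Finite k (R ⧸ Ideal.span {h})]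
    (hdiv₁ : ∀ c ∈ 𝔧, ∃ r, p₁ c = p₁ h * p₁ r) (hker₁ : ∀ c ∈ 𝔧, p₁ c = 0 → ∃ r, c = h * r)
    (hdiv₂ : ∀ c ∈ 𝔧, ∃ r, p₂ c = p₂ h * p₂ r) (hker₂ : ∀ c ∈ 𝔧, p₂ c = 0 → ∃ r, c = h * r)
    (hdiv₁' : ∀ c ∈ 𝔧', ∃ r, p₁ c = p₁ h * p₁ r) (hker₁' : ∀ c ∈ 𝔧', p₁ c = 0 → ∃ r, c = h * r)
    (count : Module.finrank k (R ⧸ 𝔧) + Module.finrank k (R ⧸ 𝔧') ≤
      2 * Module.finrank k (R ⧸ Ideal.span {h})) :
    (∃ c ∈ 𝔧, p₁ c = p₁ h) ∧ (∀ r, p₁ r = 0 → h * r ∈ 𝔧) ∧ (∀ r, p₂ r = 0 → h * r ∈ 𝔧) := by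
  obtain ⟨a1, a2⟩ := node_one (k := k) p₁ h 𝔧 hdiv₁ hker₁
  obtain ⟨b1, b2⟩ := node_one (k := k) p₂ h 𝔧 hdiv₂ hker₂
  obtain ⟨c1, -⟩ := node_one (k := k) p₁ h 𝔧' hdiv₁' hker₁'
  have he : Module.finrank k (R ⧸ 𝔧) = Module.finrank k (R ⧸ Ideal.span {h}) := by omega
  exact ⟨(a2 he).1, (a2 he).2, (b2 he).2⟩

end Fermat.Agent.S34.T
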