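import Fermat.Agent.S34.T.Count
import Fermat.Agent.S34.T.Node

/-!
# S34 / TOR, abstract part : the structure of `J(w)`   (keys `S34/T-RES`, `S34/T-INV`)

One chart `(τ, T : TwoComp A τ F Ω₁ Ω₂, c : NodalChart T τ)`.  `w` a unit of `VV`, constant on both components, `n ∣ div w`.
`J(w)` = reduction of `I(w) = {f : f^n w ∈ C0}` in `Ω₁ × Ω₂`.  Theorem `T1`: `J(w) ∋ (1, *)`, `J(w) ⊃ 0 × I₂`, `J(w) ⊃ I₁ × 0`.

## T-RES (small lemmas)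
* `TwoComp.res₁_evE_ne_zero` : `S` primitive ⟹ `res₁ (evE S) ≠ 0` [`(evE S)⁻¹ ∈ VV` (`inv_evL_mem_OG`, `algebraMap_mem_VV`), so it is a
  unit of `VV`].
* `TwoComp.isUnit_of_res_ne_zero` : `res₁ (cst a) ≠ 0 ⟹ IsUnit a` [otherwise `a ∈ 𝔪`, `SmV (cst a)`, `T.ker`].
* `II.exists_res₁` : `f ∈ I(w)` ⟹ `∃ d ∈ C0, res₁ d = res₁ f`.  [`c.normal₁`: `res₁ f` is a root of `X^n - C d0`,
  `d0 = (f^n w) * cst (b₁⁻¹) ∈ C0`, `res₁ d0 = (res₁ f)^n` because `res₁ w = res₁ (cst b₁)`, `b₁` a unit.]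
* `II.exists_of_res₁_eq_zero` : `f ∈ I(w)`, `res₁ f = 0` ⟹ `∃ d ∈ C0, res₁ d = 0 ∧ res₂ d = res₂ f`.  [`y ∈ C0` with `res₂ y = res₂ f`
  (`II.exists_res₂`); `d0 = (f^n w) * cst (b₂⁻¹) ∈ C0` has `res₁ d0 = 0`, `res₂ d0 = (res₂ y)^n`; `c.radical₂`.]

## T-INV (`T1`)
`g : WBasis` from `exists_wbasis o c.fg`.  `count` gives `H`.  Apply `node` with `k = kk A`, `R = Cbar A τ F`, `p₁ = c.p₁`, `p₂ = c.p₂`,
`h = algebraMap (redP H) = mk (evE H)`, `𝔧 = jj H (II n w)`, `𝔧' = jj H (II n w')`: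
* `hdiv₁` : `y = mk (H f)` (`mem_jj`), `p₁ y = p₁ h * res₁ f`, `res₁ f = res₁ d = p₁ (mk d)` (`II.exists_res₁`).
* `hker₁` : `p₁ y = 0 ⟹ res₁ f = 0` (`res₁_evE_ne_zero`); `d` from `II.exists_of_res₁_eq_zero`; `SmV (f - d)` (`T.ker`), so
  `Sm0 (H f - H d)` (`SmV.mul_left`, `Sm0_of_SmV`), `y = h * mk d`.
* the same for `p₂` and for `𝔧'` (`w'` has the constants `b₁⁻¹, b₂⁻¹`).
Conclusions: `∃ y ∈ 𝔧, p₁ y = p₁ h` : `y = mk (H f)`, `res₁ f = 1`.  `∀ r, p₁ r = 0 → h r ∈ 𝔧` : `r = mk d`, `h r = mk (H f)`,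
`Sm0 (H d - H f)`, `SmV (d - f)` (`SmV_of_evE_mul`), `T.ker`.
-/

set_option autoImplicit false

noncomputable section

namespace Fermat.Agent.S34.T

open Polynomial Fermat.Agent.S18.KL

variable {K : Type} [Field K] {A : ValuationSubring K}
variable {L : Type} [Field L] [Algebra K L] {τ : L}
variable {F : Type} [Field F] [Algebra L F] [FiniteDimensional L F]
variable {Ω₁ Ω₂ : Type} [Field Ω₁] [Field Ω₂]

/-! ### T-RES -/

/-- exchange the two components -/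
def TwoComp.swap (T : TwoComp A τ F Ω₁ Ω₂) : TwoComp A τ F Ω₂ Ω₁ where
  res₁ := T.res₂
  res₂ := T.res₁
  ker := fun x => by rw [and_comm]; exact T.ker x
  e := 1 - T.e
  res₁_e := by rw [map_sub, map_one, T.res₂_e, sub_zero]
  res₂_e := by rw [map_sub, map_one, T.res₁_e, sub_self]

/-- exchange the two components -/
theorem NodalChart.swap {T : TwoComp A τ F Ω₁ Ω₂} {θ : L} (c : NodalChart T θ) : NodalChart T.swap θ where
  le := c.le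
  normal₁ := c.normal₂
  normal₂ := c.normal₁
  radical₁ := c.radical₂
  radical₂ := c.radical₁
  fg := c.fg

theorem isUnit_evE_VV (hτ : Transcendental K τ) {S : (↥A)[X]} (hS : redP A S ≠ 0) :
    IsUnit (⟨evE A τ F S, C0_le_VV A τ F (evE_mem_C0 A τ F S)⟩ : VV A τ F) := by
  refine IsUnit.of_mul_eq_one
    (⟨algebraMap L F (evL A τ S)⁻¹, algebraMap_mem_VV A hτ (inv_evL_mem_OG A hτ hS)⟩ : VV A τ F)
    (Subtype.ext ?_)
  show evE A τ F S * algebraMap L F (evL A τ S)⁻¹ = 1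
  rw [evE_apply, ← map_mul, mul_inv_cancel₀ (evL_ne_zero A hτ hS), map_one]

theorem TwoComp.res₁_evE_ne_zero (hτ : Transcendental K τ) (T : TwoComp A τ F Ω₁ Ω₂) {S : (↥A)[X]}
    (hS : redP A S ≠ 0) : T.res₁ ⟨evE A τ F S, C0_le_VV A τ F (evE_mem_C0 A τ F S)⟩ ≠ 0 :=
  ((isUnit_evE_VV hτ hS).map T.res₁).ne_zero

theorem TwoComp.res₂_evE_ne_zero (hτ : Transcendental K τ) (T : TwoComp A τ F Ω₁ Ω₂) {S : (↥A)[X]}
    (hS : redP A S ≠ 0) : T.res₂ ⟨evE A τ F S, C0_le_VV A τ F (evE_mem_C0 A τ F S)⟩ ≠ 0 :=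
  ((isUnit_evE_VV hτ hS).map T.res₂).ne_zero

theorem TwoComp.isUnit_of_res₁_ne_zero (T : TwoComp A τ F Ω₁ Ω₂) {a : A}
    (ha : T.res₁ (cst A τ F a) ≠ 0) : IsUnit a := by
  by_contra hu
  have hm : a ∈ IsLocalRing.maximalIdeal A := (IsLocalRing.mem_maximalIdeal a).mpr hu
  have hs : SmV A τ F ((cst A τ F a : VV A τ F) : F) :=
    ⟨a, hm, 1, (VV A τ F).one_mem, by rw [mul_one]; rfl⟩
  exact ha ((T.ker _).mpr hs).1

theorem TwoComp.isUnit_of_res₂_ne_zero (T : TwoComp A τ F Ω₁ Ω₂) {a : A}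
    (ha : T.res₂ (cst A τ F a) ≠ 0) : IsUnit a :=
  T.swap.isUnit_of_res₁_ne_zero ha

theorem cst_mul (a b : A) : cst A τ F (a * b) = cst A τ F a * cst A τ F b :=
  Subtype.ext (by
    show evE A τ F (C (a * b)) = evE A τ F (C a) * evE A τ F (C b)
    rw [C_mul, map_mul])

theorem cst_one : cst A τ F (1 : A) = 1 :=
  Subtype.ext (by
    show evE A τ F (C (1 : A)) = 1
    rw [C_1, map_one])

/-- the element `f ^ n * w * b'` of `C0` -/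
theorem II.aux_mem {n : ℕ} {hn : 0 < n} {w f : F} (hf : f ∈ II A τ F n hn w) (b' : A) :
    f ^ n * w * evE A τ F (C b') ∈ C0 A τ F :=
  (C0 A τ F).mul_mem hf (evE_mem_C0 A τ F _)

theorem II.res₁_aux {T : TwoComp A τ F Ω₁ Ω₂} (c : NodalChart T τ)
    (n : ℕ) (hn : 0 < n) (w : VV A τ F) (b₁ b' : A) (hb : b₁ * b' = 1)
    (h₁ : T.res₁ w = T.res₁ (cst A τ F b₁)) (f : VV A τ F) (hf : (f : F) ∈ II A τ F n hn (w : F)) :
    T.res₁ (c.inc ⟨_, II.aux_mem hf b'⟩) = T.res₁ f ^ n := by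
  have e : c.inc ⟨_, II.aux_mem hf b'⟩ = f ^ n * w * cst A τ F b' := Subtype.ext rfl
  rw [e, map_mul, map_mul, map_pow, h₁, mul_assoc, ← map_mul, ← cst_mul, hb, cst_one, map_one, mul_one]

theorem II.res₂_aux {T : TwoComp A τ F Ω₁ Ω₂} (c : NodalChart T τ)
    (n : ℕ) (hn : 0 < n) (w : VV A τ F) (b' : A)
    (f : VV A τ F) (hf : (f : F) ∈ II A τ F n hn (w : F)) (hf₂ : T.res₂ f = 0) :
    T.res₂ (c.inc ⟨_, II.aux_mem hf b'⟩) = 0 := by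
  have e : c.inc ⟨_, II.aux_mem hf b'⟩ = f ^ n * w * cst A τ F b' := Subtype.ext rfl
  rw [e, map_mul, map_mul, map_pow, hf₂, zero_pow hn.ne', zero_mul, zero_mul]

theorem II.exists_res₁ (hτ : Transcendental K τ) {T : TwoComp A τ F Ω₁ Ω₂} (c : NodalChart T τ)
    (n : ℕ) (hn : 0 < n) (w : VV A τ F) (b₁ : A) (hb₁ : IsUnit b₁)
    (h₁ : T.res₁ w = T.res₁ (cst A τ F b₁)) (f : VV A τ F) (hf : (f : F) ∈ II A τ F n hn (w : F)) :
    ∃ d : C0 A τ F, T.res₁ (c.inc d) = T.res₁ f := by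
  obtain ⟨b', hb⟩ := hb₁.exists_right_inv
  refine c.normal₁ f ⟨X ^ n - C ⟨_, II.aux_mem hf b'⟩, monic_X_pow_sub_C _ hn.ne', ?_⟩
  rw [eval₂_sub, eval₂_pow, eval₂_X, eval₂_C, sub_eq_zero]
  exact (II.res₁_aux c n hn w b₁ b' hb h₁ f hf).symm

theorem II.exists_res₂ (hτ : Transcendental K τ) {T : TwoComp A τ F Ω₁ Ω₂} (c : NodalChart T τ)
    (n : ℕ) (hn : 0 < n) (w : VV A τ F) (b₂ : A) (hb₂ : IsUnit b₂)
    (h₂ : T.res₂ w = T.res₂ (cst A τ F b₂)) (f : VV A τ F) (hf : (f : F) ∈ II A τ F n hn (w : F)) :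
    ∃ d : C0 A τ F, T.res₂ (c.inc d) = T.res₂ f :=
  II.exists_res₁ hτ c.swap n hn w b₂ hb₂ h₂ f hf

theorem II.exists_of_res₂_eq_zero (hτ : Transcendental K τ) {T : TwoComp A τ F Ω₁ Ω₂}
    (c : NodalChart T τ) (n : ℕ) (hn : 0 < n) (w : VV A τ F) (b₁ : A) (hb₁ : IsUnit b₁)
    (h₁ : T.res₁ w = T.res₁ (cst A τ F b₁)) (f : VV A τ F) (hf : (f : F) ∈ II A τ F n hn (w : F))
    (hf₂ : T.res₂ f = 0) :
    ∃ d : C0 A τ F, T.res₂ (c.inc d) = 0 ∧ T.res₁ (c.inc d) = T.res₁ f := by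
  obtain ⟨y, hy⟩ := II.exists_res₁ hτ c n hn w b₁ hb₁ h₁ f hf
  obtain ⟨b', hb⟩ := hb₁.exists_right_inv
  obtain ⟨d, hd2, hd1⟩ := c.radical₁ y n hn ⟨⟨_, II.aux_mem hf b'⟩,
    II.res₂_aux c n hn w b' f hf hf₂, by
      have := II.res₁_aux c n hn w b₁ b' hb h₁ f hf
      rw [← hy] at this
      exact this⟩
  exact ⟨d, hd2, hd1.trans hy⟩

theorem II.exists_of_res₁_eq_zero (hτ : Transcendental K τ) {T : TwoComp A τ F Ω₁ Ω₂}
    (c : NodalChart T τ) (n : ℕ) (hn : 0 < n) (w : VV A τ F) (b₂ : A) (hb₂ : IsUnit b₂)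
    (h₂ : T.res₂ w = T.res₂ (cst A τ F b₂)) (f : VV A τ F) (hf : (f : F) ∈ II A τ F n hn (w : F))
    (hf₁ : T.res₁ f = 0) :
    ∃ d : C0 A τ F, T.res₁ (c.inc d) = 0 ∧ T.res₂ (c.inc d) = T.res₂ f :=
  II.exists_of_res₂_eq_zero hτ c.swap n hn w b₂ hb₂ h₂ f hf hf₁

/-! ### T-INV -/

/-- elements of `I(w)` lie in `VV` -/
theorem II.mem_VV (hτ : Transcendental K τ) {n : ℕ} {hn : 0 < n} {w w' : VV A τ F} (hww' : w * w' = 1)
    {x : F} (hx : x ∈ II A τ F n hn (w : F)) : x ∈ VV A τ F := by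
  refine mem_VV_of_pow_mem A hτ hn ?_
  have h1 : (w : F) * (w' : F) = 1 := congrArg Subtype.val hww'
  have e : x ^ n = (x ^ n * (w : F)) * (w' : F) := by rw [mul_assoc, h1, mul_one]
  rw [e]
  exact (VV A τ F).mul_mem (C0_le_VV A τ F hx) w'.2

/-- `evE H` as an element of `VV` -/
abbrev evV (A : ValuationSubring K) (τ : L) (F : Type) [Field F] [Algebra L F] (H : (↥A)[X]) :
    VV A τ F := ⟨evE A τ F H, C0_le_VV A τ F (evE_mem_C0 A τ F H)⟩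

theorem NodalChart.p₁_h {T : TwoComp A τ F Ω₁ Ω₂} (c : NodalChart T τ) (H : (↥A)[X]) :
    c.p₁ (algebraMap (kk A)[X] (Cbar A τ F) (redP A H)) = T.res₁ (evV A τ F H) := by
  rw [algebraMap_redP, NodalChart.p₁_mk]
  rfl

theorem NodalChart.p₁_mk_mul {T : TwoComp A τ F Ω₁ Ω₂} (c : NodalChart T τ) (H : (↥A)[X])
    (f : VV A τ F) (hx : evE A τ F H * (f : F) ∈ C0 A τ F) :
    c.p₁ (Ideal.Quotient.mk (mC0 A τ F) ⟨evE A τ F H * (f : F), hx⟩) =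
      T.res₁ (evV A τ F H) * T.res₁ f := by
  rw [NodalChart.p₁_mk, ← map_mul]
  rfl

/-- `hdiv₁` -/
theorem T1_div (hτ : Transcendental K τ) {T : TwoComp A τ F Ω₁ Ω₂} (c : NodalChart T τ)
    (n : ℕ) (hn : 0 < n) (w w' : VV A τ F) (hww' : w * w' = 1) (b₁ : A) (hb₁ : IsUnit b₁)
    (h₁ : T.res₁ w = T.res₁ (cst A τ F b₁)) (H : (↥A)[X])
    (hI : ∀ x ∈ II A τ F n hn (w : F), evE A τ F H * x ∈ C0 A τ F) :
    ∀ y ∈ jj (τ := τ) H (II A τ F n hn (w : F)), ∃ r : Cbar A τ F,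
      c.p₁ y = c.p₁ (algebraMap (kk A)[X] (Cbar A τ F) (redP A H)) * c.p₁ r := by
  intro y hy
  obtain ⟨x, hx, rfl⟩ := (mem_jj hI (fun c hc x hx => II.mul_mem hc hx)).mp hy
  obtain ⟨d, hd⟩ := II.exists_res₁ hτ c n hn w b₁ hb₁ h₁ ⟨x, II.mem_VV hτ hww' hx⟩ hx
  refine ⟨Ideal.Quotient.mk _ d, ?_⟩
  rw [c.p₁_h, NodalChart.p₁_mk c d, hd]
  exact c.p₁_mk_mul H ⟨x, II.mem_VV hτ hww' hx⟩ (hI x hx)

/-- two elements of `VV` with the same reductions -/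
theorem TwoComp.SmV_sub (T : TwoComp A τ F Ω₁ Ω₂) {f g : VV A τ F} (h₁ : T.res₁ f = T.res₁ g)
    (h₂ : T.res₂ f = T.res₂ g) : SmV A τ F ((f : F) - (g : F)) :=
  (T.ker (f - g)).mp ⟨by rw [map_sub, h₁, sub_self], by rw [map_sub, h₂, sub_self]⟩

theorem TwoComp.res_eq_of_SmV (T : TwoComp A τ F Ω₁ Ω₂) {f g : VV A τ F}
    (h : SmV A τ F ((f : F) - (g : F))) : T.res₁ f = T.res₁ g ∧ T.res₂ f = T.res₂ g := by
  have := (T.ker (f - g)).mpr h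
  rw [map_sub, map_sub, sub_eq_zero, sub_eq_zero] at this
  exact this

/-- `mk (H f) = h * mk d` if `f ≡ d` -/
theorem mk_mul_eq (hτ : Transcendental K τ) (hgen : IsGen K τ) (H : (↥A)[X]) (x : F) (d : C0 A τ F)
    (hx : evE A τ F H * x ∈ C0 A τ F) (hs : SmV A τ F (x - (d : F))) :
    Ideal.Quotient.mk (mC0 A τ F) ⟨evE A τ F H * x, hx⟩ =
      algebraMap (kk A)[X] (Cbar A τ F) (redP A H) * Ideal.Quotient.mk (mC0 A τ F) d := by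
  rw [algebraMap_redP, ← map_mul, Ideal.Quotient.eq, mem_mC0]
  have e : (((⟨evE A τ F H * x, hx⟩ : C0 A τ F) - toC0 A τ F H * d : C0 A τ F) : F) =
      evE A τ F H * (x - (d : F)) := by
    show evE A τ F H * x - evE A τ F H * (d : F) = _
    ring
  refine Sm0_of_SmV A hτ hgen (Subtype.property _) ?_
  rw [e]
  exact SmV.mul_left A hs (C0_le_VV A τ F (evE_mem_C0 A τ F H))

/-- the converse -/
theorem SmV_of_mk_mul_eq (hτ : Transcendental K τ) {H : (↥A)[X]} (hH : redP A H ≠ 0) (x : F)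
    (d : C0 A τ F) (hx : evE A τ F H * x ∈ C0 A τ F)
    (h : algebraMap (kk A)[X] (Cbar A τ F) (redP A H) * Ideal.Quotient.mk (mC0 A τ F) d =
      Ideal.Quotient.mk (mC0 A τ F) ⟨evE A τ F H * x, hx⟩) : SmV A τ F (x - (d : F)) := by
  rw [algebraMap_redP, ← map_mul, eq_comm, Ideal.Quotient.eq, mem_mC0] at h
  have e : (((⟨evE A τ F H * x, hx⟩ : C0 A τ F) - toC0 A τ F H * d : C0 A τ F) : F) =
      evE A τ F H * (x - (d : F)) := by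
    show evE A τ F H * x - evE A τ F H * (d : F) = _
    ring
  rw [e] at h
  exact SmV_of_evE_mul A hτ hH (Sm0.SmV A h)

/-- `hker₁` -/
theorem T1_ker (hτ : Transcendental K τ) (hgen : IsGen K τ) {T : TwoComp A τ F Ω₁ Ω₂}
    (c : NodalChart T τ)
    (n : ℕ) (hn : 0 < n) (w w' : VV A τ F) (hww' : w * w' = 1) (b₂ : A) (hb₂ : IsUnit b₂)
    (h₂ : T.res₂ w = T.res₂ (cst A τ F b₂)) (H : (↥A)[X]) (hH : redP A H ≠ 0)
    (hI : ∀ x ∈ II A τ F n hn (w : F), evE A τ F H * x ∈ C0 A τ F) :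
    ∀ y ∈ jj (τ := τ) H (II A τ F n hn (w : F)), c.p₁ y = 0 → ∃ r : Cbar A τ F,
      y = algebraMap (kk A)[X] (Cbar A τ F) (redP A H) * r := by
  intro y hy hy0
  obtain ⟨x, hx, rfl⟩ := (mem_jj hI (fun c hc x hx => II.mul_mem hc hx)).mp hy
  have hxV := II.mem_VV hτ hww' hx
  have h0 := c.p₁_mk_mul H ⟨x, hxV⟩ (hI x hx)
  rw [hy0] at h0
  have hf₁ : T.res₁ ⟨x, hxV⟩ = 0 :=
    (mul_eq_zero.mp h0.symm).resolve_left (T.res₁_evE_ne_zero hτ hH)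
  obtain ⟨d, hd1, hd2⟩ := II.exists_of_res₁_eq_zero hτ c n hn w b₂ hb₂ h₂ ⟨x, hxV⟩ hx hf₁
  exact ⟨Ideal.Quotient.mk _ d, mk_mul_eq hτ hgen H x d (hI x hx)
    (T.SmV_sub (f := ⟨x, hxV⟩) (g := c.inc d) (hf₁.trans hd1.symm) hd2.symm)⟩

/-- constants of the inverse -/
theorem TwoComp.res₁_inv (T : TwoComp A τ F Ω₁ Ω₂) {w w' : VV A τ F} (hww' : w * w' = 1) {b b' : A}
    (hb : b * b' = 1) (h₁ : T.res₁ w = T.res₁ (cst A τ F b)) :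
    T.res₁ w' = T.res₁ (cst A τ F b') := by
  have e1 : T.res₁ w * T.res₁ w' = 1 := by rw [← map_mul, hww', map_one]
  have e2 : T.res₁ w * T.res₁ (cst A τ F b') = 1 := by
    rw [h₁, ← map_mul, ← cst_mul, hb, cst_one, map_one]
  have hw : T.res₁ w ≠ 0 := left_ne_zero_of_mul_eq_one e1
  exact mul_left_cancel₀ hw (e1.trans e2.symm)

theorem T1 [IsAlgClosed K] [CharZero K] [Algebra K F] [IsScalarTower K L F]
    (hτ : Transcendental K τ) (hgen : IsGen K τ) {ι : Type} [Fintype ι] (o : ONB A τ F ι)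
    (T : TwoComp A τ F Ω₁ Ω₂) (c : NodalChart T τ) (n : ℕ) (hn : 0 < n)
    (w w' : VV A τ F) (hww' : w * w' = 1) (b₁ b₂ : A)
    (h₁ : T.res₁ w = T.res₁ (cst A τ F b₁)) (h₂ : T.res₂ w = T.res₂ (cst A τ F b₂))
    (hdiv : ∀ P : AlgebraicCurve.Place K F, (n : ℤ) ∣ P.ord (w : F)) :
    (∃ f : VV A τ F, (f : F) ∈ II A τ F n hn (w : F) ∧ T.res₁ f = 1) ∧
    (∀ d : C0 A τ F, T.res₁ (c.inc d) = 0 →
      ∃ f : VV A τ F, (f : F) ∈ II A τ F n hn (w : F) ∧ T.res₁ f = 0 ∧ T.res₂ f = T.res₂ (c.inc d)) ∧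
    (∀ d : C0 A τ F, T.res₂ (c.inc d) = 0 →
      ∃ f : VV A τ F, (f : F) ∈ II A τ F n hn (w : F) ∧ T.res₂ f = 0 ∧ T.res₁ f = T.res₁ (c.inc d)) := by
  obtain ⟨g⟩ := exists_wbasis hτ hgen o c.fg
  have hw'w : w' * w = 1 := by rw [mul_comm]; exact hww'
  have hu₁ : IsUnit b₁ := T.isUnit_of_res₁_ne_zero (by
    rw [← h₁]
    exact left_ne_zero_of_mul_eq_one (b := T.res₁ w') (by rw [← map_mul, hww', map_one]))
  have hu₂ : IsUnit b₂ := T.isUnit_of_res₂_ne_zero (by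
    rw [← h₂]
    exact left_ne_zero_of_mul_eq_one (b := T.res₂ w') (by rw [← map_mul, hww', map_one]))
  obtain ⟨b₁', hb₁⟩ := hu₁.exists_right_inv
  obtain ⟨b₂', hb₂⟩ := hu₂.exists_right_inv
  have hu₁' : IsUnit b₁' := IsUnit.of_mul_eq_one b₁ (by rw [mul_comm]; exact hb₁)
  have hu₂' : IsUnit b₂' := IsUnit.of_mul_eq_one b₂ (by rw [mul_comm]; exact hb₂)
  have h₁' : T.res₁ w' = T.res₁ (cst A τ F b₁') := T.res₁_inv hww' hb₁ h₁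
  have h₂' : T.res₂ w' = T.res₂ (cst A τ F b₂') := T.swap.res₁_inv hww' hb₂ h₂
  obtain ⟨H, hH, hI, hI', fin1, fin2, fin3, hcount⟩ :=
    count hτ hgen g n hn (w : F) (w' : F) w.2 w'.2 (congrArg Subtype.val hww') hdiv
  obtain ⟨⟨y, hy, hy1⟩, k1, k2⟩ := node (k := kk A) c.p₁ c.p₂
    (algebraMap (kk A)[X] (Cbar A τ F) (redP A H))
    (jj (τ := τ) H (II A τ F n hn (w : F))) (jj (τ := τ) H (II A τ F n hn (w' : F)))
    (T1_div hτ c n hn w w' hww' b₁ hu₁ h₁ H hI)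
    (T1_ker hτ hgen c n hn w w' hww' b₂ hu₂ h₂ H hH hI)
    (T1_div hτ c.swap n hn w w' hww' b₂ hu₂ h₂ H hI)
    (T1_ker hτ hgen c.swap n hn w w' hww' b₁ hu₁ h₁ H hH hI)
    (T1_div hτ c n hn w' w hw'w b₁' hu₁' h₁' H hI')
    (T1_ker hτ hgen c n hn w' w hw'w b₂' hu₂' h₂' H hH hI')
    hcount.le
  have hmem := fun y => (mem_jj (y := y) hI (fun c hc x hx => II.mul_mem hc hx))
  refine ⟨?_, ?_, ?_⟩
  · obtain ⟨x, hx, rfl⟩ := (hmem y).mp hy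
    have hxV := II.mem_VV hτ hww' hx
    refine ⟨⟨x, hxV⟩, hx, ?_⟩
    rw [c.p₁_h, c.p₁_mk_mul H ⟨x, hxV⟩ (hI x hx)] at hy1
    exact mul_left_cancel₀ (T.res₁_evE_ne_zero hτ hH) (by rw [hy1, mul_one])
  · intro d hd
    obtain ⟨x, hx, hxe⟩ := (hmem _).mp (k1 (Ideal.Quotient.mk _ d) hd)
    have hxV := II.mem_VV hτ hww' hx
    have hs := SmV_of_mk_mul_eq hτ hH x d (hI x hx) hxe
    obtain ⟨e1, e2⟩ := T.res_eq_of_SmV (f := ⟨x, hxV⟩) (g := c.inc d) hs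
    exact ⟨⟨x, hxV⟩, hx, e1.trans hd, e2⟩
  · intro d hd
    obtain ⟨x, hx, hxe⟩ := (hmem _).mp (k2 (Ideal.Quotient.mk _ d) hd)
    have hxV := II.mem_VV hτ hww' hx
    have hs := SmV_of_mk_mul_eq hτ hH x d (hI x hx) hxe
    obtain ⟨e1, e2⟩ := T.res_eq_of_SmV (f := ⟨x, hxV⟩) (g := c.inc d) hs
    exact ⟨⟨x, hxV⟩, hx, e2.trans hd, e1⟩

end Fermat.Agent.S34.T
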