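import Fermat.Agent.S34.T.Weak
import Fermat.Agent.S34.T.LatDefs

/-!
# S34 / TOR, abstract part : good bases of saturated lattices   (key `S34/T-WLAT`)

`exists_wlat : WBasis A τ E n + IsLat A τ E Λ ⟹ WLat A τ E Λ n`.

Proof (= helper21's `WeakBasis.lean` with `C0 ↦ Λ`, `Sm0 ↦ SmV`; copy `span_monic`, `span_const`, `exists_d1`).
Let `H` be the denominator of `Λ` (`IsLat.den`), `b̄` the `k[X]`-basis `w̄_i` of `Cbar` (`WBasis.exists_bar`).
1. `𝔧 = {mk (H x) : x ∈ Λ}` is a `k[X]`-submodule of the free module `Cbar`, hence free (`Submodule.basisOfPid`), of rank `r ≤ n`.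
   Rank `= n`: by `full` there are primitive `S_i` with `S_i w_i ∈ Λ`; the `H̄ S̄_i w̄_i ∈ 𝔧` are independent.
   Lift the basis: `mk (H m_i)`, `m_i ∈ Λ`.
2. `gen` : `x ∈ Λ ⟹ ∃ c, SmV (x - ∑ c_i m_i)` [`mk (H x) = ∑ c̄_i mk (H m_i)`, so `Sm0 (H (x - ∑ c_i m_i))`; `SmV_of_evE_mul`].
   `indep` : `SmV (∑ c_i m_i) ⟹ Sm0 (H ∑ c_i m_i)` (`Sm0_of_SmV`) `⟹ c̄_i = 0`.
3. `L`-independence: `WeakAux.linearIndependent_of_indep` applied to `e_i = H m_i`; `n` independent vectors form a basis `m`.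
4. common denominator: `D ≠ 0` in `A[X]` with `D w_j ∈ ∑ A[τ] m_i` (`exists_scale_L_family`); for `x ∈ Λ`:
   `g.d1 H x ∈ ∑ A[τ] w_j` (`g.span`), so `D' = D g.d1 H` satisfies `evL D' * m.repr x i = evL (poly)`.
5. `D' = a u d0 d1'` (`exists_content_family`, `exists_factor`), `d0` monic, `redP d1' = 1`.  Remove `d0` as in `span_monic`
   [`y ∈ Λ`, `d0 y = ∑ g_i m_i`; divide: `x3 = y - ∑ q_i m_i ∈ Λ`, `d0 x3 = ∑ ρ_i m_i`, `deg ρ_i < deg d0`; if `ρ ≠ 0` write
   `ρ = α ρ'` with `ρ'` primitive; `x4 = x3 / α` satisfies `d0 x4 = ∑ ρ'_i m_i ∈ Λ ⊂ VV`, so `x4 ∈ VV`, so `x4 ∈ Λ` by `sat`;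
   `x4 ≡ ∑ γ_i m_i` by `gen`, `d̄0 γ̄_i = ρ̄'_i` by `indep`: degrees], and the constant `a u` as in `span_const`.
-/

set_option autoImplicit false

noncomputable section

namespace Fermat.Agent.S34.T

open Polynomial Fermat.Agent.S18.KL

variable {K : Type*} [Field K] {A : ValuationSubring K}
variable {L : Type*} [Field L] [Algebra K L] {τ : L}
variable {E : Type*} [Field E] [Algebra L E]

namespace LatAux

theorem mem_VV_of_evE_mul {S : (↥A)[X]} (hS : redP A S ≠ 0) {x : E}
    (hx : evE A τ E S * x ∈ VV A τ E) : x ∈ VV A τ E := by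
  obtain ⟨S', hS', h⟩ := hx
  exact ⟨S' * S, by rw [map_mul]; exact mul_ne_zero hS' hS, by rw [map_mul, mul_assoc]; exact h⟩

theorem sum_mem {Λ : AddSubgroup E} (hΛ : IsLat A τ E Λ) {n : ℕ} (m : Fin n → E)
    (hm : ∀ i, m i ∈ Λ) (c : Fin n → (↥A)[X]) : ∑ i, evE A τ E (c i) * m i ∈ Λ :=
  Λ.sum_mem fun i _ => hΛ.smul _ _ (hm i)

theorem evK_C_eq (α : A) : evK K τ E (C (α : K)) = evE A τ E (C α) := by
  rw [evE_eq_evK, incP_C]

/-- monic denominators can be removed -/
theorem span_monic (hτ : Transcendental K τ) {Λ : AddSubgroup E} (hΛ : IsLat A τ E Λ) {n : ℕ}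
    (w : Module.Basis (Fin n) L E) (hw : ∀ i, w i ∈ Λ)
    (hgenC : ∀ x ∈ Λ, ∃ c : Fin n → (↥A)[X], SmV A τ E (x - ∑ i, evE A τ E (c i) * w i))
    (hind : ∀ c : Fin n → (↥A)[X], SmV A τ E (∑ i, evE A τ E (c i) * w i) →
      ∀ i, redP A (c i) = 0)
    {d0 : (↥A)[X]} (hd0 : d0.Monic) {y : E} (hy : y ∈ Λ) (g : Fin n → (↥A)[X])
    (hg : ∀ i, evL A τ d0 * w.repr y i = evL A τ (g i)) (i : Fin n) :
    ∃ c : (↥A)[X], w.repr y i = evL A τ c := by
  classical
  set q : Fin n → (↥A)[X] := fun i => g i /ₘ d0 with hq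
  set ρ : Fin n → (↥A)[X] := fun i => g i %ₘ d0 with hρ
  have hρq : ∀ i, g i - d0 * q i = ρ i := fun i => by
    rw [sub_eq_iff_eq_add]
    exact (Polynomial.modByMonic_add_div (g i) d0).symm
  set x3 := y - ∑ i, evE A τ E (q i) * w i with hx3
  have hx3mem : x3 ∈ Λ := Λ.sub_mem hy (sum_mem hΛ _ hw q)
  have key : evE A τ E d0 * x3 = ∑ i, evE A τ E (ρ i) * w i := by
    rw [hx3, BasisAux.evE_mul_sub_sum w d0 _ g q hg]
    simp_rw [hρq]
  have hd00 : evE A τ E d0 ≠ 0 := BasisAux.evE_ne_zero hτ hd0.ne_zero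
  by_cases hall : ∀ i, ρ i = 0
  · have hx30 : x3 = 0 := by
      have : evE A τ E d0 * x3 = 0 := by
        rw [key]
        exact Finset.sum_eq_zero fun i _ => by rw [hall i, map_zero, zero_mul]
      exact (mul_eq_zero.mp this).resolve_left hd00
    refine ⟨q i, ?_⟩
    have e1 : w.repr x3 i = 0 := by rw [hx30, map_zero]; rfl
    rw [hx3, map_sub, Finsupp.sub_apply, BasisAux.repr_sum_evE, sub_eq_zero] at e1
    exact e1
  · exfalso
    push Not at hall
    obtain ⟨α, hα, ρ', ⟨i1, hi1⟩, hρ'⟩ := exists_content_family A ρ hall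
    have hα0 : evE A τ E (C α) ≠ 0 := BasisAux.evE_ne_zero hτ (by simpa using hα)
    set x4 := (evE A τ E (C α))⁻¹ * x3 with hx4
    have key4 : evE A τ E d0 * x4 = ∑ i, evE A τ E (ρ' i) * w i := by
      apply mul_left_cancel₀ hα0
      rw [Finset.mul_sum]
      have : evE A τ E (C α) * (evE A τ E d0 * x4) = evE A τ E d0 * x3 := by
        rw [hx4]
        field_simp
      rw [this, key]
      refine Finset.sum_congr rfl fun i _ => ?_
      rw [hρ' i, map_mul, mul_assoc]
    have hx4VV : x4 ∈ VV A τ E := by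
      refine mem_VV_of_evE_mul (BasisAux.redP_monic_ne_zero hd0) ?_
      rw [key4]
      exact hΛ.le _ (sum_mem hΛ _ hw ρ')
    have hx4mem : x4 ∈ Λ := by
      refine hΛ.sat (α : K) x4 (by simpa using hα) hx4VV ?_
      rw [evK_C_eq, hx4, mul_inv_cancel_left₀ hα0]
      exact hx3mem
    obtain ⟨P, hP⟩ := hgenC x4 hx4mem
    have hg4 : ∀ i, evL A τ d0 * w.repr x4 i = evL A τ (ρ' i) := by
      intro i
      have e1 : w.repr (evE A τ E d0 * x4) i = w.repr (∑ i, evE A τ E (ρ' i) * w i) i := by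
        rw [key4]
      rwa [BasisAux.repr_sum_evE, BasisAux.evE_mul_eq_smul, map_smul, Finsupp.smul_apply,
        smul_eq_mul] at e1
    have h5 := SmV.mul_left A hP (C0_le_VV A τ E (evE_mem_C0 A τ E d0))
    rw [BasisAux.evE_mul_sub_sum w d0 x4 ρ' P hg4] at h5
    have h6 := hind _ h5 i1
    rw [map_sub, map_mul, sub_eq_zero] at h6
    have h7 : (redP A d0).degree ≤ (redP A (ρ' i1)).degree :=
      Polynomial.degree_le_of_dvd ⟨_, h6⟩ hi1
    have h8 : (redP A (ρ' i1)).degree ≤ (ρ' i1).degree := Polynomial.degree_map_le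
    have h9 : (ρ' i1).degree = (ρ i1).degree := by
      rw [hρ' i1, Polynomial.degree_C_mul hα]
    have h10 : (ρ i1).degree < d0.degree := Polynomial.degree_modByMonic_lt _ hd0
    have h11 : (redP A d0).degree = d0.degree := hd0.degree_map (IsLocalRing.residue A)
    rw [h11] at h7
    rw [h9] at h8
    exact absurd (lt_of_le_of_lt (h7.trans h8) h10) (lt_irrefl _)

/-- constant denominators can be removed -/
theorem span_const (hτ : Transcendental K τ) {n : ℕ}
    (w : Module.Basis (Fin n) L E)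
    (hind : ∀ c : Fin n → (↥A)[X], SmV A τ E (∑ i, evE A τ E (c i) * w i) →
      ∀ i, redP A (c i) = 0)
    {a : A} (ha : a ≠ 0) {y : E} (hy : y ∈ VV A τ E) (q : Fin n → (↥A)[X])
    (hq : ∀ i, evL A τ (C a) * w.repr y i = evL A τ (q i)) (i : Fin n) :
    ∃ c : (↥A)[X], w.repr y i = evL A τ c := by
  classical
  have ha0 : evL A τ (C a) ≠ 0 := by
    intro h0
    have := evL_injective A hτ (h0.trans (map_zero _).symm)
    exact ha (by simpa using this)
  by_cases hall : ∀ i, q i = 0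
  · refine ⟨0, ?_⟩
    have := hq i
    rw [hall i, map_zero] at this
    rw [map_zero]
    exact (mul_eq_zero.mp this).resolve_left ha0
  push Not at hall
  obtain ⟨α, hα, q', ⟨i1, hi1⟩, hq'⟩ := exists_content_family A q hall
  have hα0 : evL A τ (C α) ≠ 0 := by
    intro h0
    have := evL_injective A hτ (h0.trans (map_zero _).symm)
    exact hα (by simpa using this)
  rcases ValuationRing.dvd_total a α with ⟨μ, rfl⟩ | ⟨μ, rfl⟩
  · refine ⟨C μ * q' i, ?_⟩
    apply mul_left_cancel₀ ha0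
    rw [hq i, hq' i, C_mul, map_mul, map_mul, map_mul, mul_assoc]
  · have hrep : ∀ i, evL A τ (C μ) * w.repr y i = evL A τ (q' i) := by
      intro i
      apply mul_left_cancel₀ hα0
      rw [← mul_assoc, ← map_mul, ← C_mul, hq i, hq' i, map_mul]
    have hsum : ∑ i, evE A τ E (q' i) * w i = evE A τ E (C μ) * y := by
      conv_rhs => rw [← w.sum_repr y, Finset.mul_sum]
      refine Finset.sum_congr rfl fun i _ => ?_
      rw [evE_apply, evE_apply, ← hrep i, map_mul, Algebra.smul_def, mul_assoc]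
    by_cases hμ : μ ∈ IsLocalRing.maximalIdeal A
    · exact absurd (hind q' (by rw [hsum]; exact ⟨μ, hμ, y, hy, rfl⟩) i1) hi1
    · rw [IsLocalRing.mem_maximalIdeal, mem_nonunits_iff, not_not] at hμ
      obtain ⟨u, rfl⟩ := hμ
      refine ⟨C ((u⁻¹ : (↥A)ˣ) : ↥A) * q' i, ?_⟩
      rw [map_mul, ← hrep i, ← mul_assoc, ← map_mul, ← C_mul, Units.inv_mul, C_1, map_one, one_mul]

/-- `indep` implies linear independence over `L` -/
theorem linearIndependent_of_indep (hτ : Transcendental K τ) (hgen : IsGen K τ) {m : ℕ}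
    (e : Fin m → E)
    (hind : ∀ c : Fin m → (↥A)[X], SmV A τ E (∑ i, evE A τ E (c i) * e i) →
      ∀ i, redP A (c i) = 0) : LinearIndependent L e := by
  rw [Fintype.linearIndependent_iff]
  intro x hx
  by_contra hne
  push Not at hne
  obtain ⟨a, ha, S, P, hS, ⟨i1, hi1⟩, h⟩ := exists_scale_L_family A hτ hgen x hne
  have ha' : algebraMap L E (algebraMap K L a) ≠ 0 := by simpa using ha
  have h0 : ∑ i, evE A τ E (P i) * e i = 0 := by
    apply mul_left_cancel₀ ha'
    rw [mul_zero, Finset.mul_sum]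
    have : ∀ i, algebraMap L E (algebraMap K L a) * (evE A τ E (P i) * e i) =
        evE A τ E S * (x i • e i) := by
      intro i
      rw [evE_apply, evE_apply, ← mul_assoc, ← map_mul, ← h i, map_mul, Algebra.smul_def, mul_assoc]
    simp_rw [this]
    rw [← Finset.mul_sum, hx, mul_zero]
  exact hi1 (hind P (by rw [h0]; exact SmV_zero_aux) i1)

/-- a common denominator in `A[X]` -/
theorem exists_common_den (hτ : Transcendental K τ) (hgen : IsGen K τ) {ι : Type*} [Finite ι]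
    (x : ι → L) : ∃ D : (↥A)[X], D ≠ 0 ∧ ∃ P : ι → (↥A)[X], ∀ i, evL A τ D * x i = evL A τ (P i) := by
  by_cases hx : ∃ i, x i ≠ 0
  · obtain ⟨a, ha, S, P, hS, -, h⟩ := exists_scale_L_family A hτ hgen x hx
    rcases A.mem_or_inv_mem a with ha' | ha'
    · refine ⟨S, ne_zero_of_redP A hS, fun i => C ⟨a, ha'⟩ * P i, fun i => ?_⟩
      rw [h i, map_mul, evL_C]
    · have hne : (⟨a⁻¹, ha'⟩ : A) ≠ 0 := by
        intro h0
        exact inv_ne_zero ha (congrArg Subtype.val h0)
      refine ⟨C ⟨a⁻¹, ha'⟩ * S, mul_ne_zero (by simpa using hne) (ne_zero_of_redP A hS), P,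
        fun i => ?_⟩
      rw [map_mul, evL_C, mul_assoc, h i, ← mul_assoc, ← map_mul]
      simp [inv_mul_cancel₀ ha]
  · push Not at hx
    exact ⟨1, one_ne_zero, fun _ => 0, fun i => by rw [hx i, mul_zero, map_zero]⟩

/-- the reduction of `H Λ` -/
def jj (Λ : AddSubgroup E) (hΛ : IsLat A τ E Λ) (H : (↥A)[X]) :
    Submodule (kk A)[X] (Cbar A τ E) where
  carrier := {Y | ∃ x ∈ Λ, ∃ z : C0 A τ E, (z : E) = evE A τ E H * x ∧
    Y = Ideal.Quotient.mk (mC0 A τ E) z}
  add_mem' := by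
    rintro _ _ ⟨x, hx, z, hz, rfl⟩ ⟨x', hx', z', hz', rfl⟩
    exact ⟨x + x', Λ.add_mem hx hx', z + z', by rw [Subring.coe_add, hz, hz', mul_add],
      (map_add _ _ _).symm⟩
  zero_mem' := ⟨0, Λ.zero_mem, 0, by simp, (map_zero _).symm⟩
  smul_mem' := by
    rintro r _ ⟨x, hx, z, hz, rfl⟩
    obtain ⟨c, rfl⟩ := redP_surjective A r
    refine ⟨evE A τ E c * x, hΛ.smul c x hx, toC0 A τ E c * z, ?_, WeakAux.smul_mk c z⟩
    rw [Subring.coe_mul, coe_toC0, hz]
    ring

end LatAux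

theorem exists_wlat [IsAlgClosed K] [CharZero K] [FiniteDimensional L E]
    (hτ : Transcendental K τ) (hgen : IsGen K τ) {n : ℕ} (g : WBasis A τ E n)
    (Λ : AddSubgroup E) (hΛ : IsLat A τ E Λ) : Nonempty (WLat A τ E Λ n) := by
  classical
  obtain ⟨H, hH, hden⟩ := hΛ.den
  obtain ⟨b, hb⟩ := g.exists_bar hτ hgen
  set J := LatAux.jj Λ hΛ H with hJ
  have hnE : Module.finrank L E = n := by
    rw [Module.finrank_eq_card_basis g.w, Fintype.card_fin]
  have hfinC : Module.Finite (kk A)[X] (Cbar A τ E) := Module.Finite.of_basis b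
  have hrkC : Module.finrank (kk A)[X] (Cbar A τ E) = n := by
    rw [Module.finrank_eq_card_basis b, Fintype.card_fin]
  obtain ⟨r, bj⟩ := Submodule.basisOfPid b J
  have hfinJ : Module.Finite (kk A)[X] J := Module.Finite.of_basis bj
  have hfreeJ : Module.Free (kk A)[X] J := Module.Free.of_basis bj
  -- rank
  have hrk : Module.finrank (kk A)[X] J = n := by
    apply le_antisymm
    · rw [← hrkC]
      exact Submodule.finrank_le J
    · choose S hS hSw using fun i => hΛ.full (g.w i) (C0_le_VV A τ E (g.mem i))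
      let z : Fin n → C0 A τ E := fun i => toC0 A τ E (H * S i) * ⟨g.w i, g.mem i⟩
      have hz : ∀ i, Ideal.Quotient.mk (mC0 A τ E) (z i) ∈ J := fun i =>
        ⟨evE A τ E (S i) * g.w i, hSw i, z i, by
          simp only [z]
          rw [Subring.coe_mul, coe_toC0, map_mul, mul_assoc], rfl⟩
      let v : Fin n → J := fun i => ⟨_, hz i⟩
      have hli : LinearIndependent (kk A)[X] v := by
        rw [Fintype.linearIndependent_iff]
        intro c hc i
        have h1 := congrArg (Subtype.val) hc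
        rw [AddSubmonoidClass.coe_finsetSum] at h1
        have h2 : ∑ i, (c i * redP A (H * S i)) • b i = 0 := by
          rw [← Submodule.coe_zero (p := J), ← h1]
          refine Finset.sum_congr rfl fun i _ => ?_
          rw [Submodule.coe_smul, mul_smul, hb i, WeakAux.smul_mk]
        have h3 := (Fintype.linearIndependent_iff.mp b.linearIndependent) _ h2 i
        rw [map_mul] at h3
        exact (mul_eq_zero.mp h3).resolve_right (mul_ne_zero hH (hS i))
      have := hli.fintype_card_le_finrank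
      rwa [Fintype.card_fin] at this
  let bJ : Module.Basis (Fin n) (kk A)[X] J := Module.finBasisOfFinrankEq (kk A)[X] J hrk
  choose m hm z hz hmk using fun i => (bJ i).2
  -- gen
  have hgenC : ∀ x ∈ Λ, ∃ c : Fin n → (↥A)[X], SmV A τ E (x - ∑ i, evE A τ E (c i) * m i) := by
    intro x hx
    let Y : J := ⟨Ideal.Quotient.mk (mC0 A τ E) ⟨evE A τ E H * x, hden x hx⟩,
      x, hx, ⟨evE A τ E H * x, hden x hx⟩, rfl, rfl⟩
    choose c hc using fun i => redP_surjective A (bJ.repr Y i)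
    refine ⟨c, ?_⟩
    have h1 : Ideal.Quotient.mk (mC0 A τ E) ⟨evE A τ E H * x, hden x hx⟩ =
        Ideal.Quotient.mk (mC0 A τ E) (∑ i, toC0 A τ E (c i) * z i) := by
      rw [← WeakAux.mk_sum_eq]
      simp_rw [hc, ← hmk]
      have := congrArg Subtype.val (bJ.sum_repr Y)
      rw [AddSubmonoidClass.coe_finsetSum] at this
      exact this.symm
    rw [Ideal.Quotient.eq, mem_mC0, AddSubgroupClass.coe_sub, WeakAux.coe_sum_eq] at h1
    apply SmV_of_evE_mul A hτ hH
    have e : evE A τ E H * (x - ∑ i, evE A τ E (c i) * m i) =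
        evE A τ E H * x - ∑ i, evE A τ E (c i) * (z i : E) := by
      rw [mul_sub, Finset.mul_sum]
      congr 1
      refine Finset.sum_congr rfl fun i _ => ?_
      rw [hz i]; ring
    rw [e]
    exact Sm0.SmV A h1
  -- indep
  have hind : ∀ c : Fin n → (↥A)[X], SmV A τ E (∑ i, evE A τ E (c i) * m i) →
      ∀ i, redP A (c i) = 0 := by
    intro c hc
    have e : ((∑ i, toC0 A τ E (c i) * z i : C0 A τ E) : E) =
        evE A τ E H * ∑ i, evE A τ E (c i) * m i := by
      rw [WeakAux.coe_sum_eq, Finset.mul_sum]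
      refine Finset.sum_congr rfl fun i _ => ?_
      rw [hz i]; ring
    have h1 : Sm0 A τ E ((∑ i, toC0 A τ E (c i) * z i : C0 A τ E) : E) := by
      refine Sm0_of_SmV A hτ hgen (Subtype.coe_prop _) ?_
      rw [e]
      exact SmV.mul_left A hc (C0_le_VV A τ E (evE_mem_C0 A τ E H))
    rw [← mk_eq_zero_iff, ← WeakAux.mk_sum_eq] at h1
    have h2 : ∑ i, redP A (c i) • bJ i = 0 := by
      apply Subtype.ext
      rw [AddSubmonoidClass.coe_finsetSum, Submodule.coe_zero, ← h1]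
      refine Finset.sum_congr rfl fun i _ => ?_
      rw [Submodule.coe_smul, hmk i]
    exact Fintype.linearIndependent_iff.mp bJ.linearIndependent _ h2
  have hli := LatAux.linearIndependent_of_indep hτ hgen m hind
  have hne : Nonempty (Fin n) := ⟨⟨0, by rw [← hnE]; exact Module.finrank_pos⟩⟩
  let M : Module.Basis (Fin n) L E :=
    basisOfLinearIndependentOfCardEqFinrank hli (by simp [hnE])
  have hM : ⇑M = m := coe_basisOfLinearIndependentOfCardEqFinrank _ _
  have hm' : ∀ i, M i ∈ Λ := by rw [hM]; exact hm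
  have hgenC' : ∀ x ∈ Λ, ∃ c : Fin n → (↥A)[X], SmV A τ E (x - ∑ i, evE A τ E (c i) * M i) := by
    rw [hM]; exact hgenC
  have hind' : ∀ c : Fin n → (↥A)[X], SmV A τ E (∑ i, evE A τ E (c i) * M i) →
      ∀ i, redP A (c i) = 0 := by rw [hM]; exact hind
  -- common denominator
  obtain ⟨D, hD0, P, hP⟩ := LatAux.exists_common_den (A := A) hτ hgen
    (fun ji : Fin n × Fin n => M.repr (g.w ji.1) ji.2)
  have hd10 : g.d1 ≠ 0 := ne_zero_of_redP A (by rw [g.red_d1]; exact one_ne_zero)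
  set D' := D * (g.d1 * H) with hD'
  have hD'0 : D' ≠ 0 := mul_ne_zero hD0 (mul_ne_zero hd10 (ne_zero_of_redP A hH))
  have hspan0 : ∀ x ∈ Λ, ∀ i, ∃ c : (↥A)[X], evL A τ D' * M.repr x i = evL A τ c := by
    intro x hx i
    choose c hc using g.span (evE A τ E H * x) (hden x hx)
    refine ⟨∑ j, c j * P (j, i), ?_⟩
    have e1 : evL A τ g.d1 • (evL A τ H • x) = ∑ j, evL A τ (c j) • g.w j := by
      conv_lhs => rw [← BasisAux.evE_mul_eq_smul H x, ← g.w.sum_repr (evE A τ E H * x),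
        Finset.smul_sum]
      refine Finset.sum_congr rfl fun j _ => ?_
      rw [smul_smul, hc j]
    have e2 := congrArg (fun y => M.repr y i) e1
    simp only [map_smul, map_sum, Finsupp.smul_apply, Finsupp.coe_finsetSum, Finset.sum_apply,
      smul_eq_mul] at e2
    rw [hD', map_mul, map_mul, map_sum, mul_assoc, mul_assoc, e2, Finset.mul_sum]
    refine Finset.sum_congr rfl fun j _ => ?_
    rw [map_mul, ← hP (j, i)]
    ring
  obtain ⟨a, ha, D'', ⟨⟨⟩, hD''⟩, hDD⟩ := exists_content_family A (fun _ : Unit => D') ⟨(), hD'0⟩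
  obtain ⟨u, d0, d1, hu, hfac, hd0, hd1⟩ := exists_factor A (D'' ()) hD''
  have hau : a * u ≠ 0 := mul_ne_zero ha hu.ne_zero
  have hDfac : D' = d0 * (C (a * u) * d1) := by
    rw [hDD (), hfac, C_mul]; ring
  refine ⟨⟨M, hm', d1, hd1, fun x hx i => ?_, hind'⟩⟩
  choose G hG using fun i => hspan0 x hx i
  have hy1 : evE A τ E d1 * x ∈ Λ := hΛ.smul _ _ hx
  have hy2 : evE A τ E (C (a * u)) * (evE A τ E d1 * x) ∈ Λ := hΛ.smul _ _ hy1
  have hg2 : ∀ i, evL A τ d0 * M.repr (evE A τ E (C (a * u)) * (evE A τ E d1 * x)) i =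
      evL A τ (G i) := by
    intro i
    rw [BasisAux.evE_mul_eq_smul, BasisAux.evE_mul_eq_smul, map_smul, map_smul,
      Finsupp.smul_apply, Finsupp.smul_apply, smul_eq_mul, smul_eq_mul, ← hG i, hDfac,
      map_mul (evL A τ) d0, map_mul (evL A τ) (C (a * u)) d1]
    ring
  choose q hq using fun i => LatAux.span_monic hτ hΛ M hm' hgenC' hind' hd0 hy2 G hg2 i
  have hq2 : ∀ i, evL A τ (C (a * u)) * M.repr (evE A τ E d1 * x) i = evL A τ (q i) := by
    intro i
    rw [← hq i, BasisAux.evE_mul_eq_smul (C (a * u)), map_smul, Finsupp.smul_apply, smul_eq_mul]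
  obtain ⟨c, hc⟩ := LatAux.span_const hτ M hind' hau (hΛ.le _ hy1) q hq2 i
  refine ⟨c, ?_⟩
  rw [← hc, BasisAux.evE_mul_eq_smul, map_smul, Finsupp.smul_apply, smul_eq_mul]

end Fermat.Agent.S34.T
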